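import Fermat.Agent.IdeleClass.Compact
import Fermat.Agent.Ideles.Abelian
import Mathlib.FieldTheory.Galois.Profinite
import Mathlib.GroupTheory.FiniteAbelian.Basic
import Mathlib.NumberTheory.NumberField.Units.DirichletTheorem
import Mathlib.Topology.Algebra.Group.ClosedSubgroup

/-!
# The idele class group and the abelian Galois group

The Artin map from the idele class group to the Galois group of the maximal abelian extension is
onto and a quotient map for the topologies.  Its kernel is the closure of the image of the positive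
infinite ideles, which is the connected component of the identity and the group of infinitely
divisible classes.  For finite unit group the image of the positive infinite ideles is closed
already.
-/

set_option autoImplicit false
set_option linter.unusedSectionVars false
set_option linter.style.haveILetI false

noncomputable section

open NumberField NumberField.InfinitePlace NumberField.InfinitePlace.Completion IsDedekindDomain
open WithZero Topology
open FA.ArtinRec FA.NormResidue FA.Ideles
open scoped Pointwise Classical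

namespace FA.IdeleClass

universe u

variable {K : Type u} [Field K] [NumberField K]

/-! ### Open subgroups containing the principal ideles -/

/-- An open subgroup containing the principal ideles has finite index. -/
theorem index_ne_zero_of_isOpen {H : Subgroup (Idele K)} (hH : IsOpen (H : Set (Idele K)))
    (hp : (principal (K := K)).range ≤ H) : H.index ≠ 0 := by
  obtain ⟨L, i1, i2, i3, i4, i5, hL⟩ := exists_ker_artinIdele_eq hH hp
  rw [← hL, Subgroup.index_ker]
  exact Nat.card_pos.ne'

/-- **Open subgroups above the principal ideles: closed of finite index.** -/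
theorem isOpen_iff_isClosed_finiteIndex {H : Subgroup (Idele K)}
    (hp : (principal (K := K)).range ≤ H) :
    IsOpen (H : Set (Idele K)) ↔ IsClosed (H : Set (Idele K)) ∧ H.index ≠ 0 :=
  ⟨fun h => ⟨H.isClosed_of_isOpen h, index_ne_zero_of_isOpen h hp⟩, fun ⟨hc, hi⟩ =>
    haveI : H.FiniteIndex := ⟨hi⟩
    H.isOpen_of_isClosed_of_finiteIndex hc⟩

theorem isOpen_levelSub_zero :
    IsOpen (levelSub (K := K) (∅ : Set (HeightOneSpectrum (𝓞 K))) 0 : Set (Idele K)) :=
  isOpen_levelSub Set.finite_empty 0

theorem finite_quotient_levelSub_zero :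
    Finite (Idele K ⧸ ((principal (K := K)).range ⊔
      levelSub (K := K) (∅ : Set (HeightOneSpectrum (𝓞 K))) 0)) :=
  haveI : Subgroup.FiniteIndex ((principal (K := K)).range ⊔
      levelSub (K := K) (∅ : Set (HeightOneSpectrum (𝓞 K))) 0) :=
    ⟨index_ne_zero_of_isOpen (Subgroup.isOpen_mono le_sup_right isOpen_levelSub_zero) le_sup_left⟩
  inferInstance

/-- **Finitely many translates of the principal ideles times level zero.** -/
theorem exists_reps : ∃ C : Finset (Idele K), ∀ x : Idele K, ∃ c ∈ C, ∃ (a : Kˣ) (l : Idele K),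
    l ∈ levelSub (∅ : Set (HeightOneSpectrum (𝓞 K))) 0 ∧ x = c * (principal a * l) := by
  haveI := finite_quotient_levelSub_zero (K := K)
  haveI := Fintype.ofFinite (Idele K ⧸ ((principal (K := K)).range ⊔
      levelSub (K := K) (∅ : Set (HeightOneSpectrum (𝓞 K))) 0))
  refine ⟨Finset.univ.image fun q : Idele K ⧸ ((principal (K := K)).range ⊔
      levelSub (K := K) (∅ : Set (HeightOneSpectrum (𝓞 K))) 0) => q.out, fun x => ?_⟩
  obtain ⟨_, ⟨a, rfl⟩, l, hl, h⟩ := Subgroup.mem_sup.1
    (QuotientGroup.eq.1 (Quotient.out_eq (QuotientGroup.mk x : Idele K ⧸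
      ((principal (K := K)).range ⊔ levelSub (K := K) (∅ : Set (HeightOneSpectrum (𝓞 K))) 0))))
  exact ⟨_, Finset.mem_image.2 ⟨_, Finset.mem_univ _, rfl⟩, a, l, hl, by
    rw [h, mul_inv_cancel_left]⟩

/-- A neighbourhood of `1` contains the elements of a level subgroup with trivial infinite part. -/
theorem exists_levelSub_subset {N : Set (Idele K)} (hN : IsOpen N) (h1N : (1 : Idele K) ∈ N) :
    ∃ T : Set (HeightOneSpectrum (𝓞 K)), T.Finite ∧ ∃ k : ℕ, ∀ y ∈ levelSub T k,
      (∀ w, infComp w y = 1) → y ∈ N := by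
  obtain ⟨W, hW, hWN⟩ := isOpen_induced_iff.1 hN
  have h1 : ((1 : AdeleRing (𝓞 K) K), MulOpposite.op (1 : AdeleRing (𝓞 K) K)) ∈ W := by
    rw [← hWN] at h1N
    exact h1N
  obtain ⟨U1, U2, hU1, hU2, h11, h12, hsub⟩ := isOpen_prod_iff.1 hW _ _ h1
  set U : Set (AdeleRing (𝓞 K) K) := U1 ∩ MulOpposite.op ⁻¹' U2
  have hU : IsOpen U := hU1.inter (hU2.preimage MulOpposite.continuous_op)
  have hUN : ∀ x : Idele K, x.val ∈ U → (↑x⁻¹ : AdeleRing (𝓞 K) K) ∈ U → x ∈ N :=
    fun x hx hx' => by
      rw [← hWN]
      exact hsub ⟨hx.1, hx'.2⟩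
  have hU' : IsOpen (X := InfiniteAdeleRing K × FiniteAdeleRing (𝓞 K) K) U := hU
  obtain ⟨Ui, Uf, hUi, hUf, hi1, hf1, hsub'⟩ := isOpen_prod_iff.1 hU'
    (1 : InfiniteAdeleRing K) (1 : FiniteAdeleRing (𝓞 K) K) ⟨h11, h12⟩
  set S : ((v : HeightOneSpectrum (𝓞 K)) → v.adicCompletionIntegers K) →
      FiniteAdeleRing (𝓞 K) K := RestrictedProduct.structureMap _ _ Filter.cofinite
  have hS : Continuous S := RestrictedProduct.isEmbedding_structureMap.continuous
  obtain ⟨T, u, hu, hTu⟩ := isOpen_pi_iff.1 (hUf.preimage hS) (fun _ => 1)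
    (show S (fun _ => 1) ∈ Uf by exact hf1)
  choose k hk using fun v : {v // v ∈ T} => exists_level_subset v.1 (hu v.1 v.2).1 (hu v.1 v.2).2
  have key : ∀ y : Idele K, y ∈ levelSub (T : Set (HeightOneSpectrum (𝓞 K))) (Finset.univ.sup k) →
      (∀ w, infComp w y = 1) → y.val ∈ U := fun y hy hyw => by
    refine hsub' ⟨?_, ?_⟩
    · rw [show y.val.1 = (1 : InfiniteAdeleRing K) from funext fun w => congrArg Units.val (hyw w)]
      exact hi1
    · have hint : ∀ v, ((finComp v y : (v.adicCompletion K)ˣ) : v.adicCompletion K) ∈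
          v.adicCompletionIntegers K := fun v => by
        rw [HeightOneSpectrum.mem_adicCompletionIntegers]
        by_cases hv : v ∈ T
        · exact (valued_eq_one_of_nearLocal v (hy.2.1 v (Finset.mem_coe.2 hv))).le
        · exact (hy.1 v (fun h => hv (Finset.mem_coe.1 h))).le
      rw [show y.val.2 = S fun v => ⟨_, hint v⟩ from FiniteAdeleRing.ext _ fun v => rfl]
      refine hTu fun v hv => hk ⟨v, hv⟩ _ ((hy.2.1 v (Finset.mem_coe.2 hv)).trans (exp_le_exp.2 ?_))
      have := Finset.le_sup (f := k) (Finset.mem_univ (⟨v, hv⟩ : {v // v ∈ T}))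
      omega
  exact ⟨T, T.finite_toSet, Finset.univ.sup k, fun y hy hyw => hUN y (key y hy hyw)
    (key _ (inv_mem hy) fun w => by rw [map_inv, hyw, inv_one])⟩

/-- The finite part of an element of a level subgroup is a unit idele of the same level. -/
theorem div_infPart_mem {T : Set (HeightOneSpectrum (𝓞 K))} {k : ℕ} {x : Idele K}
    (hx : x ∈ levelSub T k) :
    x / infPart x ∈ levelSub T k ∧ x / infPart x ∈ unitFin K ∧ infPart x ∈ posInf K := by
  refine ⟨⟨fun v hv => ?_, fun v hv => ?_, fun w hr => ?_⟩, ⟨fun v => ?_, fun w => ?_⟩,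
    infPart_mem_posInf hx.2.2⟩
  · rw [map_div, finComp_infPart, div_one]
    exact hx.1 v hv
  · rw [map_div, finComp_infPart, div_one]
    exact hx.2.1 v hv
  · rw [map_div, infComp_infPart, div_self', Units.val_one, map_one]
    exact one_pos
  · rw [map_div, finComp_infPart, div_one]
    exact if hv : v ∈ T then valued_eq_one_of_nearLocal v (hx.2.1 v hv) else hx.1 v hv
  · rw [map_div, infComp_infPart, div_self']

/-! ### The Artin map -/

theorem artinAbel_posInf {x : Idele K} (hx : x ∈ posInf K) :
    artinAbel (maxAbelian K) x = 1 :=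
  (artinAbel_maxAbelian_eq_one_iff x).2 fun _ hH _ => posInf_le_of_isOpen hH hx

theorem artinAbel_principal (a : Kˣ) : artinAbel (maxAbelian K) (principal a) = 1 :=
  (artinAbel_maxAbelian_eq_one_iff _).2 fun _ _ hp => hp ⟨a, rfl⟩

/-- The image of a level subgroup is the image of a compact group of units. -/
theorem image_levelSub (T : Set (HeightOneSpectrum (𝓞 K))) (k : ℕ) :
    ((levelSub T k).map (artinAbel (maxAbelian K)) : Set (maxAbelian K ≃ₐ[K] maxAbelian K)) =
      artinAbel (maxAbelian K) '' ((levelSub T k : Set (Idele K)) ∩ unitFin K) := by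
  refine Set.Subset.antisymm ?_ (Set.image_mono Set.inter_subset_left)
  rintro _ ⟨x, hx, rfl⟩
  obtain ⟨h1, h2, h3⟩ := div_infPart_mem hx
  exact ⟨x / infPart x, ⟨h1, h2⟩, by rw [map_div, artinAbel_posInf h3, div_one]⟩

/-- The Galois group is Hausdorff. -/
theorem t2Space_galAbel : T2Space (maxAbelian K ≃ₐ[K] maxAbelian K) := krullTopology_t2

/-- The images of the level subgroups are compact. -/
theorem isCompact_image_levelSub {T : Set (HeightOneSpectrum (𝓞 K))} (hT : T.Finite) (k : ℕ) :
    IsCompact ((levelSub T k).map (artinAbel (maxAbelian K)) :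
      Set (maxAbelian K ≃ₐ[K] maxAbelian K)) := by
  rw [image_levelSub]
  exact (isCompact_unitFin.inter_left
    ((levelSub T k).isClosed_of_isOpen (isOpen_levelSub hT k))).image continuous_artinAbel

/-- **The Artin map is onto the Galois group of the maximal abelian extension.** -/
theorem artinAbel_surjective : Function.Surjective (artinAbel (K := K) (maxAbelian K)) := by
  haveI := t2Space_galAbel (K := K)
  set S := (levelSub (K := K) (∅ : Set (HeightOneSpectrum (𝓞 K))) 0).map (artinAbel (maxAbelian K))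
  obtain ⟨C, hC⟩ := exists_reps (K := K)
  have hrange : Set.range (artinAbel (K := K) (maxAbelian K)) =
      ⋃ c ∈ C, (fun g => artinAbel (maxAbelian K) c * g) ''
        (S : Set (maxAbelian K ≃ₐ[K] maxAbelian K)) := by
    refine Set.Subset.antisymm ?_ ?_
    · rintro _ ⟨x, rfl⟩
      obtain ⟨c, hc, a, l, hl, rfl⟩ := hC x
      exact Set.mem_iUnion₂.2 ⟨c, hc, artinAbel (maxAbelian K) l, ⟨l, hl, rfl⟩, by
        rw [map_mul, map_mul, artinAbel_principal, one_mul]⟩
    · refine Set.iUnion₂_subset fun c _ => ?_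
      rintro _ ⟨_, ⟨l, -, rfl⟩, rfl⟩
      exact ⟨c * l, map_mul _ _ _⟩
  have hcl : IsClosed (Set.range (artinAbel (K := K) (maxAbelian K))) := by
    rw [hrange]
    exact C.finite_toSet.isClosed_biUnion fun c _ =>
      ((isCompact_image_levelSub Set.finite_empty 0).image (continuous_const_mul _)).isClosed
  rw [← Set.range_eq_univ, ← hcl.closure_eq]
  exact denseRange_artinAbel.closure_range

/-- **The Artin map is open.** -/
theorem isOpenMap_artinAbel : IsOpenMap (artinAbel (K := K) (maxAbelian K)) := by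
  haveI := t2Space_galAbel (K := K)
  intro U hU
  refine isOpen_iff_forall_mem_open.2 ?_
  rintro _ ⟨x, hx, rfl⟩
  obtain ⟨T, hT, k, hk⟩ := exists_levelSub_subset (hU.preimage (continuous_const_mul x))
    (show x * 1 ∈ U by rwa [mul_one])
  set S := (levelSub T k).map (artinAbel (maxAbelian K))
  haveI : S.FiniteIndex := by
    refine ⟨fun h0 => ?_⟩
    have hle : ((principal (K := K)).range ⊔ levelSub T k).map (artinAbel (maxAbelian K)) = S := by
      rw [Subgroup.map_sup, sup_eq_right]
      rintro _ ⟨_, ⟨a, rfl⟩, rfl⟩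
      rw [artinAbel_principal]
      exact one_mem _
    have h := Subgroup.index_map_dvd (H := (principal (K := K)).range ⊔ levelSub T k)
      (f := artinAbel (K := K) (maxAbelian K)) artinAbel_surjective
    rw [hle, h0, zero_dvd_iff] at h
    exact index_ne_zero_of_isOpen
      (Subgroup.isOpen_mono le_sup_right (isOpen_levelSub hT k)) le_sup_left h
  have hS : IsOpen (S : Set (maxAbelian K ≃ₐ[K] maxAbelian K)) :=
    S.isOpen_of_isClosed_of_finiteIndex (isCompact_image_levelSub hT k).isClosed
  refine ⟨artinAbel (maxAbelian K) x • (S : Set (maxAbelian K ≃ₐ[K] maxAbelian K)), ?_,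
    hS.leftCoset _, ⟨1, one_mem S, mul_one _⟩⟩
  rintro _ ⟨g, hg, rfl⟩
  rw [show (S : Set (maxAbelian K ≃ₐ[K] maxAbelian K)) = _ from image_levelSub T k] at hg
  obtain ⟨y, ⟨hy, hy'⟩, rfl⟩ := hg
  exact ⟨x * y, hk y hy hy'.2, by rw [map_mul]; rfl⟩

/-- **The Artin map is an open quotient map.** -/
theorem isOpenQuotientMap_artinAbel : IsOpenQuotientMap (artinAbel (K := K) (maxAbelian K)) :=
  ⟨artinAbel_surjective, continuous_artinAbel, isOpenMap_artinAbel⟩

/-! ### The kernel -/

theorem isClosed_ker_artinAbel :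
    IsClosed ((artinAbel (K := K) (maxAbelian K)).ker : Set (Idele K)) := by
  haveI := t2Space_galAbel (K := K)
  exact (isClosed_singleton (x := (1 : maxAbelian K ≃ₐ[K] maxAbelian K))).preimage
    continuous_artinAbel

/-- **The kernel of the Artin map.** -/
theorem ker_artinAbel : (artinAbel (K := K) (maxAbelian K)).ker =
    ((principal (K := K)).range ⊔ posInf K).topologicalClosure := by
  refine le_antisymm (fun x hx => ?_) (Subgroup.topologicalClosure_minimal _ (sup_le ?_ ?_)
    isClosed_ker_artinAbel)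
  · refine mem_closure_iff.2 fun U hU hxU => ?_
    obtain ⟨T, hT, k, hk⟩ := exists_levelSub_subset
      (hU.preimage ((continuous_const (y := x)).div' continuous_id))
      (show x / 1 ∈ U by rwa [div_one])
    have hxH := (artinAbel_maxAbelian_eq_one_iff x).1 hx
      ((principal (K := K)).range ⊔ posInf K ⊔ levelSub T k)
      (Subgroup.isOpen_mono le_sup_right (isOpen_levelSub hT k))
      (le_sup_left.trans le_sup_left)
    obtain ⟨p, hp, l, hl, rfl⟩ := Subgroup.mem_sup.1 hxH
    obtain ⟨h1, h2, h3⟩ := div_infPart_mem hl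
    refine ⟨p * l / (l / infPart l), hk _ h1 h2.2, ?_⟩
    rw [mul_div_assoc, div_div_cancel]
    exact mul_mem hp (le_sup_right (α := Subgroup (Idele K)) h3)
  · rintro _ ⟨a, rfl⟩
    exact artinAbel_principal a
  · exact fun x hx => artinAbel_posInf hx

/-- **The classes of the kernel form the connected component of the identity.** -/
theorem connectedComponent_one_ideleClass :
    connectedComponent (1 : Idele K ⧸ (principal (K := K)).range) =
      QuotientGroup.mk '' ((artinAbel (K := K) (maxAbelian K)).ker : Set (Idele K)) := by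
  have hle : (principal (K := K)).range ≤ (artinAbel (K := K) (maxAbelian K)).ker := by
    rintro _ ⟨a, rfl⟩
    exact artinAbel_principal a
  refine Set.Subset.antisymm (fun q hq => ?_) ?_
  · obtain ⟨x, rfl⟩ := QuotientGroup.mk_surjective q
    refine ⟨x, MonoidHom.mem_ker.2 ?_, rfl⟩
    let θ := QuotientGroup.lift _ (artinAbel (K := K) (maxAbelian K)) hle
    have hθ : Continuous θ :=
      (QuotientGroup.isOpenQuotientMap_mk.continuous_comp_iff (g := θ)).1 continuous_artinAbel
    have h := (isPreconnected_connectedComponent.image θ hθ.continuousOn).subsingleton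
      ⟨_, hq, rfl⟩ ⟨_, mem_connectedComponent, rfl⟩
    rwa [map_one] at h
  · rw [ker_artinAbel]
    refine (image_closure_subset_closure_image QuotientGroup.continuous_mk).trans ?_
    rw [show (QuotientGroup.mk : Idele K → Idele K ⧸ (principal (K := K)).range) ''
        (((principal (K := K)).range ⊔ posInf K : Subgroup (Idele K)) : Set (Idele K)) =
        QuotientGroup.mk '' (posInf K : Set (Idele K)) from ?_]
    · exact (isPreconnected_posInf.image _
        QuotientGroup.continuous_mk.continuousOn).closure.subset_connectedComponent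
          (subset_closure ⟨1, one_mem _, rfl⟩)
    refine Set.Subset.antisymm ?_ (Set.image_mono (SetLike.coe_subset_coe.2 le_sup_right))
    rintro _ ⟨y, hy, rfl⟩
    obtain ⟨_, ⟨a, rfl⟩, z, hz, rfl⟩ := Subgroup.mem_sup.1 hy
    refine ⟨z, hz, QuotientGroup.eq.2 ?_⟩
    rw [mul_comm (principal (K := K) a) z, inv_mul_cancel_left]
    exact MonoidHom.mem_range.2 ⟨a, rfl⟩

/-! ### Closedness modulo the units -/

/-- The principal ideles times a closed part of level zero are closed when the totally positive
units meet it in finitely many classes. -/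
theorem isClosed_principal_sup {S : Subgroup (Idele K)} (hS : IsClosed (S : Set (Idele K)))
    (hS0 : S ≤ levelSub (∅ : Set (HeightOneSpectrum (𝓞 K))) 0) {F : Set Kˣ} (hF : F.Finite)
    (h : ∀ ε : (𝓞 K)ˣ, principal (intUnits ε) ∈ levelSub (∅ : Set (HeightOneSpectrum (𝓞 K))) 0 →
      ∃ δ ∈ F, principal (intUnits ε / δ) ∈ S) :
    IsClosed (((principal (K := K)).range ⊔ S : Subgroup (Idele K)) : Set (Idele K)) := by
  set L0 := levelSub (K := K) (∅ : Set (HeightOneSpectrum (𝓞 K))) 0
  set H := (principal (K := K)).range ⊔ S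
  have hloc : IsClosed ((L0 : Set (Idele K)) ∩ H) := by
    have e : (L0 : Set (Idele K)) ∩ H =
        (L0 : Set (Idele K)) ∩ ⋃ δ ∈ F, (fun s => principal δ * s) '' (S : Set (Idele K)) := by
      refine Set.Subset.antisymm ?_ (Set.inter_subset_inter_right _ (Set.iUnion₂_subset fun δ _ => ?_))
      · rintro x ⟨hx0, hx⟩
        refine ⟨hx0, ?_⟩
        obtain ⟨_, ⟨a, rfl⟩, s, hs, rfl⟩ := Subgroup.mem_sup.1 hx
        have ha : principal a ∈ L0 := (mul_mem_cancel_right (hS0 hs)).1 hx0
        obtain ⟨ε, rfl⟩ := exists_intUnits_eq (x := a) fun v => (ord_eq_iff v).2 (by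
          rw [← FA.QuadFormsNF.valued_algebraMap v, ← localEmb_val, ← finComp_principal,
            ha.1 v (Set.notMem_empty v), neg_zero, exp_zero])
        obtain ⟨δ, hδ, hmem⟩ := h ε ha
        refine Set.mem_iUnion₂.2 ⟨δ, hδ, _, mul_mem hmem hs, ?_⟩
        show principal δ * (principal (intUnits ε / δ) * s) = _
        rw [← mul_assoc, ← map_mul, mul_div_cancel]
      · rintro _ ⟨s, hs, rfl⟩
        exact Subgroup.mul_mem_sup ⟨δ, rfl⟩ hs
    rw [e]
    exact (L0.isClosed_of_isOpen isOpen_levelSub_zero).inter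
      (hF.isClosed_biUnion fun δ _ => isClosedMap_mul_left _ _ hS)
  refine isClosed_of_closure_subset fun x hx => ?_
  obtain ⟨y, hy, hyH⟩ := mem_closure_iff.1 hx ((x * ·) '' (L0 : Set (Idele K)))
    (isOpenMap_mul_left x _ isOpen_levelSub_zero) ⟨1, one_mem L0, mul_one x⟩
  obtain ⟨l, hl, rfl⟩ := hy
  have hxl : x * l ∈ H := hyH
  have h2 : l⁻¹ ∈ H.topologicalClosure := by
    have h3 := mul_mem (inv_mem (H.le_topologicalClosure hxl)) (show x ∈ H.topologicalClosure from hx)
    rwa [mul_inv_rev, inv_mul_cancel_right] at h3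
  have h4 := (hloc.closure_eq.subset (isOpen_levelSub_zero.inter_closure ⟨inv_mem hl, h2⟩)).2
  have h5 := mul_mem hxl h4
  rwa [mul_inv_cancel_right] at h5

/-- **With finitely many units the principal and positive infinite ideles are closed.** -/
theorem isClosed_principal_sup_posInf [Finite (𝓞 K)ˣ] :
    IsClosed (((principal (K := K)).range ⊔ posInf K : Subgroup (Idele K)) : Set (Idele K)) := by
  refine isClosed_principal_sup isClosed_posInf ?_ (Set.finite_range (intUnits (F := K)))
    fun ε _ => ⟨intUnits ε, ⟨ε, rfl⟩, by rw [div_self', map_one]; exact one_mem _⟩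
  rw [levelSub_zero_eq]
  exact le_sup_right

/-- **The kernel when there are finitely many units.** -/
theorem ker_artinAbel_of_finite_units [Finite (𝓞 K)ˣ] :
    (artinAbel (K := K) (maxAbelian K)).ker = (principal (K := K)).range ⊔ posInf K :=
  ker_artinAbel.trans (le_antisymm (Subgroup.topologicalClosure_minimal _ le_rfl
    isClosed_principal_sup_posInf) (Subgroup.le_topologicalClosure _))

/-- No fundamental units: finitely many units. -/
theorem finite_units_of_rank_eq_zero (h : NumberField.Units.rank K = 0) : Finite (𝓞 K)ˣ := by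
  have hsurj : Function.Surjective (fun ζ : NumberField.Units.torsion K => (ζ : (𝓞 K)ˣ)) :=
    fun x => by
      obtain ⟨⟨ζ, e⟩, he, -⟩ := NumberField.Units.exist_unique_eq_mul_prod K x
      refine ⟨ζ, ?_⟩
      haveI : IsEmpty (Fin (NumberField.Units.rank K)) := by rw [h]; infer_instance
      rw [Finset.univ_eq_empty, Finset.prod_empty, mul_one] at he
      exact he.symm
  exact Finite.of_surjective _ hsurj

/-! ### Divisible classes -/

theorem finite_units_quot_pow {n : ℕ} (hn : n ≠ 0) :
    Finite ((𝓞 K)ˣ ⧸ (powMonoidHom n : (𝓞 K)ˣ →* (𝓞 K)ˣ).range) := by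
  haveI : Group.FG (𝓞 K)ˣ := Group.fg_iff_monoid_fg.2 inferInstance
  refine CommGroup.finite_of_fg_isMulTorsion _ fun q => ?_
  obtain ⟨x, rfl⟩ := QuotientGroup.mk_surjective q
  exact isOfFinOrder_iff_pow_eq_one.2 ⟨n, Nat.pos_of_ne_zero hn,
    (QuotientGroup.eq_one_iff (x ^ n)).2 ⟨x, rfl⟩⟩

/-- **The principal ideles times the `n`-th powers are closed.** -/
theorem isClosed_principal_sup_pow {n : ℕ} (hn : n ≠ 0) :
    IsClosed (((principal (K := K)).range ⊔ (powMonoidHom n : Idele K →* Idele K).range :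
      Subgroup (Idele K)) : Set (Idele K)) := by
  set S := (unitFin K).map (powMonoidHom n) ⊔ posInf K with hSdef
  have hpow : ∀ x ∈ levelSub (∅ : Set (HeightOneSpectrum (𝓞 K))) 0, x ^ n ∈ S := fun x hx => by
    rw [levelSub_zero_eq] at hx
    obtain ⟨u, hu, z, hz, rfl⟩ := Subgroup.mem_sup.1 hx
    rw [mul_pow]
    exact Subgroup.mul_mem_sup ⟨u, hu, rfl⟩ (pow_mem hz n)
  have hS : IsClosed (S : Set (Idele K)) := by
    rw [hSdef, Subgroup.normal_mul]
    exact isClosed_posInf.mul_left_of_isCompact (isCompact_unitFin.image (continuous_pow n))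
  have hS0 : S ≤ levelSub (∅ : Set (HeightOneSpectrum (𝓞 K))) 0 := by
    rw [levelSub_zero_eq]
    refine sup_le_sup_right ?_ _
    rintro _ ⟨u, hu, rfl⟩
    exact pow_mem hu n
  haveI := finite_units_quot_pow (K := K) (mul_ne_zero two_ne_zero hn)
  have hH : IsClosed (((principal (K := K)).range ⊔ S : Subgroup (Idele K)) : Set (Idele K)) := by
    refine isClosed_principal_sup hS hS0 (Set.finite_range fun q : (𝓞 K)ˣ ⧸
      (powMonoidHom (2 * n) : (𝓞 K)ˣ →* (𝓞 K)ˣ).range => intUnits q.out) fun ε _ => ?_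
    refine ⟨_, ⟨QuotientGroup.mk ε, rfl⟩, ?_⟩
    obtain ⟨η, hη⟩ := QuotientGroup.eq.1 (Quotient.out_eq (QuotientGroup.mk ε :
      (𝓞 K)ˣ ⧸ (powMonoidHom (2 * n) : (𝓞 K)ˣ →* (𝓞 K)ˣ).range))
    rw [← map_div, div_eq_inv_mul, ← hη, powMonoidHom_apply, pow_mul, map_pow, map_pow]
    refine hpow _ ⟨fun v _ => ?_, fun v hv => absurd hv (Set.notMem_empty v), fun w hr => ?_⟩
    · rw [finComp_principal, localEmb_val, FA.QuadFormsNF.valued_algebraMap, valuation_eq_exp,
        ord_intUnits, neg_zero, exp_zero]
    · rw [map_pow, infComp_principal]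
      show 0 < extensionEmbeddingOfIsReal hr
        (algebraMap K w.Completion (((intUnits η : Kˣ) ^ 2 : Kˣ) : K))
      rw [Units.val_pow_eq_pow_val, map_pow, map_pow]
      exact sq_pos_of_ne_zero ((map_ne_zero _).2 ((map_ne_zero _).2 (intUnits η).ne_zero))
  obtain ⟨C, hC⟩ := exists_reps (K := K)
  rw [show (((principal (K := K)).range ⊔ (powMonoidHom n : Idele K →* Idele K).range :
      Subgroup (Idele K)) : Set (Idele K)) = ⋃ c ∈ C, (fun z => c ^ n * z) ''
        (((principal (K := K)).range ⊔ S : Subgroup (Idele K)) : Set (Idele K)) from ?_]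
  · exact C.finite_toSet.isClosed_biUnion fun c _ => isClosedMap_mul_left _ _ hH
  refine Set.Subset.antisymm ?_ (Set.iUnion₂_subset fun c _ => ?_)
  · intro x hx
    obtain ⟨_, ⟨a, rfl⟩, _, ⟨y, rfl⟩, rfl⟩ := Subgroup.mem_sup.1 hx
    obtain ⟨c, hc, b, l, hl, rfl⟩ := hC y
    refine Set.mem_iUnion₂.2 ⟨c, hc, principal (a * b ^ n) * l ^ n,
      Subgroup.mul_mem_sup ⟨_, rfl⟩ (hpow l hl), ?_⟩
    simp only [powMonoidHom_apply, map_mul, map_pow]
    ac_rfl
  · rintro _ ⟨z, hz, rfl⟩
    refine mul_mem (Subgroup.mem_sup_right ⟨c, rfl⟩) ?_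
    refine (sup_le_sup_left ?_ _ : (principal (K := K)).range ⊔ S ≤ _) hz
    refine sup_le ?_ fun z hz => ?_
    · rintro _ ⟨u, -, rfl⟩
      exact ⟨u, rfl⟩
    · obtain ⟨y, -, hy⟩ := exists_root_posInf hz hn
      exact ⟨y, hy⟩

/-- **The kernel consists of the infinitely divisible classes.** -/
theorem mem_ker_artinAbel_iff_divisible (x : Idele K) :
    artinAbel (maxAbelian K) x = 1 ↔
      ∀ n : ℕ, n ≠ 0 → ∃ (a : Kˣ) (y : Idele K), x = principal a * y ^ n := by
  constructor
  · intro hx n hn
    have hle : ((principal (K := K)).range ⊔ posInf K).topologicalClosure ≤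
        (principal (K := K)).range ⊔ (powMonoidHom n : Idele K →* Idele K).range := by
      refine Subgroup.topologicalClosure_minimal _ (sup_le_sup_left (fun z hz => ?_) _)
        (isClosed_principal_sup_pow hn)
      obtain ⟨y, -, hy⟩ := exists_root_posInf hz hn
      exact ⟨y, hy⟩
    obtain ⟨_, ⟨a, rfl⟩, _, ⟨y, rfl⟩, rfl⟩ :=
      Subgroup.mem_sup.1 (hle (ker_artinAbel.le (MonoidHom.mem_ker.2 hx)))
    exact ⟨a, y, rfl⟩
  · intro h
    rw [artinAbel_maxAbelian_eq_one_iff]
    intro H hH hp
    obtain ⟨a, y, rfl⟩ := h H.index (index_ne_zero_of_isOpen hH hp)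
    exact mul_mem (hp ⟨a, rfl⟩) (H.pow_index_mem y)

end FA.IdeleClass

end
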