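import Fermat.Agent.Ideles.Existence
import Mathlib.Topology.Algebra.Group.Basic

/-!
# The compact unit ideles and the positive infinite ideles

The integers of a completion are compact, so the unit ideles with trivial infinite components are a
compact group `unitFin`.  The positive infinite ideles `posInf` are closed, connected and divisible,
and together they are the level subgroup of level zero.
-/

set_option autoImplicit false
set_option linter.unusedSectionVars false
set_option linter.style.haveILetI false

noncomputable section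

open NumberField NumberField.InfinitePlace NumberField.InfinitePlace.Completion IsDedekindDomain
open WithZero Topology
open FA.ArtinRec FA.Ideles
open FA.QuadFormsNF (valued_algebraMap)
open scoped Pointwise Classical

namespace FA.IdeleClass

universe u

variable {K : Type u} [Field K] [NumberField K]

/-! ### Compactness -/

/-- An element integral at a prime is near an integer. -/
theorem exists_integer_near_any (v : HeightOneSpectrum (𝓞 K)) (k : ℕ) {b : K}
    (hb : v.valuation K b ≤ 1) :
    ∃ r : 𝓞 K, ∀ r' : 𝓞 K, r' - r ∈ v.asIdeal ^ (k + 1) →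
      v.valuation K ((r' : K) - b) ≤ exp (-((k + 1 : ℕ) : ℤ)) := by
  have key : ∀ a : Kˣ, v.valuation K (a : K) = 1 → ∃ r : 𝓞 K, ∀ r' : 𝓞 K,
      r' - r ∈ v.asIdeal ^ (k + 1) → v.valuation K ((r' : K) - a) ≤ exp (-((k + 1 : ℕ) : ℤ)) :=
    fun a ha => by
      have ha0 : ord v a = 0 := (ord_eq_iff v).2 (by rw [ha, neg_zero, exp_zero])
      obtain ⟨r, hr⟩ := FA.HasseCyclic.exists_integer_near v ha0 k
      refine ⟨r, fun r' hr' => ?_⟩
      obtain ⟨h0, hmem⟩ := hr r' hr'
      rw [FA.HasseCyclic.mem_nearOne, Units.val_div_eq_div_val, intU_val,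
        div_sub_one a.ne_zero, map_div₀, ha, div_one] at hmem
      exact hmem
  by_cases h1 : v.valuation K b = 1
  · exact key (Units.mk0 b fun h => by simp [h] at h1) h1
  · have hlt : v.valuation K b < 1 := lt_of_le_of_ne hb h1
    have hs : v.valuation K (b + 1) = 1 := by
      rw [Valuation.map_add_eq_of_lt_right _ (by rw [map_one]; exact hlt), map_one]
    obtain ⟨r, hr⟩ := key (Units.mk0 (b + 1) fun h => by simp [h] at hs) hs
    refine ⟨r - 1, fun r' hr' => ?_⟩
    have h := hr (r' + 1) (by rwa [sub_sub_eq_add_sub] at hr')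
    rw [Units.val_mk0] at h
    push_cast at h
    rwa [add_sub_add_right_eq_sub] at h

/-- **The integers of a completion are compact.** -/
theorem isCompact_integers (v : HeightOneSpectrum (𝓞 K)) :
    IsCompact (v.adicCompletionIntegers K : Set (v.adicCompletion K)) := by
  have hcl : IsClosed (v.adicCompletionIntegers K : Set (v.adicCompletion K)) :=
    Valued.isClosed_valuationSubring _
  refine isCompact_iff_totallyBounded_isComplete.2 ⟨?_, hcl.isComplete⟩
  refine totallyBounded_iff_subset_finite_iUnion_nhds_zero.2 fun U hU => ?_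
  obtain ⟨k, hk⟩ := FA.QuadFormsNF.exists_exp_subset v hU
  haveI : Finite (𝓞 K ⧸ v.asIdeal ^ (k + 1)) :=
    Ideal.finiteQuotientOfFreeOfNeBot _ (pow_ne_zero _ v.ne_bot)
  refine ⟨Set.range fun q : 𝓞 K ⧸ v.asIdeal ^ (k + 1) =>
    algebraMap K (v.adicCompletion K) ((Quotient.out q : 𝓞 K) : K), Set.finite_range _, fun z hz => ?_⟩
  obtain ⟨b, hb⟩ := FA.QuadFormsNF.exists_element_near v z (k + 1)
  have hb1 : v.valuation K (b : K) ≤ 1 := by
    rw [← valued_algebraMap v]
    rw [← add_sub_cancel z (algebraMap K (v.adicCompletion K) (b : K))]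
    refine Valuation.map_add_le _ ((HeightOneSpectrum.mem_adicCompletionIntegers (𝓞 K) K v).1 hz)
      (hb.trans ?_)
    rw [← exp_zero, exp_le_exp]
    omega
  obtain ⟨r, hr⟩ := exists_integer_near_any v k hb1
  have h := hr (Quotient.out (Ideal.Quotient.mk (v.asIdeal ^ (k + 1)) r))
    (Ideal.Quotient.eq.1 (Ideal.Quotient.mk_out _))
  set r' : 𝓞 K := Quotient.out (Ideal.Quotient.mk (v.asIdeal ^ (k + 1)) r)
  refine Set.mem_iUnion₂.2 ⟨algebraMap K (v.adicCompletion K) (r' : K), ⟨_, rfl⟩, ?_⟩
  rw [Set.mem_vadd_set]
  refine ⟨z - algebraMap K (v.adicCompletion K) (r' : K), hk _ ?_, by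
    rw [vadd_eq_add, add_sub_cancel]⟩
  rw [sub_zero, Valuation.map_sub_swap,
    ← sub_add_sub_cancel _ (algebraMap K (v.adicCompletion K) (b : K)) z]
  refine (Valuation.map_add_le _ ?_ hb).trans (exp_le_exp.2 (by push_cast; omega))
  rw [← map_sub, valued_algebraMap]
  exact h

instance compactSpace_integers (v : HeightOneSpectrum (𝓞 K)) :
    CompactSpace (v.adicCompletionIntegers K) :=
  isCompact_iff_compactSpace.1 (isCompact_integers v)

variable (K) in
/-- The unit ideles with trivial infinite components. -/
def unitFin : Subgroup (Idele K) where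
  carrier := {x | (∀ v, Valued.v ((finComp v x : (v.adicCompletion K)ˣ) : v.adicCompletion K) = 1) ∧
    ∀ w, infComp w x = 1}
  one_mem' := ⟨fun v => by rw [map_one, Units.val_one, map_one], fun w => map_one _⟩
  mul_mem' {x y} hx hy := ⟨fun v => by rw [map_mul, Units.val_mul, map_mul, hx.1 v, hy.1 v, one_mul],
    fun w => by rw [map_mul, hx.2 w, hy.2 w, one_mul]⟩
  inv_mem' {x} hx := ⟨fun v => by rw [map_inv, Units.val_inv_eq_inv_val, map_inv₀, hx.1 v, inv_one],
    fun w => by rw [map_inv, hx.2 w, inv_one]⟩

theorem mem_unitFin {x : Idele K} : x ∈ unitFin K ↔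
    (∀ v, Valued.v ((finComp v x : (v.adicCompletion K)ˣ) : v.adicCompletion K) = 1) ∧
      ∀ w, infComp w x = 1 := Iff.rfl

theorem finite_valued_unitFamily (u : ∀ v : HeightOneSpectrum (𝓞 K), (v.adicCompletionIntegers K)ˣ) :
    {v | Valued.v ((Units.map (v.adicCompletionIntegers K).subtype.toMonoidHom (u v) :
      (v.adicCompletion K)ˣ) : v.adicCompletion K) ≠ 1}.Finite := by
  refine (Set.finite_empty).subset fun v hv => hv ?_
  exact (HeightOneSpectrum.adicCompletionIntegers.mem_units_iff_valued_eq_one (K := K) (v := v)).1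
    ⟨(u v : v.adicCompletionIntegers K).2, ((u v)⁻¹ : (v.adicCompletionIntegers K)ˣ).1.2⟩

/-- The unit idele of a family of units. -/
def unitFamily (u : ∀ v : HeightOneSpectrum (𝓞 K), (v.adicCompletionIntegers K)ˣ) : Idele K :=
  ofFinite (fun v => Units.map (v.adicCompletionIntegers K).subtype.toMonoidHom (u v))
    (finite_valued_unitFamily u)

theorem continuous_unitFamily : Continuous (unitFamily (K := K)) := by
  set S : ((v : HeightOneSpectrum (𝓞 K)) → v.adicCompletionIntegers K) →
      FiniteAdeleRing (𝓞 K) K := RestrictedProduct.structureMap _ _ Filter.cofinite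
  have hS : Continuous S := RestrictedProduct.isEmbedding_structureMap.continuous
  have hc : ∀ f : (∀ v : HeightOneSpectrum (𝓞 K), (v.adicCompletionIntegers K)ˣ) →
      ((v : HeightOneSpectrum (𝓞 K)) → v.adicCompletionIntegers K), Continuous f →
      Continuous fun u => (((1 : InfiniteAdeleRing K), S (f u)) :
        InfiniteAdeleRing K × FiniteAdeleRing (𝓞 K) K) := fun f hf =>
    continuous_const.prodMk (hS.comp hf)
  refine Units.continuous_iff.2 ⟨?_, ?_⟩
  · exact hc (fun u v => (u v : v.adicCompletionIntegers K))
      (continuous_pi fun v => Units.continuous_val.comp (continuous_apply v))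
  · exact hc (fun u v => (((u v)⁻¹ : (v.adicCompletionIntegers K)ˣ) : v.adicCompletionIntegers K))
      (continuous_pi fun v => Units.continuous_coe_inv.comp (continuous_apply v))

/-- **The unit ideles are compact.** -/
theorem isCompact_unitFin : IsCompact (unitFin K : Set (Idele K)) := by
  rw [show (unitFin K : Set (Idele K)) = Set.range (unitFamily (K := K)) from ?_]
  · exact isCompact_range continuous_unitFamily
  refine Set.ext fun x => ⟨fun hx => ?_, ?_⟩
  · have hint : ∀ v, ((finComp v x : (v.adicCompletion K)ˣ) : v.adicCompletion K) ∈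
        v.adicCompletionIntegers K ∧
        (((finComp v x)⁻¹ : (v.adicCompletion K)ˣ) : v.adicCompletion K) ∈
          v.adicCompletionIntegers K := fun v =>
      (HeightOneSpectrum.adicCompletionIntegers.mem_units_iff_valued_eq_one (K := K) (v := v) (a := finComp v x)).2 (hx.1 v)
    refine ⟨fun v => ⟨⟨_, (hint v).1⟩, ⟨_, (hint v).2⟩, Subtype.ext (Units.mul_inv _),
      Subtype.ext (Units.inv_mul _)⟩, idele_ext (fun v => ?_) fun w => ?_⟩
    · rw [unitFamily, finComp_ofFinite]
      exact Units.ext rfl
    · rw [unitFamily, infComp_ofFinite, hx.2 w]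
  · rintro ⟨u, rfl⟩
    refine ⟨fun v => ?_, fun w => infComp_ofFinite _ _ w⟩
    by_contra h
    rw [unitFamily, finComp_ofFinite] at h
    exact h (by_contra fun h' => h
      ((HeightOneSpectrum.adicCompletionIntegers.mem_units_iff_valued_eq_one (K := K) (v := v)).1
        ⟨(u v : v.adicCompletionIntegers K).2, ((u v)⁻¹ : (v.adicCompletionIntegers K)ˣ).1.2⟩))

/-! ### The infinite part -/

variable (K) in
/-- The positive infinite ideles. -/
def posInf : Subgroup (Idele K) where
  carrier := {x | (∀ v, finComp v x = 1) ∧
    ∀ (w : InfinitePlace K) (hr : IsReal w), 0 < extensionEmbeddingOfIsReal hr (infComp w x).val}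
  one_mem' := ⟨fun v => map_one _, fun w hr => by simp⟩
  mul_mem' {x y} hx hy := ⟨fun v => by rw [map_mul, hx.1 v, hy.1 v, one_mul],
    fun w hr => by rw [map_mul, Units.val_mul, map_mul]; exact mul_pos (hx.2 w hr) (hy.2 w hr)⟩
  inv_mem' {x} hx := ⟨fun v => by rw [map_inv, hx.1 v, inv_one],
    fun w hr => by rw [map_inv, Units.val_inv_eq_inv_val, map_inv₀]; exact inv_pos.2 (hx.2 w hr)⟩

theorem mem_posInf {x : Idele K} : x ∈ posInf K ↔ (∀ v, finComp v x = 1) ∧
    ∀ (w : InfinitePlace K) (hr : IsReal w),
      0 < extensionEmbeddingOfIsReal hr (infComp w x).val := Iff.rfl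

/-- The infinite part of an idele. -/
def infPart : Idele K →* Idele K :=
  ∏ w : InfinitePlace K, (infSingle w).comp (infComp w)

theorem infPart_apply (x : Idele K) :
    infPart x = ∏ w : InfinitePlace K, infSingle w (infComp w x) := by
  simp only [infPart, MonoidHom.finsetProd_apply, MonoidHom.comp_apply]

theorem finComp_infPart (v : HeightOneSpectrum (𝓞 K)) (x : Idele K) : finComp v (infPart x) = 1 := by
  rw [infPart_apply, map_prod]
  exact Finset.prod_eq_one fun w _ => finComp_infSingle v w _

theorem infComp_infPart (w : InfinitePlace K) (x : Idele K) :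
    infComp w (infPart x) = infComp w x := by
  rw [infPart_apply, map_prod, Finset.prod_eq_single w
    (fun u _ hu => infComp_infSingle_of_ne hu.symm _) (fun h => absurd (Finset.mem_univ w) h),
    infComp_infSingle_self]

theorem infPart_mem_posInf {x : Idele K} (hx : ∀ (w : InfinitePlace K) (hr : IsReal w),
    0 < extensionEmbeddingOfIsReal hr (infComp w x).val) : infPart x ∈ posInf K :=
  ⟨fun v => finComp_infPart v x, fun w hr => by rw [infComp_infPart]; exact hx w hr⟩

theorem infPart_eq_self {x : Idele K} (hx : x ∈ posInf K) : infPart x = x :=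
  idele_ext (fun v => by rw [finComp_infPart, hx.1 v]) fun w => infComp_infPart w x

/-- An open subgroup contains the positive infinite ideles. -/
theorem posInf_le_of_isOpen {H : Subgroup (Idele K)} (hH : IsOpen (H : Set (Idele K))) :
    posInf K ≤ H := fun x hx => by
  rw [← infPart_eq_self hx, infPart_apply]
  exact prod_mem fun w _ => infSingle_mem hH w _ fun hr => hx.2 w hr

theorem continuous_infComp_val (w : InfinitePlace K) :
    Continuous fun x : Idele K => ((infComp w x : w.Completionˣ) : w.Completion) :=
  (continuous_infComp w).comp Units.continuous_val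

theorem continuous_finComp_val (v : HeightOneSpectrum (𝓞 K)) :
    Continuous fun x : Idele K => ((finComp v x : (v.adicCompletion K)ˣ) : v.adicCompletion K) :=
  (continuous_finComp v).comp Units.continuous_val

/-- **The positive infinite ideles are closed.** -/
theorem isClosed_posInf : IsClosed (posInf K : Set (Idele K)) := by
  have h : (posInf K : Set (Idele K)) =
      (⋂ v : HeightOneSpectrum (𝓞 K),
        (fun x : Idele K => ((finComp v x : (v.adicCompletion K)ˣ) : v.adicCompletion K)) ⁻¹' {1}) ∩
      ⋂ (w : InfinitePlace K) (hr : IsReal w), (fun x : Idele K =>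
        extensionEmbeddingOfIsReal hr ((infComp w x : w.Completionˣ) : w.Completion)) ⁻¹' Set.Ici 0 := by
    ext x
    simp only [SetLike.mem_coe, mem_posInf, Set.mem_inter_iff, Set.mem_iInter, Set.mem_preimage,
      Set.mem_singleton_iff, Set.mem_Ici, Units.val_eq_one]
    exact and_congr Iff.rfl (forall₂_congr fun w hr => ⟨le_of_lt, fun h =>
      lt_of_le_of_ne h (extension_ne_zero hr (infComp w x)).symm⟩)
  rw [h]
  exact (isClosed_iInter fun v => isClosed_singleton.preimage (continuous_finComp_val v)).inter
    (isClosed_iInter fun w => isClosed_iInter fun hr => isClosed_Ici.preimage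
      ((isometry_extensionEmbeddingOfIsReal hr).continuous.comp (continuous_infComp_val w)))

/-- **A one-parameter subgroup through a positive element.** -/
theorem exists_path (w : InfinitePlace K) (z : w.Completionˣ)
    (hpos : ∀ hr : IsReal w, 0 < extensionEmbeddingOfIsReal hr (z : w.Completion)) :
    ∃ g : ℝ → w.Completionˣ, Continuous (fun s => (g s : w.Completion)) ∧ g 0 = 1 ∧ g 1 = z ∧
      (∀ s t, g (s + t) = g s * g t) ∧
      ∀ (s : ℝ) (hr : IsReal w), 0 < extensionEmbeddingOfIsReal hr (g s : w.Completion) := by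
  by_cases hr : IsReal w
  · set e := isometryEquivRealOfIsReal hr
    set E := ringEquivRealOfIsReal hr
    set r := E (z : w.Completion)
    have hr0 : 0 < r := hpos hr
    refine ⟨fun s => Units.mk0 (E.symm (Real.exp (s * Real.log r)))
      ((map_ne_zero _).2 (Real.exp_ne_zero _)), ?_, ?_, ?_, fun s t => ?_, fun s hr' => ?_⟩
    · exact e.symm.continuous.comp (Real.continuous_exp.comp (continuous_id.mul continuous_const))
    · exact Units.ext (by
        show E.symm (Real.exp (0 * Real.log r)) = 1
        rw [zero_mul, Real.exp_zero, map_one])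
    · exact Units.ext (by
        show E.symm (Real.exp (1 * Real.log r)) = z
        rw [one_mul, Real.exp_log hr0, RingEquiv.symm_apply_apply])
    · exact Units.ext (by
        show E.symm (Real.exp ((s + t) * Real.log r)) =
          E.symm (Real.exp (s * Real.log r)) * E.symm (Real.exp (t * Real.log r))
        rw [← map_mul, ← Real.exp_add, add_mul])
    · show 0 < E (E.symm (Real.exp (s * Real.log r)))
      rw [RingEquiv.apply_symm_apply]
      exact Real.exp_pos _
  · have hc := not_isReal_iff_isComplex.1 hr
    set e := isometryEquivComplexOfIsComplex hc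
    set E := ringEquivComplexOfIsComplex hc
    set r := E (z : w.Completion)
    have hr0 : r ≠ 0 := (map_ne_zero _).2 z.ne_zero
    refine ⟨fun s => Units.mk0 (E.symm (Complex.exp (s * Complex.log r)))
      ((map_ne_zero _).2 (Complex.exp_ne_zero _)), ?_, ?_, ?_, fun s t => ?_,
      fun s hr' => absurd hr' hr⟩
    · exact e.symm.continuous.comp
        (Complex.continuous_exp.comp (Complex.continuous_ofReal.mul continuous_const))
    · exact Units.ext (by
        show E.symm (Complex.exp (((0 : ℝ) : ℂ) * Complex.log r)) = 1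
        rw [Complex.ofReal_zero, zero_mul, Complex.exp_zero, map_one])
    · exact Units.ext (by
        show E.symm (Complex.exp (((1 : ℝ) : ℂ) * Complex.log r)) = z
        rw [Complex.ofReal_one, one_mul, Complex.exp_log hr0, RingEquiv.symm_apply_apply])
    · exact Units.ext (by
        show E.symm (Complex.exp (((s + t : ℝ) : ℂ) * Complex.log r)) =
          E.symm (Complex.exp ((s : ℂ) * Complex.log r)) *
            E.symm (Complex.exp ((t : ℂ) * Complex.log r))
        rw [← map_mul, ← Complex.exp_add, Complex.ofReal_add, add_mul])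

/-- **A positive infinite idele lies on a one-parameter subgroup.** -/
theorem exists_path_posInf {x : Idele K} (hx : x ∈ posInf K) :
    ∃ G : ℝ → Idele K, Continuous G ∧ G 0 = 1 ∧ G 1 = x ∧ (∀ s, G s ∈ posInf K) ∧
      ∀ s t, G (s + t) = G s * G t := by
  choose g hgc hg0 hg1 hadd hpos using fun w => exists_path w (infComp w x) (hx.2 w)
  have hneg : ∀ w s, (g w s)⁻¹ = g w (-s) := fun w s =>
    inv_eq_of_mul_eq_one_right (by rw [← hadd, add_neg_cancel, hg0])
  refine ⟨fun s => ∏ w : InfinitePlace K, infSingle w (g w s), ?_, ?_, ?_, fun s => ?_, fun s t => ?_⟩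
  · refine continuous_finsetProd _ fun w _ => Units.continuous_iff.2
      ⟨(continuous_infSingle_val w).comp (hgc w), ?_⟩
    have e : (fun s => ((infSingle w (g w s))⁻¹ : Idele K).val) =
        fun s => (infSingle w (g w (-s))).val := funext fun s => by rw [← map_inv, hneg]
    show Continuous fun s => ((infSingle w (g w s))⁻¹ : Idele K).val
    rw [e]
    exact (continuous_infSingle_val w).comp ((hgc w).comp continuous_neg)
  · exact Finset.prod_eq_one fun w _ => by rw [hg0, map_one]
  · show ∏ w, infSingle w (g w 1) = x
    rw [Finset.prod_congr rfl fun w _ => by rw [hg1 w], ← infPart_apply, infPart_eq_self hx]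
  · refine ⟨fun v => ?_, fun w hr => ?_⟩
    · rw [map_prod]
      exact Finset.prod_eq_one fun w _ => finComp_infSingle v w _
    · rw [map_prod, Finset.prod_eq_single w (fun u _ hu => infComp_infSingle_of_ne hu.symm _)
        (fun h => absurd (Finset.mem_univ w) h), infComp_infSingle_self]
      exact hpos w s hr
  · simp only [hadd, map_mul, Finset.prod_mul_distrib]

/-- **The positive infinite ideles are divisible.** -/
theorem exists_root_posInf {x : Idele K} (hx : x ∈ posInf K) {n : ℕ} (hn : n ≠ 0) :
    ∃ y ∈ posInf K, y ^ n = x := by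
  obtain ⟨G, -, hG0, hG1, hG, hadd⟩ := exists_path_posInf hx
  have hpow : ∀ (m : ℕ) (s : ℝ), G s ^ m = G (m * s) := fun m s => by
    induction m with
    | zero => simp [hG0]
    | succ m ih => rw [pow_succ, ih, ← hadd, Nat.cast_succ, add_mul, one_mul]
  refine ⟨G (1 / n), hG _, ?_⟩
  rw [hpow, mul_one_div_cancel (Nat.cast_ne_zero.2 hn), hG1]

/-- **The positive infinite ideles are connected.** -/
theorem isPreconnected_posInf : IsPreconnected (posInf K : Set (Idele K)) := by
  refine isPreconnected_of_forall 1 fun x hx => ?_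
  obtain ⟨G, hG, hG0, hG1, hGm, -⟩ := exists_path_posInf hx
  exact ⟨Set.range G, Set.range_subset_iff.2 hGm, ⟨0, hG0⟩, ⟨1, hG1⟩, isPreconnected_range hG⟩

/-- Level zero is units times positive infinite ideles. -/
theorem levelSub_zero_eq :
    levelSub (K := K) (∅ : Set (HeightOneSpectrum (𝓞 K))) 0 = unitFin K ⊔ posInf K := by
  refine le_antisymm (fun x hx => ?_) (sup_le (fun x hx => ?_) fun x hx => ?_)
  · rw [← div_mul_cancel x (infPart x)]
    refine Subgroup.mul_mem_sup ⟨fun v => ?_, fun w => ?_⟩ (infPart_mem_posInf hx.2.2)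
    · rw [map_div, finComp_infPart, div_one]
      exact hx.1 v (Set.notMem_empty v)
    · rw [map_div, infComp_infPart, div_self']
  · exact ⟨fun v _ => hx.1 v, fun v hv => absurd hv (Set.notMem_empty v),
      fun w hr => by rw [hx.2 w, Units.val_one, map_one]; exact one_pos⟩
  · exact ⟨fun v _ => by rw [hx.1 v, Units.val_one, map_one],
      fun v hv => absurd hv (Set.notMem_empty v), hx.2⟩

end FA.IdeleClass

end
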