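import Fermat.Agent.IdeleClass.ClassCompact

/-!
# The principal ideles are discrete

A principal idele near `1` is a unit `ε` with `|ε - 1|_w < 1` at every infinite place, so the norm
of `ε - 1` vanishes.  Hence the idele class group and its compact subgroup are Hausdorff.
-/

set_option autoImplicit false
set_option linter.unusedSectionVars false

noncomputable section

open NumberField NumberField.InfinitePlace NumberField.InfinitePlace.Completion IsDedekindDomain
open WithZero
open FA.Ideles FA.ArtinRec
open scoped Classical

namespace FA.IdeleClass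

universe u

variable {K : Type u} [Field K] [NumberField K]

instance t2Space_idele : T2Space (Idele K) := by
  refine IsTopologicalGroup.t2Space_iff_one_closed.2 ?_
  have e : ({1} : Set (Idele K)) =
      (⋂ v : HeightOneSpectrum (𝓞 K), {x : Idele K | x.val.2 v = 1}) ∩
        ⋂ w : InfinitePlace K, {x : Idele K | x.val.1 w = 1} := by
    ext x
    simp only [Set.mem_singleton_iff, Set.mem_inter_iff, Set.mem_iInter, Set.mem_setOf_eq]
    refine ⟨fun h => ?_, fun h => idele_ext (fun v => ?_) fun w => ?_⟩
    · subst h
      exact ⟨fun v => rfl, fun w => rfl⟩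
    · rw [map_one]
      exact Units.ext (h.1 v)
    · rw [map_one]
      exact Units.ext (h.2 w)
  rw [e]
  exact (isClosed_iInter fun v => isClosed_eq ((continuous_finComp v).comp Units.continuous_val)
    continuous_const).inter (isClosed_iInter fun w => isClosed_eq
      ((continuous_infComp w).comp Units.continuous_val) continuous_const)

/-- An integer of absolute value `< 1` at every infinite place vanishes. -/
theorem eq_zero_of_forall_lt_one {x : 𝓞 K} (h : ∀ w : InfinitePlace K, w (x : K) < 1) : x = 0 := by
  by_contra hx
  obtain ⟨w₀⟩ : Nonempty (InfinitePlace K) := inferInstance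
  have hlt : ∏ w : InfinitePlace K, w (x : K) ^ w.mult < 1 := by
    rw [← Finset.prod_erase_mul _ _ (Finset.mem_univ w₀)]
    refine lt_of_le_of_lt (mul_le_of_le_one_left (pow_nonneg (AbsoluteValue.nonneg _ _) _)
      (Finset.prod_le_one (fun w _ => pow_nonneg (AbsoluteValue.nonneg _ _) _) fun w _ =>
        pow_le_one₀ (AbsoluteValue.nonneg _ _) (h w).le)) ?_
    exact pow_lt_one₀ (AbsoluteValue.nonneg _ _) (h w₀) mult_ne_zero
  rw [prod_eq_abs_norm, ← Algebra.coe_norm_int] at hlt
  have h1 : |Algebra.norm ℤ x| < 1 := by exact_mod_cast hlt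
  exact hx (Algebra.norm_eq_zero_iff.1 (Int.abs_lt_one_iff.1 h1))

variable (K) in
/-- **The principal ideles form a discrete subgroup.** -/
theorem discreteTopology_principal : DiscreteTopology (principal (K := K)).range := by
  refine discreteTopology_iff_isOpen_singleton_one.2 ?_
  set U : Set (Idele K) := (levelSub (K := K) (∅ : Set (HeightOneSpectrum (𝓞 K))) 0 : Set (Idele K))
    ∩ ⋂ w : InfinitePlace K, {x | ‖x.val.1 w - 1‖ < 1}
  have hU : IsOpen U := isOpen_levelSub_zero.inter (isOpen_iInter_of_finite fun w =>
    isOpen_lt (((continuous_infComp w).comp Units.continuous_val).sub continuous_const).norm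
      continuous_const)
  refine ⟨U, hU, Set.ext fun ⟨x, hx⟩ => ⟨fun hxU => ?_, ?_⟩⟩
  · obtain ⟨a, rfl⟩ := hx
    obtain ⟨hL, hw⟩ := hxU
    obtain ⟨ε, rfl⟩ := exists_intUnits_eq (x := a) fun v => (ord_eq_iff v).2 (by
      rw [← FA.QuadFormsNF.valued_algebraMap v, ← localEmb_val, ← finComp_principal,
        hL.1 v (Set.notMem_empty v), neg_zero, exp_zero])
    have h0 : (ε : 𝓞 K) - 1 = 0 := eq_zero_of_forall_lt_one fun w => by
      have h1 : ‖((infComp w (principal (intUnits ε)) : w.Completionˣ) : w.Completion) - 1‖ < 1 :=
        Set.mem_iInter.1 hw w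
      rw [infComp_principal] at h1
      calc w (((ε : 𝓞 K) - 1 : 𝓞 K) : K)
          = ‖algebraMap K w.Completion (((ε : 𝓞 K) - 1 : 𝓞 K) : K)‖ :=
            (norm_coe w ((WithAbs.equiv w.1).symm (((ε : 𝓞 K) - 1 : 𝓞 K) : K))).symm
        _ = ‖algebraMap K w.Completion (((intUnits ε : Kˣ) : K) - 1)‖ := by
          rw [show ((((ε : 𝓞 K) - 1 : 𝓞 K)) : K) = ((intUnits ε : Kˣ) : K) - 1 by simp [intUnits]]
        _ < 1 := by
          erw [map_sub, map_one]
          exact h1
    rw [show ε = 1 from Units.ext (sub_eq_zero.1 h0)]
    exact Set.mem_singleton_iff.2 (Subtype.ext ((congrArg (principal (K := K)) (map_one intUnits)).trans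
      (map_one principal)))
  · intro h
    rw [Set.mem_singleton_iff.1 h]
    exact ⟨one_mem _, Set.mem_iInter.2 fun w => by
      show ‖((infComp w 1 : w.Completionˣ) : w.Completion) - 1‖ < 1
      rw [map_one, Units.val_one, sub_self, norm_zero]; exact one_pos⟩

variable (K) in
/-- **So they are closed.** -/
theorem isClosed_principal : IsClosed ((principal (K := K)).range : Set (Idele K)) :=
  haveI := discreteTopology_principal K
  Subgroup.isClosed_of_discrete

instance t2Space_classes : T2Space (Idele K ⧸ (principal (K := K)).range) :=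
  haveI := isClosed_principal K
  inferInstance

end FA.IdeleClass

end
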