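import Fermat.Agent.IdeleClass.GroessenExists
import Fermat.Agent.HeckeTorus.Unimodular

/-!
# The L-series of idele class characters

The Euler product over the values at uniformisers of the unramified primes.  It is the L-series of
the Grössencharakter of the character, shifted along an imaginary line; so it extends without a
pole and without zeros on `1 ≤ re s` unless the character is an imaginary power of the absolute
value, and then the values at the primes have mean `0`.
-/

set_option autoImplicit false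
set_option linter.unusedSectionVars false
set_option linter.style.haveILetI false

noncomputable section

open NumberField NumberField.InfinitePlace IsDedekindDomain Filter Topology
open FA.Ideles
open FA.ArtinRec (unif)
open FA.Hecke (IsRayChar IsNontrivial heckeL heckeL_one lHom_apply fPow logF exists_heckeE
  exists_heckeG HasMean hasMean_congr eq_one_of_not_isNontrivial)
open FA.HeckeTorus (infChar IsTorusChar Balanced Unimod infChar_zero)
open scoped nonZeroDivisors Classical

namespace FA.IdeleClass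

universe u

variable {K : Type u} [Field K] [NumberField K] {χ : Idele K →* ℂˣ}

/-- The value at a uniformiser, and `0` at the ramified primes. -/
def unifVal (χ : Idele K →* ℂˣ) (v : HeightOneSpectrum (𝓞 K)) : ℂ :=
  if v ∈ ramSet χ then 0 else ((χ (single v (localEmb v (unif v))) : ℂˣ) : ℂ)

/-- The Euler factor. -/
def lFactor (χ : Idele K →* ℂˣ) (s : ℂ) (v : HeightOneSpectrum (𝓞 K)) : ℂ :=
  (1 - unifVal χ v * ((Ideal.absNorm v.asIdeal : ℕ) : ℂ) ^ (-s))⁻¹

/-- **The L-series of an idele class character**, for `1 < re s`. -/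
def lSeries (χ : Idele K →* ℂˣ) (s : ℂ) : ℂ := ∏' v, lFactor χ s v

theorem norm_unifVal_le (h : IsIdeleChar χ) (v : HeightOneSpectrum (𝓞 K)) :
    ‖unifVal χ v‖ ≤ 1 := by
  rw [unifVal]
  split_ifs
  · simp
  · exact (h.norm_eq _).le

/-! ### Powers of the absolute value -/

theorem absChar_single_unit (S : ℝ) {v : HeightOneSpectrum (𝓞 K)} {z : (v.adicCompletion K)ˣ}
    (hz : Valued.v (z : v.adicCompletion K) = 1) : absChar K S (single v z) = 1 := by
  refine Units.ext ?_
  have h1 := single_mem_levelSub (T := (∅ : Set (HeightOneSpectrum (𝓞 K)))) (k := 0)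
    (Set.notMem_empty v) hz
  rw [absChar_val, ideleAbs_of_units fun u => h1.1 u (Set.notMem_empty u),
    Finset.prod_eq_one fun w _ => by rw [infComp_single, Units.val_one, norm_one, one_pow],
    Real.log_one, mul_zero, Complex.ofReal_zero, zero_mul, Complex.exp_zero, Units.val_one]

theorem ramSet_mul_absChar (χ : Idele K →* ℂˣ) (S : ℝ) :
    ramSet (χ * (absChar K S)⁻¹) = ramSet χ := by
  ext v
  refine exists_congr fun z => and_congr_right fun hz => ?_
  rw [MonoidHom.mul_apply, MonoidHom.inv_apply, absChar_single_unit S hz, inv_one, mul_one]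

theorem ramSet_absChar (S : ℝ) : ramSet (absChar K S) = ∅ :=
  Set.eq_empty_iff_forall_notMem.2 fun _ ⟨_, hz, hne⟩ => hne (absChar_single_unit S hz)

theorem unifVal_absChar (S : ℝ) (v : HeightOneSpectrum (𝓞 K)) :
    unifVal (absChar K S) v =
      ((Ideal.absNorm v.asIdeal : ℕ) : ℂ) ^ (-((S : ℂ) * Complex.I)) := by
  rw [unifVal, ramSet_absChar, if_neg (Set.notMem_empty v), absChar_single_unif]

/-! ### Twisting by powers of the norm -/

/-- `I ↦ f(I) N(I)^z`. -/
def normTwist (f : Ideal (𝓞 K) →* ℂ) (z : ℂ) : Ideal (𝓞 K) →* ℂ where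
  toFun I := f I * ((Ideal.absNorm I : ℕ) : ℂ) ^ z
  map_one' := by rw [map_one, map_one, Nat.cast_one, Complex.one_cpow, mul_one]
  map_mul' I J := by
    rw [map_mul, map_mul, Nat.cast_mul, Complex.natCast_mul_natCast_cpow]
    ring

theorem normTwist_apply (f : Ideal (𝓞 K) →* ℂ) (z : ℂ) (I : Ideal (𝓞 K)) :
    normTwist f z I = f I * ((Ideal.absNorm I : ℕ) : ℂ) ^ z := rfl

theorem heckeL_normTwist (f : Ideal (𝓞 K) →* ℂ) (z s : ℂ) :
    heckeL (normTwist f z) s = heckeL f (s - z) := by
  refine tsum_congr fun I => ?_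
  rw [lHom_apply, lHom_apply, normTwist_apply, mul_assoc]
  refine congrArg (f I.1 * ·) ?_
  show _ * ((Ideal.absNorm I.1 : ℕ) : ℂ) ^ (-s) = ((Ideal.absNorm I.1 : ℕ) : ℂ) ^ (-(s - z))
  rw [← Complex.cpow_add _ _ (Nat.cast_ne_zero.2 (Ideal.absNorm_ne_zero_of_nonZeroDivisors I)),
    show z + -s = -(s - z) by ring]

theorem unimod_normTwist {f : Ideal (𝓞 K) →* ℂ} (h : Unimod f) {z : ℂ} (hz : z.re = 0) :
    Unimod (normTwist f z) := by
  have hn : ∀ I : Ideal (𝓞 K), I ≠ ⊥ → ‖((Ideal.absNorm I : ℕ) : ℂ) ^ z‖ = 1 := fun I hI => by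
    rw [Complex.norm_natCast_cpow_of_pos (Nat.pos_of_ne_zero fun h0 =>
      hI (Ideal.absNorm_eq_zero_iff.1 h0)), hz, Real.rpow_zero]
  refine ⟨fun I hI => ?_, fun v => ?_⟩
  · rw [normTwist_apply, norm_mul, hn I hI, mul_one]
    exact h.norm_le I hI
  · rw [normTwist_apply, norm_mul, hn _ v.ne_bot, mul_one]
    exact (h.prime v).imp (fun h0 => by rw [h0, zero_mul]) id

theorem conj_normTwist (f : Ideal (𝓞 K) →* ℂ) (z : ℂ) :
    (starRingEnd ℂ).toMonoidHom.comp (normTwist f z) =
      normTwist ((starRingEnd ℂ).toMonoidHom.comp f) (starRingEnd ℂ z) := by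
  ext I
  show starRingEnd ℂ (f I * _) = starRingEnd ℂ (f I) * _
  rw [map_mul, Complex.cpow_conj _ _ (by simp [Real.pi_ne_zero.symm]), Complex.conj_natCast]

/-! ### The Grössencharakter -/

/-- A torus character that is not trivial has an entire L-series without zeros on `1 ≤ re s`. -/
theorem exists_entire_of_ne {𝔪 : Ideal (𝓞 K)} {t : InfinitePlace K → ℝ}
    {k : {w : InfinitePlace K // IsComplex w} → ℤ} {f : Ideal (𝓞 K) →* ℂ}
    (h : IsTorusChar 𝔪 t k f) (hne : (t ≠ 0 ∨ k ≠ 0) ∨ IsNontrivial f) :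
    ∃ E : ℂ → ℂ, Differentiable ℂ E ∧ (∀ s : ℂ, 1 < s.re → heckeL f s = E s) ∧
      ∀ s : ℂ, 1 ≤ s.re → E s ≠ 0 := by
  by_cases h0 : t ≠ 0 ∨ k ≠ 0
  · obtain ⟨E, hE, hE'⟩ := h.exists_entire h0
    exact ⟨E, hE, hE', fun s hs => h.entire_ne_zero h0 hE hE' hs⟩
  · rw [not_or, not_not, not_not] at h0
    obtain ⟨rfl, rfl⟩ := h0
    have hr : IsRayChar 𝔪 f := ⟨h.ne_bot, h.ne_zero_iff, fun x hx hx1 hx2 =>
      (h.ray x ⟨hx, hx1, hx2⟩).trans infChar_zero⟩
    obtain ⟨E, hE, hE'⟩ := exists_heckeE hr (hne.resolve_left (by simp))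
    exact ⟨E, hE, hE', fun s hs => hr.heckeE_ne_zero hE hE' hs⟩

/-- The Euler product is that of the shifted Hecke series. -/
theorem hasProd_lFactor {f : Ideal (𝓞 K) →* ℂ} (hf : Unimod f) {S : ℝ}
    (hfv : ∀ v : HeightOneSpectrum (𝓞 K), f v.asIdeal =
      unifVal χ v * ((Ideal.absNorm v.asIdeal : ℕ) : ℂ) ^ ((S : ℂ) * Complex.I))
    {s : ℂ} (hs : 1 < s.re) : HasProd (lFactor χ s) (heckeL f (s + S * Complex.I)) := by
  have hs' : 1 < (s + S * Complex.I).re := by simpa using hs
  rw [← hf.exp_logF hs']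
  have hp : HasProd _ (Complex.exp (logF f (s + S * Complex.I))) :=
    (hf.summable_logTerm hs').hasSum.cexp
  convert hp using 1
  funext v
  rw [Function.comp_apply, Complex.exp_neg, Complex.exp_log (Complex.slitPlane_ne_zero
    (FA.PrimeIdeal.one_sub_mem_slitPlane (hf.norm_fPow_le_half hs'.le v))), lFactor]
  show _ = (1 - f v.asIdeal * ((Ideal.absNorm v.asIdeal : ℕ) : ℂ) ^ (-(s + S * Complex.I)))⁻¹
  rw [hfv v, mul_assoc, ← Complex.cpow_add _ _ (Nat.cast_ne_zero.2 fun h0 => v.ne_bot
    (Ideal.absNorm_eq_zero_iff.1 h0)),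
    show (S : ℂ) * Complex.I + -(s + S * Complex.I) = -s by ring]

/-- **The Grössencharakter of a character**; only that of a power of the absolute value is
trivial. -/
theorem exists_twist (h : IsIdeleChar χ) :
    ∃ (S : ℝ) (t : InfinitePlace K → ℝ) (k : {w : InfinitePlace K // IsComplex w} → ℤ)
      (𝔪 : Ideal (𝓞 K)) (f : Ideal (𝓞 K) →* ℂ), IsTorusChar 𝔪 t k f ∧
      (∀ v : HeightOneSpectrum (𝓞 K), f v.asIdeal =
        unifVal χ v * ((Ideal.absNorm v.asIdeal : ℕ) : ℂ) ^ ((S : ℂ) * Complex.I)) ∧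
      (((t ≠ 0 ∨ k ≠ 0) ∨ IsNontrivial f) ∨ χ = absChar K S) := by
  obtain ⟨S, t, k, ht, htype⟩ := exists_hasType h
  have hψ := h.mul (isIdeleChar_absChar (K := K) S).inv
  obtain ⟨𝔪, f, hf, -, hval⟩ := exists_isTorusChar_of_hasType hψ ht htype
  rw [ramSet_mul_absChar] at hval
  refine ⟨S, t, k, 𝔪, f, hf, fun v => ?_, or_iff_not_imp_left.2 fun hne => ?_⟩
  · rw [hval v, unifVal]
    split_ifs
    · rw [zero_mul]
    · rw [MonoidHom.mul_apply, MonoidHom.inv_apply, Units.val_mul, Units.val_inv_eq_inv_val,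
        absChar_single_unif, Complex.cpow_neg, inv_inv]
  · refine mul_inv_eq_one.1 (eq_one_of_unif hψ (finite_ramSet h) fun v hv => Units.ext ?_)
    have h1 := hval v
    rw [if_neg hv] at h1
    rw [← h1, Units.val_one]
    exact eq_one_of_not_isNontrivial (not_or.1 hne).2 v.ne_bot (h1 ▸ Units.ne_zero _)

/-- **The Euler product converges, to a value other than `0`.** -/
theorem hasProd_lSeries (h : IsIdeleChar χ) {s : ℂ} (hs : 1 < s.re) :
    HasProd (lFactor χ s) (lSeries χ s) ∧ lSeries χ s ≠ 0 := by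
  obtain ⟨S, t, k, 𝔪, f, hf, hfv, -⟩ := exists_twist h
  have hp := hasProd_lFactor hf.unimod hfv hs
  refine ⟨hp.multipliable.hasProd, ?_⟩
  rw [lSeries, hp.tprod_eq]
  exact hf.unimod.heckeL_ne_zero (by simpa using hs)

/-- **A character other than a power of the absolute value: entire, and no zeros on
`1 ≤ re s`.** -/
theorem exists_entire_lSeries (h : IsIdeleChar χ) (hne : ∀ S : ℝ, χ ≠ absChar K S) :
    ∃ E : ℂ → ℂ, Differentiable ℂ E ∧ (∀ s : ℂ, 1 < s.re → lSeries χ s = E s) ∧
      ∀ s : ℂ, 1 ≤ s.re → E s ≠ 0 := by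
  obtain ⟨S, t, k, 𝔪, f, hf, hfv, hcase⟩ := exists_twist h
  obtain ⟨E, hE, hE', hE0⟩ := exists_entire_of_ne hf (hcase.resolve_right (hne S))
  refine ⟨fun s => E (s + S * Complex.I), hE.comp (differentiable_id.add_const _), fun s hs => ?_,
    fun s hs => hE0 _ (by simpa using hs)⟩
  rw [lSeries, (hasProd_lFactor hf.unimod hfv hs).tprod_eq]
  exact hE' _ (by simpa using hs)

theorem unimod_one : Unimod (1 : Ideal (𝓞 K) →* ℂ) :=
  ⟨fun I _ => by simp, fun v => Or.inr (by simp)⟩

/-- **A power of the absolute value gives a shift of the zeta function.** -/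
theorem lSeries_absChar (S : ℝ) {s : ℂ} (hs : 1 < s.re) :
    lSeries (absChar K S) s = dedekindZeta K (s + S * Complex.I) := by
  rw [← heckeL_one (show 1 < (s + S * Complex.I).re by simpa using hs), lSeries,
    (hasProd_lFactor unimod_one (fun v => ?_) hs).tprod_eq]
  rw [MonoidHom.one_apply, unifVal_absChar, ← Complex.cpow_add _ _ (Nat.cast_ne_zero.2 fun h0 =>
    v.ne_bot (Ideal.absNorm_eq_zero_iff.1 h0)), neg_add_cancel, Complex.cpow_zero]

/-- **For a power of the absolute value a simple pole at `1 - i S` is the only singularity.** -/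
theorem exists_pole_lSeries (S : ℝ) :
    ∃ G : ℂ → ℂ, Differentiable ℂ G ∧
      (∀ s : ℂ, 1 < s.re → (s + S * Complex.I - 1) * lSeries (absChar K S) s = G s) ∧
      ∀ s : ℂ, 1 ≤ s.re → G s ≠ 0 := by
  have hone : IsRayChar (⊤ : Ideal (𝓞 K)) (1 : Ideal (𝓞 K) →* ℂ) := IsRayChar.one
  obtain ⟨G, hG, -, hG'⟩ := exists_heckeG hone
  have ht : ¬IsNontrivial (1 : Ideal (𝓞 K) →* ℂ) := fun ⟨_, _, _, h1⟩ => h1 rfl
  refine ⟨fun s => G (s + S * Complex.I), hG.comp (differentiable_id.add_const _), fun s hs => ?_,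
    fun s hs => hone.heckeG_ne_zero ht hG hG' (by simpa using hs)⟩
  show _ = G (s + S * Complex.I)
  rw [lSeries_absChar S hs, ← hG' _ (by simpa using hs), heckeL_one (by simpa using hs)]

/-- **So it has no continuation to an entire function.** -/
theorem not_entire_absChar (S : ℝ) :
    ¬∃ E : ℂ → ℂ, Differentiable ℂ E ∧ ∀ s : ℂ, 1 < s.re → lSeries (absChar K S) s = E s := by
  rintro ⟨E, hE, hE'⟩
  obtain ⟨G, hG, hG', hG0⟩ := exists_pole_lSeries (K := K) S
  have he : G = fun s : ℂ => (s + S * Complex.I - 1) * E s :=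
    FA.PrimeIdeal.eq_of_eq_halfPlane hG
      (((differentiable_id.add_const _).sub_const 1).mul hE) fun s hs => by
        rw [← hG' s hs, hE' s hs]
  have h1 := hG0 (1 - S * Complex.I) (by simp)
  rw [he] at h1
  simp at h1

/-- **The values at the primes have mean `0`.** -/
theorem hasMean_unifVal (h : IsIdeleChar χ) (hne : ∀ S : ℝ, χ ≠ absChar K S) :
    HasMean (unifVal χ) 0 := by
  obtain ⟨S, t, k, 𝔪, f, hf, hfv, hcase⟩ := exists_twist h
  have hcase' := hcase.resolve_right (hne S)
  obtain ⟨E, hE, hE', hE0⟩ := exists_entire_of_ne hf hcase'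
  obtain ⟨E', hE₂, hE₂', hE₂0⟩ := exists_entire_of_ne hf.conj
    (hcase'.imp (Or.imp neg_ne_zero.2 neg_ne_zero.2) IsNontrivial.conj)
  set z : ℂ := -((S : ℂ) * Complex.I) with hz
  have hzre : z.re = 0 := by simp [hz]
  have hzc : starRingEnd ℂ z = -z := Complex.ext (by simp [hz]) (by simp [hz])
  have hm := (unimod_normTwist hf.unimod hzre).hasMean_zero (f := normTwist f z)
    (E := fun s => E (s - z)) (E' := fun s => E' (s + z))
    (hE.comp (differentiable_id.sub_const z))
    (fun s hs => by rw [heckeL_normTwist, hE' _ (by simpa [hzre] using hs)])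
    (hE₂.comp (differentiable_id.add_const z))
    (fun s hs => by
      rw [conj_normTwist, heckeL_normTwist, hzc, sub_neg_eq_add,
        hE₂' _ (by simpa [hzre] using hs)])
    (fun s hs => hE0 _ (by simpa [hzre] using hs)) fun s hs => hE₂0 _ (by simpa [hzre] using hs)
  refine (funext fun v => ?_ : unifVal χ = fun v => normTwist f z v.asIdeal) ▸ hm
  rw [normTwist_apply, hfv, mul_assoc, ← Complex.cpow_add _ _ (Nat.cast_ne_zero.2 fun h0 =>
    v.ne_bot (Ideal.absNorm_eq_zero_iff.1 h0)), hz, add_neg_cancel, Complex.cpow_zero, mul_one]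

/-! ### The classes of absolute value one -/

variable (K) in
/-- The projection to the classes of absolute value one, as a homomorphism. -/
def toOneHom : Idele K ⧸ (principal (K := K)).range →* oneClasses K :=
  MonoidHom.mk' toOne fun p q => Subtype.ext (by
    show p * q / classPath K (Real.log (classAbs K (p * q))) = _
    rw [map_mul, Real.log_mul (classAbs_pos p).ne' (classAbs_pos q).ne', classPath_add]
    exact mul_div_mul_comm p q _ _)

/-- **The primes in the compact group: every nontrivial character has mean `0`.** -/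
theorem hasMean_oneClasses (ψ : oneClasses K →* ℂˣ) (hψ : Continuous ψ) (hne : ψ ≠ 1) :
    HasMean (fun v => ((ψ (toOne (QuotientGroup.mk (single v (localEmb v (unif v))))) : ℂˣ) : ℂ))
      0 := by
  set χ₀ : Idele K ⧸ (principal (K := K)).range →* ℂˣ := ψ.comp (toOneHom K)
  have hc₀ : Continuous χ₀ := hψ.comp continuous_toOne
  obtain ⟨σ, hσ, -⟩ := exists_unique_exponent hc₀
  have hu : ∀ c : oneClasses K, ‖((ψ c : ℂˣ) : ℂ)‖ = 1 := fun c => by
    have h1 := hσ (c : Idele K ⧸ (principal (K := K)).range)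
    rw [show χ₀ (c : Idele K ⧸ (principal (K := K)).range) = ψ c from congrArg ψ (toOne_coe c),
      show classAbs K c = 1 from MonoidHom.mem_ker.1 c.2, Real.one_rpow] at h1
    exact h1
  set χ : Idele K →* ℂˣ := χ₀.comp (QuotientGroup.mk' (principal (K := K)).range)
  have hχ : IsIdeleChar χ := ⟨hc₀.comp QuotientGroup.continuous_mk, fun a => by
    show χ₀ (QuotientGroup.mk (principal a)) = 1
    rw [(QuotientGroup.eq_one_iff _).2 (MonoidHom.mem_range.2 ⟨a, rfl⟩), map_one],
    fun x => hu _⟩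
  have hpow : ∀ S : ℝ, χ ≠ absChar K S := fun S he => by
    have hone : ∀ r : ℝ, ((absChar K S (absPath K r) : ℂˣ) : ℂ) = 1 := fun r => by
      rw [← he]
      show ((ψ (toOne (classPath K r)) : ℂˣ) : ℂ) = 1
      rw [show toOne (classPath K r) = 1 from Subtype.ext (by
        show classPath K r / classPath K _ = 1
        rw [classAbs_classPath, Real.log_exp, div_self']), map_one, Units.val_one]
    have hS : S = 0 := by
      by_contra hS
      have h1 := hone (Real.pi / S)
      rw [absChar_val, ideleAbs_absPath, Real.log_exp, mul_div_cancel₀ _ hS,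
        Complex.exp_pi_mul_I] at h1
      norm_num at h1
    refine hne (MonoidHom.ext fun c => Units.ext ?_)
    obtain ⟨x, hx⟩ := QuotientGroup.mk_surjective (c : Idele K ⧸ (principal (K := K)).range)
    have h2 : χ x = ψ c := congrArg ψ ((congrArg toOne hx).trans (toOne_coe c))
    rw [← h2, he, absChar_val, hS, zero_mul, Complex.ofReal_zero, zero_mul, Complex.exp_zero,
      MonoidHom.one_apply, Units.val_one]
  refine hasMean_congr (ramSet χ) (finite_ramSet hχ) (B := 2) (fun v => ?_) (fun v hv _ => ?_)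
    (hasMean_unifVal hχ hpow)
  · exact (norm_sub_le _ _).trans (by linarith [hu (toOne (QuotientGroup.mk
      (single v (localEmb v (unif v))))), norm_unifVal_le hχ v])
  · rw [unifVal, if_neg hv]
    rfl

end FA.IdeleClass

end
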