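import Fermat.Agent.IdeleClass.Groessen

/-!
# Every Grössencharakter comes from an idele class character

An idele near one at the primes of the modulus and positive at the real places gets the value of
the character at its ideal divided by the infinity type.  This is one on the principal ideles of
this kind and extends uniquely to all ideles.
-/

set_option autoImplicit false
set_option linter.unusedSectionVars false
set_option linter.style.haveILetI false

noncomputable section

open NumberField NumberField.InfinitePlace NumberField.InfinitePlace.Completion IsDedekindDomain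
open WithZero
open FA.ArtinRec FA.Ideles
open FA.Ext (primeIdeal intEmb)
open FA.Hecke (exists_isReal_embedding)
open FA.HeckeTorus (infChar IsTorusChar infChar_ne_zero norm_infChar)
open scoped nonZeroDivisors Classical Topology

namespace FA.IdeleClass

universe u

variable {K : Type u} [Field K] [NumberField K]

/-! ### The order of an idele -/

/-- The order at a prime. -/
def ordVal (v : HeightOneSpectrum (𝓞 K)) (x : Idele K) : ℤ :=
  -log (Valued.v ((finComp v x : (v.adicCompletion K)ˣ) : v.adicCompletion K))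

theorem ordVal_mul (v : HeightOneSpectrum (𝓞 K)) (x y : Idele K) :
    ordVal v (x * y) = ordVal v x + ordVal v y := by
  rw [ordVal, ordVal, ordVal, map_mul, Units.val_mul, map_mul,
    log_mul ((Valuation.ne_zero_iff _).2 (Units.ne_zero _))
      ((Valuation.ne_zero_iff _).2 (Units.ne_zero _)), neg_add]

theorem ordVal_eq_zero_of_valued {v : HeightOneSpectrum (𝓞 K)} {x : Idele K}
    (h : Valued.v ((finComp v x : (v.adicCompletion K)ˣ) : v.adicCompletion K) = 1) :
    ordVal v x = 0 := by
  rw [ordVal, h, log_one, neg_zero]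

theorem ordVal_principal (v : HeightOneSpectrum (𝓞 K)) (a : Kˣ) :
    ordVal v (principal a) = ord v a := by
  rw [ordVal, finComp_principal, localEmb_val, FA.QuadFormsNF.valued_algebraMap, valuation_eq_exp,
    log_exp, neg_neg]

theorem finite_mulSupport_ordVal (u : HeightOneSpectrum (𝓞 K) → ℂˣ) (x : Idele K) :
    (Function.mulSupport fun v => u v ^ ordVal v x).Finite :=
  (finite_valued_ne_one x).subset fun v hv h => hv (by
    show u v ^ ordVal v x = 1
    rw [ordVal_eq_zero_of_valued h, zpow_zero])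

/-- The character of the ideles depending on the orders only, with given values at the primes. -/
def ordHom (u : HeightOneSpectrum (𝓞 K) → ℂˣ) : Idele K →* ℂˣ :=
  MonoidHom.mk' (fun x => ∏ᶠ v, u v ^ ordVal v x) fun x y => by
    rw [← finprod_mul_distrib (finite_mulSupport_ordVal u x) (finite_mulSupport_ordVal u y)]
    exact finprod_congr fun v => by rw [ordVal_mul, zpow_add]

theorem ordHom_congr (u : HeightOneSpectrum (𝓞 K) → ℂˣ) {x y : Idele K}
    (h : ∀ v, ordVal v x = ordVal v y) : ordHom u x = ordHom u y :=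
  finprod_congr fun v => by rw [h]

theorem ordHom_of_units (u : HeightOneSpectrum (𝓞 K) → ℂˣ) {x : Idele K} (h : ∀ v,
    Valued.v ((finComp v x : (v.adicCompletion K)ˣ) : v.adicCompletion K) = 1) : ordHom u x = 1 :=
  finprod_eq_one_of_forall_eq_one fun v => by rw [ordVal_eq_zero_of_valued (h v), zpow_zero]

theorem ordHom_single_unif (u : HeightOneSpectrum (𝓞 K) → ℂˣ) (v : HeightOneSpectrum (𝓞 K)) :
    ordHom u (single v (localEmb v (unif v))) = u v := by
  show ∏ᶠ w, u w ^ ordVal w (single v (localEmb v (unif v))) = u v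
  rw [finprod_eq_single _ v fun w hw => by
    rw [ordVal_eq_zero_of_valued (by rw [finComp_single_of_ne hw, Units.val_one, map_one]),
      zpow_zero]]
  rw [ordVal, finComp_single_self, valued_localEmb_unif, log_exp, neg_neg, zpow_one]

/-- Near one at a set of primes and positive at the real places. -/
def nearSub (R : Set (HeightOneSpectrum (𝓞 K))) (k : ℕ) : Subgroup (Idele K) where
  carrier := {x | (∀ v ∈ R, finComp v x ∈ nearLocal v k) ∧
    ∀ (w : InfinitePlace K) (hr : IsReal w), 0 < extensionEmbeddingOfIsReal hr (infComp w x).val}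
  one_mem' := ⟨fun v _ => by rw [map_one]; exact one_mem _, fun w hr => by simp⟩
  mul_mem' {x y} hx hy := ⟨fun v hv => by rw [map_mul]; exact mul_mem (hx.1 v hv) (hy.1 v hv),
    fun w hr => by rw [map_mul, Units.val_mul, map_mul]; exact mul_pos (hx.2 w hr) (hy.2 w hr)⟩
  inv_mem' {x} hx := ⟨fun v hv => by rw [map_inv]; exact inv_mem (hx.1 v hv),
    fun w hr => by rw [map_inv, Units.val_inv_eq_inv_val, map_inv₀]; exact inv_pos.2 (hx.2 w hr)⟩

/-- **An element near one and positive is a quotient of congruent integers prime to the modulus.** -/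
theorem exists_congr_quot {𝔪 : Ideal (𝓞 K)} (h𝔪 : 𝔪 ≠ ⊥) {a : Kˣ} {k : ℕ}
    (hk : ∀ v, ordI v 𝔪 ≤ k + 1)
    (ha : ∀ v : HeightOneSpectrum (𝓞 K), v.asIdeal ∣ 𝔪 → localEmb v a ∈ nearLocal v k) :
    ∃ (x y : 𝓞 K) (hx : x ≠ 0) (hy : y ≠ 0), a = intU x hx / intU y hy ∧
      Ideal.span {y} ⊔ 𝔪 = ⊤ ∧ x - y ∈ 𝔪 := by
  have ha0 : ∀ v : HeightOneSpectrum (𝓞 K), v.asIdeal ∣ 𝔪 → ord v a = 0 := fun v hv => by
    have h := valued_eq_one_of_nearLocal v (ha v hv)
    rw [localEmb_val, FA.QuadFormsNF.valued_algebraMap, valuation_eq_exp, ← exp_zero, exp_inj,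
      neg_eq_zero] at h
    exact h
  obtain ⟨D, hD0, hD⟩ := exists_ideal_ordI (fun v => (-ord v a).toNat)
    ((finite_ord_ne_zero a).subset fun v hv h0 => hv (by simp [h0]))
  have hDcop : D ⊔ 𝔪 = ⊤ := coprime_iff_ordI.2 fun v hv => by rw [hD, ha0 v hv]; rfl
  obtain ⟨y, hy, hy0, hy1⟩ : ∃ y : 𝓞 K, y ∈ D ∧ y ≠ 0 ∧ y - 1 ∈ 𝔪 := by
    obtain ⟨d, hd, m, hm, hdm⟩ := Submodule.mem_sup.mp ((Ideal.eq_top_iff_one _).mp hDcop)
    rcases eq_or_ne d 0 with rfl | hd0
    · rw [zero_add] at hdm
      obtain ⟨y, hy, hy0⟩ := Submodule.exists_mem_ne_zero_of_ne_bot hD0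
      exact ⟨y, hy, hy0, by rw [(Ideal.eq_top_iff_one 𝔪).2 (hdm ▸ hm)]; trivial⟩
    · exact ⟨d, hd, hd0, by
        rw [show d - 1 = -m by linear_combination hdm]; exact 𝔪.neg_mem hm⟩
  obtain ⟨x, hx, hxy⟩ := exists_intU_of_ord_nonneg (x := a * intU y hy0) fun v => by
    rw [ord_mul, ord_intU_eq_ordI v hy0]
    obtain ⟨J, hJ⟩ := Ideal.dvd_iff_le.2 ((Ideal.span_singleton_le_iff_mem _).2 hy)
    have hJ0 : J ≠ ⊥ := fun e => hy0 (Ideal.span_singleton_eq_bot.mp (by rw [hJ, e, Ideal.mul_bot]))
    have h := ordI_mul v hD0 hJ0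
    rw [← hJ, hD] at h
    have := (-ord v a).self_le_toNat
    omega
  refine ⟨x, y, hx, hy0, eq_div_iff_mul_eq'.2 hxy, ?_, ?_⟩
  · rw [FA.Hecke.span_sup_congr hy1, Ideal.span_singleton_one, top_sup_eq]
  · by_cases hz : x - y = 0
    · rw [hz]; exact zero_mem _
    refine (Ideal.span_singleton_le_iff_mem _).1 (Ideal.le_of_dvd (dvd_of_ordI_le h𝔪
      (fun e => hz (Ideal.span_singleton_eq_bot.mp e)) fun v => ?_))
    by_cases hv : v.asIdeal ∣ 𝔪
    · have hK : (x : K) - y = ((a : K) - 1) * (y : K) := by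
        rw [← intU_val x hx, ← hxy, Units.val_mul, intU_val]
        ring
      have h1 : v.valuation K ((x - y : 𝓞 K) : K) ≤ exp (-((k + 1 : ℕ) : ℤ)) := by
        rw [show ((x - y : 𝓞 K) : K) = (x : K) - y by push_cast; ring, hK, map_mul]
        refine (mul_le_mul' (FA.HasseCyclic.mem_nearOne.1 ((localEmb_mem_nearLocal v).1 (ha v hv)))
          (?_ : v.valuation K (y : K) ≤ 1)).trans (mul_one _).le
        exact v.valuation_le_one y
      have h2 := hk v
      rw [← intU_val (x - y) hz, valuation_eq_exp, exp_le_exp, ord_intU_eq_ordI v hz] at h1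
      omega
    · rw [(ordI_eq_zero_iff v).2 hv]
      exact Nat.zero_le _

/-- **Every Grössencharakter comes from an idele class character.** -/
theorem exists_ideleChar_of_isTorusChar {𝔪 : Ideal (𝓞 K)} {t : InfinitePlace K → ℝ}
    {k : {w : InfinitePlace K // IsComplex w} → ℤ} {f : Ideal (𝓞 K) →* ℂ}
    (h : IsTorusChar 𝔪 t k f) :
    ∃ χ : Idele K →* ℂˣ, IsIdeleChar χ ∧ HasType χ t k ∧
      ∀ v : HeightOneSpectrum (𝓞 K), ¬ v.asIdeal ∣ 𝔪 →
        v ∉ ramSet χ ∧ ((χ (single v (localEmb v (unif v))) : ℂˣ) : ℂ) = f v.asIdeal := by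
  set R : Set (HeightOneSpectrum (𝓞 K)) := {v | v.asIdeal ∣ 𝔪}
  have hR : R.Finite := Ideal.finite_factors h.ne_bot
  set e := hR.toFinset.sup fun v => ordI v 𝔪 with he
  have hk : ∀ v, ordI v 𝔪 ≤ e + 1 := fun v => by
    by_cases hv : v ∈ R
    · have := Finset.le_sup (f := fun v => ordI v 𝔪) (hR.mem_toFinset.2 hv)
      omega
    · rw [(ordI_eq_zero_iff v).2 hv]
      exact Nat.zero_le _
  set u : HeightOneSpectrum (𝓞 K) → ℂˣ := fun v =>
    if hv : f v.asIdeal = 0 then 1 else Units.mk0 _ hv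
  have hu : ∀ v, f v.asIdeal ≠ 0 → (u v : ℂ) = f v.asIdeal := fun v hv => by
    simp only [u, dif_neg hv, Units.val_mk0]
  have hun : ∀ v, ‖(u v : ℂ)‖ = 1 := fun v => by
    simp only [u]
    split_ifs with hv
    exacts [norm_one, h.norm_eq_one v.ne_bot hv]
  set g := ordHom u
  have hgn : ∀ x, ‖((g x : ℂˣ) : ℂ)‖ = 1 := fun x =>
    finprod_induction (fun z : ℂˣ => ‖(z : ℂ)‖ = 1) norm_one
      (fun a b ha hb => by rw [Units.val_mul, norm_mul, ha, hb, one_mul])
      fun v => by rw [Units.val_zpow_eq_zpow_val, norm_zpow, hun, one_zpow]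
  have hgI : ∀ I : (Ideal (𝓞 K))⁰, f I.1 ≠ 0 → ((g (primeIdele ∅ I) : ℂˣ) : ℂ) = f I.1 := fun I => by
    induction I using ideal_induction with
    | h1 => exact fun _ => by rw [map_one, map_one, Units.val_one, OneMemClass.coe_one, map_one]
    | hmul v I ih =>
      intro hne
      rw [Submonoid.coe_mul, map_mul, mul_ne_zero_iff] at hne
      rw [primeIdele_prime_mul, if_neg (Set.notMem_empty v), map_mul, Units.val_mul,
        ordHom_single_unif, ih hne.2, Submonoid.coe_mul, map_mul]
      exact congrArg (· * f I.1) (hu v hne.1)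
  have hgx : ∀ (x : 𝓞 K) (hx : x ≠ 0), Ideal.span {x} ⊔ 𝔪 = ⊤ →
      ((g (principal (intU x hx)) : ℂˣ) : ℂ) = f (Ideal.span {x}) := fun x hx hc => by
    have hsp : Ideal.span {x} ≠ ⊥ := fun e => hx (Ideal.span_singleton_eq_bot.mp e)
    rw [← hgI ⟨_, mem_nonZeroDivisors_iff_ne_zero.mpr hsp⟩ ((h.ne_zero_iff _ hsp).2 hc)]
    refine congrArg Units.val (ordHom_congr u fun v => ?_)
    rw [ordVal_principal, ord_intU_eq_ordI, ordVal, valued_primeIdele _ (Set.notMem_empty v),
      log_exp, neg_neg]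
  set χ₀ : Idele K →* ℂˣ := g * (typeChar t k)⁻¹ with hχ₀
  -- trivial on the principal ideles near one
  have hprin : ∀ a : Kˣ, principal a ∈ nearSub R e → χ₀ (principal a) = 1 := fun a ha => by
    obtain ⟨x, y, hx, hy, rfl, hcy, hxy⟩ := exists_congr_quot h.ne_bot hk fun v hv => by
      have := ha.1 v hv
      rwa [finComp_principal] at this
    have hcx : Ideal.span {x} ⊔ 𝔪 = ⊤ := by rw [FA.Hecke.span_sup_congr hxy]; exact hcy
    have hs : ∀ φ : K →+* ℝ, 0 < φ x * φ y := fun φ => by
      obtain ⟨w, rfl⟩ := exists_isReal_embedding φ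
      have h1 := ha.2 w.1 w.2
      rw [infComp_principal] at h1
      have h2 : 0 < embedding_of_isReal w.2 ((intU x hx / intU y hy : Kˣ) : K) :=
        lt_of_lt_of_eq h1 (extensionEmbeddingOfIsReal_coe w.2 ((WithAbs.equiv w.1.1).symm _))
      rw [Units.val_div_eq_div_val, intU_val, intU_val, map_div₀] at h2
      rcases div_pos_iff.1 h2 with h3 | h3
      exacts [mul_pos h3.1 h3.2, mul_pos_of_neg_of_neg h3.1 h3.2]
    have h3 := h.div_eq_of_congr hx hy hxy hs
    rw [← hgx x hx hcx, ← hgx y hy hcy] at h3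
    have h4 : ∀ (z : 𝓞 K) (hz : z ≠ 0), ((χ₀ (principal (intU z hz)) : ℂˣ) : ℂ) =
        ((g (principal (intU z hz)) : ℂˣ) : ℂ) / infChar t k (intEmb K z) := fun z hz => by
      rw [hχ₀, MonoidHom.mul_apply, MonoidHom.inv_apply, Units.val_mul, Units.val_inv_eq_inv_val,
        typeChar_val, infVec_principal, div_eq_mul_inv]
      rfl
    rw [map_div, map_div, div_eq_one]
    exact Units.ext (by rw [h4, h4]; exact h3)
  -- every idele is principal times near one
  let Φ : Kˣ × nearSub R e →* Idele K :=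
    (principal.comp (MonoidHom.fst _ _)) * ((nearSub R e).subtype.comp (MonoidHom.snd _ _))
  have hΦ : Function.Surjective Φ := fun x => by
    obtain ⟨a, F, m, hF, hx⟩ := exists_decomp hR e x
    set p := ∏ v ∈ F, single v (localEmb v (unif v) ^ m v)
    have hp : p ∈ nearSub R e := by
      refine prod_mem fun v hv => ⟨fun w hw => ?_, fun w hr => ?_⟩
      · rw [finComp_single_of_ne fun e : w = v => hF v hv (e ▸ hw)]
        exact one_mem _
      · rw [infComp_single, Units.val_one, map_one]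
        exact one_pos
    refine ⟨(a, ⟨p * (x / (principal a * p)), mul_mem hp ⟨hx.2.1, hx.2.2⟩⟩), ?_⟩
    show principal a * (p * (x / (principal a * p))) = x
    rw [← mul_assoc, mul_div_cancel]
  let ψ : Kˣ × nearSub R e →* ℂˣ :=
    χ₀.comp ((nearSub R e).subtype.comp (MonoidHom.snd _ _))
  have hker : Φ.ker ≤ ψ.ker := fun ⟨a, x⟩ hax => by
    have hx : (x : Idele K) = principal a⁻¹ := by
      rw [map_inv, eq_comm]
      exact inv_eq_of_mul_eq_one_right (hax : principal a * (x : Idele K) = 1)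
    show χ₀ (x : Idele K) = 1
    rw [hx]
    exact hprin _ (hx ▸ x.2)
  set χ := Φ.liftOfSurjective hΦ ⟨ψ, hker⟩
  have hχ : ∀ a x, χ (Φ (a, x)) = χ₀ (x : Idele K) := fun a x =>
    MonoidHom.liftOfRightInverse_comp_apply Φ (Function.surjInv hΦ)
      (Function.rightInverse_surjInv hΦ) ⟨ψ, hker⟩ (a, x)
  have hnear : ∀ {x : Idele K}, x ∈ nearSub R e → χ x = χ₀ x := fun {x} hx => by
    have := hχ 1 ⟨x, hx⟩
    rwa [show Φ (1, ⟨x, hx⟩) = x from by
      show principal (1 : Kˣ) * x = x
      rw [map_one, one_mul]] at this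
  have hprin' : ∀ a : Kˣ, χ (principal a) = 1 := fun a => by
    rw [show principal a = Φ (a, 1) by
      show principal a = principal a * ((1 : nearSub R e) : Idele K)
      rw [OneMemClass.coe_one, mul_one], hχ, OneMemClass.coe_one, map_one]
  refine ⟨χ, ⟨?_, hprin', fun x => ?_⟩, fun y hy => ?_, fun v hv => ⟨?_, ?_⟩⟩
  · refine continuous_of_continuousAt_one χ ?_
    refine (continuous_typeChar t k).inv.continuousAt.congr (Filter.mem_of_superset
      ((isOpen_levelSub hR e).mem_nhds (one_mem _)) fun x hx => ?_)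
    show (typeChar t k x)⁻¹ = χ x
    rw [hnear ⟨hx.2.1, hx.2.2⟩, hχ₀, MonoidHom.mul_apply, MonoidHom.inv_apply,
      ordHom_of_units u fun v => if hv : v ∈ R then valued_eq_one_of_nearLocal v (hx.2.1 v hv)
        else hx.1 v hv, one_mul]
  · obtain ⟨⟨a, y⟩, rfl⟩ := hΦ x
    rw [hχ, hχ₀, MonoidHom.mul_apply, MonoidHom.inv_apply, Units.val_mul,
      Units.val_inv_eq_inv_val, norm_mul, norm_inv, hgn, typeChar_val,
      norm_infChar (norm_infVec_ne_zero _), inv_one, mul_one]
  · rw [hnear ⟨fun v _ => by rw [hy.1 v]; exact one_mem _, hy.2⟩, hχ₀, MonoidHom.mul_apply,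
      MonoidHom.inv_apply, ordHom_of_units u fun v => by rw [hy.1 v, Units.val_one, map_one],
      one_mul, inv_mul_cancel]
  · rintro ⟨z, hz, hne⟩
    refine hne ?_
    have hl := single_mem_levelSub (T := R) (k := e) hv hz
    rw [hnear ⟨hl.2.1, hl.2.2⟩, hχ₀, MonoidHom.mul_apply, MonoidHom.inv_apply,
      ordHom_of_units u fun w => if hw : w ∈ R then valued_eq_one_of_nearLocal w (hl.2.1 w hw)
        else hl.1 w hw,
      typeChar_eq_one_of_infComp t k fun w => infComp_single w v z, inv_one, mul_one]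
  · have hmem : single v (localEmb v (unif v)) ∈ nearSub R e := by
      refine ⟨fun w hw => ?_, fun w hr => ?_⟩
      · rw [finComp_single_of_ne fun e : w = v => hv (e ▸ hw :)]
        exact one_mem _
      · rw [infComp_single, Units.val_one, map_one]
        exact one_pos
    have hfv : f v.asIdeal ≠ 0 := (h.ne_zero_iff _ v.ne_bot).2 (coprime_iff_ordI.2 fun w hw => by
      rw [ordI_prime, if_neg fun e : w = v => hv (e ▸ hw)])
    rw [hnear hmem, hχ₀, MonoidHom.mul_apply, MonoidHom.inv_apply, ordHom_single_unif,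
      typeChar_eq_one_of_infComp t k fun w => infComp_single w v _, inv_one, mul_one, hu v hfv]

/-- The absolute value of a uniformiser. -/
theorem ideleAbs_single_unif (v : HeightOneSpectrum (𝓞 K)) :
    ideleAbs K (single v (localEmb v (unif v))) = ((Ideal.absNorm v.asIdeal : ℕ) : ℝ)⁻¹ := by
  rw [ideleAbs_apply, finprod_eq_single _ v fun u hu => by
    rw [finComp_single_of_ne hu, Units.val_one, norm_one], finComp_single_self,
    Finset.prod_eq_one fun w _ => by rw [infComp_single, Units.val_one, norm_one, one_pow], mul_one,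
    FinitePlace.norm_def, valued_localEmb_unif, WithZeroMulInt.toNNReal_neg_apply _ exp_ne_zero,
    show Multiplicative.toAdd (WithZero.unzero (exp_ne_zero : exp (-1 : ℤ) ≠ 0)) = -1 from rfl]
  push_cast
  rw [zpow_neg_one]

/-- An imaginary power of the absolute value at a uniformiser. -/
theorem absChar_single_unif (S : ℝ) (v : HeightOneSpectrum (𝓞 K)) :
    ((absChar K S (single v (localEmb v (unif v))) : ℂˣ) : ℂ) =
      ((Ideal.absNorm v.asIdeal : ℕ) : ℂ) ^ (-((S : ℂ) * Complex.I)) := by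
  have h : 0 < Ideal.absNorm v.asIdeal :=
    Nat.pos_of_ne_zero fun h => v.ne_bot (Ideal.absNorm_eq_zero_iff.1 h)
  rw [absChar_val, ideleAbs_single_unif, Complex.cpow_def_of_ne_zero (Nat.cast_ne_zero.2 h.ne'),
    ← Complex.natCast_log, Real.log_inv]
  congr 1
  push_cast
  ring

end FA.IdeleClass

end
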