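import Fermat.Agent.IdeleClass.Kernel
import Mathlib.NumberTheory.NumberField.ProductFormula
import Mathlib.Topology.Instances.RealVectorSpace

/-!
# The absolute value of an idele

The product of the normalised absolute values of the components is a continuous homomorphism to
the positive reals, trivial on the principal ideles by the product formula.  A one-parameter group
of positive infinite ideles splits it.
-/

set_option autoImplicit false
set_option linter.unusedSectionVars false
set_option linter.style.haveILetI false

noncomputable section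

open NumberField NumberField.InfinitePlace NumberField.InfinitePlace.Completion IsDedekindDomain
open FA.Ideles
open scoped Classical

namespace FA.IdeleClass

universe u

variable {K : Type u} [Field K] [NumberField K]

theorem norm_eq_one_of_valued {v : HeightOneSpectrum (𝓞 K)} {z : v.adicCompletion K}
    (hz : Valued.v z = 1) : ‖z‖ = 1 := by
  rw [FinitePlace.norm_def, hz, map_one]
  rfl

theorem finite_norm_ne_one (x : Idele K) :
    (Function.mulSupport fun v : HeightOneSpectrum (𝓞 K) =>
      ‖((finComp v x : (v.adicCompletion K)ˣ) : v.adicCompletion K)‖).Finite :=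
  (finite_valued_ne_one x).subset fun _ hv h => hv (norm_eq_one_of_valued h)

variable (K) in
/-- **The absolute value of an idele.** -/
def ideleAbs : Idele K →* ℝ where
  toFun x := (∏ᶠ v : HeightOneSpectrum (𝓞 K),
      ‖((finComp v x : (v.adicCompletion K)ˣ) : v.adicCompletion K)‖) *
    ∏ w : InfinitePlace K, ‖((infComp w x : w.Completionˣ) : w.Completion)‖ ^ w.mult
  map_one' := by simp
  map_mul' x y := by
    simp only [map_mul, Units.val_mul, norm_mul, mul_pow]
    rw [finprod_mul_distrib (finite_norm_ne_one x) (finite_norm_ne_one y), Finset.prod_mul_distrib,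
      mul_mul_mul_comm]

theorem ideleAbs_apply (x : Idele K) : ideleAbs K x = (∏ᶠ v : HeightOneSpectrum (𝓞 K),
      ‖((finComp v x : (v.adicCompletion K)ˣ) : v.adicCompletion K)‖) *
    ∏ w : InfinitePlace K, ‖((infComp w x : w.Completionˣ) : w.Completion)‖ ^ w.mult := rfl

theorem ideleAbs_pos (x : Idele K) : 0 < ideleAbs K x :=
  mul_pos (finprod_induction (fun r : ℝ => 0 < r) one_pos (fun _ _ => mul_pos)
      fun _ => norm_pos_iff.2 (Units.ne_zero _))
    (Finset.prod_pos fun _ _ => pow_pos (norm_pos_iff.2 (Units.ne_zero _)) _)

/-- Unit components only leave the infinite part. -/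
theorem ideleAbs_of_units {x : Idele K} (hx : ∀ v,
    Valued.v ((finComp v x : (v.adicCompletion K)ˣ) : v.adicCompletion K) = 1) :
    ideleAbs K x = ∏ w : InfinitePlace K,
      ‖((infComp w x : w.Completionˣ) : w.Completion)‖ ^ w.mult := by
  rw [ideleAbs_apply, finprod_eq_one_of_forall_eq_one fun v => norm_eq_one_of_valued (hx v),
    one_mul]

theorem norm_infComp_principal (w : InfinitePlace K) (a : Kˣ) :
    ‖((infComp w (principal a) : w.Completionˣ) : w.Completion)‖ = w (a : K) := by
  rw [infComp_principal]
  exact norm_coe w ((WithAbs.equiv w.1).symm (a : K))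

/-- **The product formula.** -/
theorem ideleAbs_principal (a : Kˣ) : ideleAbs K (principal a) = 1 := by
  rw [ideleAbs_apply, ← NumberField.prod_abs_eq_one a.ne_zero, mul_comm]
  congr 1
  · exact Finset.prod_congr rfl fun w _ => by rw [norm_infComp_principal]
  · rw [← finprod_comp_equiv FinitePlace.equivHeightOneSpectrum.symm]
    exact finprod_congr fun v => by
      rw [finComp_principal]
      exact (FinitePlace.mk_apply v (a : K)).symm

/-- **Continuous.** -/
theorem continuous_ideleAbs : Continuous (ideleAbs K) := by
  refine continuous_of_continuousAt_one _ ?_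
  have hc : Continuous fun x : Idele K => ∏ w : InfinitePlace K,
      ‖((infComp w x : w.Completionˣ) : w.Completion)‖ ^ w.mult :=
    continuous_finsetProd _ fun w _ => (continuous_infComp_val w).norm.pow _
  refine hc.continuousAt.congr (Filter.mem_of_superset
    (isOpen_levelSub_zero.mem_nhds (one_mem _)) fun x hx => ?_)
  exact (ideleAbs_of_units fun v => hx.1 v (Set.notMem_empty v)).symm

/-- **A one-parameter group splitting the absolute value.** -/
theorem exists_absPath : ∃ G : ℝ → Idele K, Continuous G ∧ (∀ s, G s ∈ posInf K) ∧
    (∀ s t, G (s + t) = G s * G t) ∧ ∀ s, ideleAbs K (G s) = Real.exp s := by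
  set x0 : Idele K := infPart (principal (Units.mk0 (2 : K) two_ne_zero))
  have hx0 : x0 ∈ posInf K := infPart_mem_posInf fun w hr => by
    rw [infComp_principal]
    show 0 < extensionEmbeddingOfIsReal hr (algebraMap K w.Completion 2)
    rw [map_ofNat, map_ofNat]
    exact two_pos
  have habs : 1 < ideleAbs K x0 := by
    rw [ideleAbs_of_units fun v => by rw [finComp_infPart, Units.val_one, map_one]]
    refine lt_of_lt_of_le (b := ∏ w : InfinitePlace K, (2 : ℝ)) ?_
      (Finset.prod_le_prod (fun _ _ => zero_le_two) fun w _ => ?_)
    · rw [Finset.prod_const]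
      exact one_lt_pow₀ one_lt_two (Finset.card_pos.2 Finset.univ_nonempty).ne'
    · rw [infComp_infPart, norm_infComp_principal, Units.val_mk0,
        show w (2 : K) = 2 by rw [← norm_embedding_eq, map_ofNat]; simp]
      exact le_self_pow₀ one_le_two mult_ne_zero
  obtain ⟨G, hG, hG0, hG1, hGmem, hadd⟩ := exists_path_posInf hx0
  let f : ℝ →+ ℝ := AddMonoidHom.mk' (fun s => Real.log (ideleAbs K (G s))) fun s t => by
    rw [hadd, map_mul, Real.log_mul (ideleAbs_pos _).ne' (ideleAbs_pos _).ne']
  have hf : Continuous f := (continuous_ideleAbs.comp hG).log fun s => (ideleAbs_pos _).ne'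
  set c := Real.log (ideleAbs K x0)
  have hc : 0 < c := Real.log_pos habs
  refine ⟨fun s => G (s / c), hG.comp (continuous_id.div_const c), fun s => hGmem _,
    fun s t => by simp only [add_div, hadd], fun s => ?_⟩
  have h := map_real_smul f hf (s / c) 1
  rw [smul_eq_mul, mul_one, smul_eq_mul] at h
  rw [← Real.exp_log (ideleAbs_pos (G (s / c)))]
  refine congrArg Real.exp (h.trans ?_)
  show s / c * Real.log (ideleAbs K (G 1)) = s
  rw [hG1, div_mul_cancel₀ _ hc.ne']

variable (K) in
/-- The chosen section of the absolute value. -/
def absPath : ℝ → Idele K := (exists_absPath (K := K)).choose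

theorem continuous_absPath : Continuous (absPath K) := (exists_absPath (K := K)).choose_spec.1

theorem absPath_mem (s : ℝ) : absPath K s ∈ posInf K := (exists_absPath (K := K)).choose_spec.2.1 s

theorem absPath_add (s t : ℝ) : absPath K (s + t) = absPath K s * absPath K t :=
  (exists_absPath (K := K)).choose_spec.2.2.1 s t

theorem ideleAbs_absPath (s : ℝ) : ideleAbs K (absPath K s) = Real.exp s :=
  (exists_absPath (K := K)).choose_spec.2.2.2 s

theorem absPath_zero : absPath K 0 = 1 := by
  have h := absPath_add (K := K) 0 0
  rw [add_zero] at h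
  exact left_eq_mul.1 h

end FA.IdeleClass

end
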