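import Fermat.Agent.IdeleClass.ClassCompact
import Mathlib.Topology.Algebra.ContinuousMonoidHom
import Mathlib.RingTheory.RootsOfUnity.Complex
import Mathlib.GroupTheory.Torsion

/-!
# Characters of the idele classes

The multiplicative group of the complex numbers has no small subgroups, so every character has a
level.  As the classes of absolute value one are compact a character is unitary up to a real power
of the absolute value.  The characters of finite order are those with open kernel, and they are the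
characters of the Galois group of the maximal abelian extension.
-/

set_option autoImplicit false
set_option linter.unusedSectionVars false
set_option linter.style.haveILetI false

noncomputable section

open NumberField NumberField.InfinitePlace IsDedekindDomain Topology
open FA.Ideles
open scoped Classical

namespace FA.IdeleClass

universe u

/-- **No small subgroups.** -/
theorem eq_one_of_pow_near {z : ℂ} (h : ∀ n : ℕ, ‖z ^ n - 1‖ ≤ 1 / 2) : z = 1 := by
  have key : ∀ j : ℕ, (3 / 2 : ℝ) ^ j * ‖z - 1‖ ≤ ‖z ^ 2 ^ j - 1‖ := fun j => by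
    induction j with
    | zero => simp
    | succ j ih =>
      have h1 : 3 / 2 ≤ ‖z ^ 2 ^ j + 1‖ := by
        have h2 := norm_sub_norm_le (2 : ℂ) (1 - z ^ 2 ^ j)
        rw [show (2 : ℂ) - (1 - z ^ 2 ^ j) = z ^ 2 ^ j + 1 by ring, Complex.norm_two,
          norm_sub_rev] at h2
        linarith [h (2 ^ j)]
      rw [pow_succ (2 : ℕ), pow_mul, show (z ^ 2 ^ j) ^ 2 - 1 = (z ^ 2 ^ j - 1) * (z ^ 2 ^ j + 1) by
        ring, norm_mul, pow_succ, mul_right_comm]
      exact mul_le_mul ih h1 (by norm_num) (norm_nonneg _)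
  by_contra hne
  have hpos : 0 < ‖z - 1‖ := norm_pos_iff.2 (sub_ne_zero.2 hne)
  obtain ⟨j, hj⟩ := pow_unbounded_of_one_lt (1 / 2 / ‖z - 1‖) (show (1 : ℝ) < 3 / 2 by norm_num)
  rw [div_lt_iff₀ hpos] at hj
  linarith [key j, h (2 ^ j)]

/-- The small neighbourhood of one. -/
theorem isOpen_smallUnits : IsOpen {z : ℂˣ | ‖(z : ℂ) - 1‖ < 1 / 2} :=
  isOpen_lt (Units.continuous_val.sub continuous_const).norm continuous_const

/-- A homomorphism is trivial on a subgroup mapped near one. -/
theorem eq_one_of_image_near {G : Type*} [Group G] (f : G →* ℂˣ) {S : Subgroup G}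
    (h : ∀ x ∈ S, ‖((f x : ℂˣ) : ℂ) - 1‖ < 1 / 2) {x : G} (hx : x ∈ S) : f x = 1 :=
  Units.ext (eq_one_of_pow_near fun n => by
    have := (h _ (pow_mem hx n)).le
    rwa [map_pow, Units.val_pow_eq_pow_val] at this)

variable {K : Type u} [Field K] [NumberField K]

/-- **A character of the ideles has a level.** -/
theorem exists_level_ker {χ : Idele K →* ℂˣ} (hχ : Continuous χ) :
    ∃ T : Set (HeightOneSpectrum (𝓞 K)), T.Finite ∧ ∃ k : ℕ, ∀ x ∈ levelSub T k,
      (∀ w, infComp w x = 1) → χ x = 1 := by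
  obtain ⟨T, hT, k, hk⟩ := exists_levelSub_subset (isOpen_smallUnits.preimage hχ)
    (show ‖((χ 1 : ℂˣ) : ℂ) - 1‖ < 1 / 2 by simp)
  refine ⟨T, hT, k, fun x hx hw => eq_one_of_image_near χ
    (S := levelSub T k ⊓ ⨅ w : InfinitePlace K, (infComp w).ker) (fun y hy => hk y hy.1 fun w =>
      MonoidHom.mem_ker.1 (Subgroup.mem_iInf.1 hy.2 w))
    ⟨hx, Subgroup.mem_iInf.2 fun w => MonoidHom.mem_ker.2 (hw w)⟩⟩

theorem classPath_add (s t : ℝ) : classPath K (s + t) = classPath K s * classPath K t := by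
  rw [classPath, absPath_add]
  rfl

/-- **A character is unitary up to a real power of the absolute value.** -/
theorem exists_unique_exponent {χ : Idele K ⧸ (principal (K := K)).range →* ℂˣ}
    (hχ : Continuous χ) : ∃! σ : ℝ, ∀ q, ‖((χ q : ℂˣ) : ℂ)‖ = classAbs K q ^ σ := by
  have hcont : Continuous fun q => ‖((χ q : ℂˣ) : ℂ)‖ := (Units.continuous_val.comp hχ).norm
  obtain ⟨B, hB⟩ := ((isCompact_oneClasses K).image hcont).bddAbove
  have hle : ∀ c ∈ oneClasses K, ‖((χ c : ℂˣ) : ℂ)‖ ≤ 1 := fun c hc => by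
    by_contra hlt
    obtain ⟨n, hn⟩ := pow_unbounded_of_one_lt B (not_le.1 hlt)
    refine absurd (hB ⟨c ^ n, pow_mem hc n, rfl⟩) (not_le.2 ?_)
    show B < ‖((χ (c ^ n) : ℂˣ) : ℂ)‖
    rwa [map_pow, Units.val_pow_eq_pow_val, norm_pow]
  have hone : ∀ c ∈ oneClasses K, ‖((χ c : ℂˣ) : ℂ)‖ = 1 := fun c hc => by
    refine le_antisymm (hle c hc) ?_
    have h := hle _ (inv_mem hc)
    rw [map_inv, Units.val_inv_eq_inv_val, norm_inv] at h
    exact (inv_le_one₀ (norm_pos_iff.2 (Units.ne_zero _))).1 h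
  let f : ℝ →+ ℝ := AddMonoidHom.mk' (fun s => Real.log ‖((χ (classPath K s) : ℂˣ) : ℂ)‖)
    fun s t => by
      rw [classPath_add, map_mul, Units.val_mul, norm_mul,
        Real.log_mul (norm_ne_zero_iff.2 (Units.ne_zero _)) (norm_ne_zero_iff.2 (Units.ne_zero _))]
  have hf : Continuous f := (hcont.comp continuous_classPath).log
    fun s => norm_ne_zero_iff.2 (Units.ne_zero _)
  have hpath : ∀ s, ‖((χ (classPath K s) : ℂˣ) : ℂ)‖ = Real.exp (s * f 1) := fun s => by
    have h := map_real_smul f hf s 1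
    rw [smul_eq_mul, mul_one, smul_eq_mul] at h
    rw [← h]
    exact (Real.exp_log (norm_pos_iff.2 (Units.ne_zero _))).symm
  refine ⟨f 1, fun q => ?_, fun σ hσ => ?_⟩
  · conv_lhs => rw [← div_mul_cancel q (classPath K (Real.log (classAbs K q)))]
    rw [map_mul, Units.val_mul, norm_mul,
      show ‖((χ (q / classPath K (Real.log (classAbs K q))) : ℂˣ) : ℂ)‖ = 1 from hone _ (toOne q).2,
      one_mul, hpath,
      Real.rpow_def_of_pos (classAbs_pos q)]
  · have h := hσ (classPath K 1)
    rw [hpath, one_mul, classAbs_classPath, ← Real.exp_mul, one_mul] at h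
    exact (Real.exp_injective h).symm

/-- A character with open kernel has finite order. -/
theorem exists_pow_eq_one_of_isOpen {χ : Idele K ⧸ (principal (K := K)).range →* ℂˣ}
    (hχ : IsOpen (χ.ker : Set (Idele K ⧸ (principal (K := K)).range))) :
    ∃ n : ℕ, 0 < n ∧ ∀ q, χ q ^ n = 1 := by
  set H := χ.ker.comap (QuotientGroup.mk' (principal (K := K)).range)
  have hn := index_ne_zero_of_isOpen (H := H) (hχ.preimage QuotientGroup.continuous_mk) fun x hx => by
    show χ (QuotientGroup.mk x) = 1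
    rw [(QuotientGroup.eq_one_iff x).2 hx, map_one]
  refine ⟨H.index, Nat.pos_of_ne_zero hn, fun q => ?_⟩
  obtain ⟨x, rfl⟩ := QuotientGroup.mk_surjective q
  rw [← map_pow]
  exact H.pow_index_mem x

/-- A character of finite order has open kernel. -/
theorem isOpen_ker_of_pow_eq_one {χ : Idele K ⧸ (principal (K := K)).range →* ℂˣ}
    (hχ : Continuous χ) {n : ℕ} (hn : 0 < n) (h : ∀ q, χ q ^ n = 1) :
    IsOpen (χ.ker : Set (Idele K ⧸ (principal (K := K)).range)) := by
  haveI : NeZero n := ⟨hn.ne'⟩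
  have hcl : IsClosed (χ.ker : Set (Idele K ⧸ (principal (K := K)).range)) :=
    (isClosed_singleton (x := (1 : ℂˣ))).preimage hχ
  set H := χ.ker.comap (QuotientGroup.mk' (principal (K := K)).range) with hH
  have hp : (principal (K := K)).range ≤ H := fun x hx => by
    show χ (QuotientGroup.mk x) = 1
    rw [(QuotientGroup.eq_one_iff x).2 hx, map_one]
  refine QuotientGroup.isOpenQuotientMap_mk.isQuotientMap.isOpen_preimage.1
    ((isOpen_iff_isClosed_finiteIndex hp).2 ⟨hcl.preimage QuotientGroup.continuous_mk, ?_⟩)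
  rw [hH, Subgroup.index_comap_of_surjective _ (QuotientGroup.mk'_surjective _), Subgroup.index_ker]
  have hle : χ.range ≤ rootsOfUnity n ℂ := by
    rintro _ ⟨q, rfl⟩
    exact (mem_rootsOfUnity n _).2 (h q)
  haveI : Finite χ.range := Finite.of_injective _ (Subgroup.inclusion_injective hle)
  exact Nat.card_pos.ne'

/-- A character with open kernel comes from the Galois group. -/
theorem exists_galois_character {χ : Idele K ⧸ (principal (K := K)).range →* ℂˣ}
    (hχ : Continuous χ) (hk : IsOpen (χ.ker : Set (Idele K ⧸ (principal (K := K)).range))) :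
    ∃ ψ : (maxAbelian K ≃ₐ[K] maxAbelian K) →* ℂˣ, Continuous ψ ∧
      ∀ q, χ q = ψ (classArtin K q) := by
  set φ := χ.comp (QuotientGroup.mk' (principal (K := K)).range)
  have hle : (artinAbel (K := K) (maxAbelian K)).ker ≤ φ.ker := fun x hx =>
    (artinAbel_maxAbelian_eq_one_iff x).1 hx φ.ker (hk.preimage QuotientGroup.continuous_mk)
      fun y hy => by
        show χ (QuotientGroup.mk y) = 1
        rw [(QuotientGroup.eq_one_iff y).2 hy, map_one]
  set ψ := (artinAbel (K := K) (maxAbelian K)).liftOfSurjective artinAbel_surjective ⟨φ, hle⟩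
  have hψ : ∀ x, ψ (artinAbel (maxAbelian K) x) = φ x :=
    fun x => MonoidHom.liftOfRightInverse_comp_apply _ _ _ ⟨φ, hle⟩ x
  refine ⟨ψ, (isOpenQuotientMap_artinAbel.continuous_comp_iff (g := ψ)).1 ?_, fun q => ?_⟩
  · rw [show ψ ∘ artinAbel (maxAbelian K) = φ from funext hψ]
    exact hχ.comp QuotientGroup.continuous_mk
  · obtain ⟨x, rfl⟩ := QuotientGroup.mk_surjective q
    exact (hψ x).symm

/-- A character from the Galois group has finite order. -/
theorem exists_pow_eq_one_galois {ψ : (maxAbelian K ≃ₐ[K] maxAbelian K) →* ℂˣ}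
    (hψ : Continuous ψ) :
    ∃ n : ℕ, 0 < n ∧ ∀ q, ψ (classArtin K q) ^ n = 1 := by
  obtain ⟨E, hE, hsub⟩ := (krullTopology_mem_nhds_one_iff K (maxAbelian K) _).1
    ((isOpen_smallUnits.preimage hψ).mem_nhds
      (show ‖((ψ 1 : ℂˣ) : ℂ) - 1‖ < 1 / 2 by simp))
  have hker : E.fixingSubgroup ≤ ψ.ker := fun g hg =>
    MonoidHom.mem_ker.2 (eq_one_of_image_near ψ (fun y hy => hsub hy) hg)
  exact exists_pow_eq_one_of_isOpen (χ := ψ.comp (classArtin K))
    ((Subgroup.isOpen_mono hker E.fixingSubgroup_isOpen).preimage continuous_classArtin)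

variable (K) in
/-- Pulling back characters of the Galois group. -/
def galPull : ((maxAbelian K ≃ₐ[K] maxAbelian K) →ₜ* ℂˣ) →*
    (Idele K ⧸ (principal (K := K)).range →ₜ* ℂˣ) where
  toFun ψ := ψ.comp ⟨classArtin K, continuous_classArtin⟩
  map_one' := rfl
  map_mul' _ _ := rfl

theorem galPull_apply (ψ : (maxAbelian K ≃ₐ[K] maxAbelian K) →ₜ* ℂˣ) (x : Idele K) :
    galPull K ψ (QuotientGroup.mk x) = ψ (artinAbel (maxAbelian K) x) := rfl

theorem galPull_injective : Function.Injective (galPull K) := fun ψ ψ' h =>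
  DFunLike.ext _ _ fun g => by
    obtain ⟨x, rfl⟩ := artinAbel_surjective (K := K) g
    rw [← galPull_apply, ← galPull_apply, h]

/-- **The characters of finite order are those of the Galois group.** -/
theorem range_galPull : (galPull K).range =
    CommGroup.torsion (Idele K ⧸ (principal (K := K)).range →ₜ* ℂˣ) := by
  have hpow : ∀ (χ : Idele K ⧸ (principal (K := K)).range →ₜ* ℂˣ) (n : ℕ) q,
      (χ ^ n) q = χ q ^ n := fun χ n q => by
    induction n with
    | zero => rfl
    | succ n ih => rw [pow_succ, pow_succ, ← ih]; rfl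
  ext χ
  rw [CommGroup.mem_torsion, isOfFinOrder_iff_pow_eq_one]
  constructor
  · rintro ⟨ψ, rfl⟩
    obtain ⟨n, hn, h⟩ := exists_pow_eq_one_galois (ψ := ψ.toMonoidHom) ψ.continuous_toFun
    exact ⟨n, hn, DFunLike.ext _ _ fun q => (hpow _ n q).trans (h q)⟩
  · rintro ⟨n, hn, h⟩
    obtain ⟨ψ, hψc, hψ⟩ := exists_galois_character (χ := χ.toMonoidHom) χ.continuous_toFun
      (isOpen_ker_of_pow_eq_one χ.continuous_toFun hn fun q => by
        rw [← show (χ ^ n) q = χ.toMonoidHom q ^ n from hpow χ n q, h]; rfl)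
    exact ⟨⟨ψ, hψc⟩, DFunLike.ext _ _ fun q => (hψ q).symm⟩

variable (K) in
/-- **The dual of the Galois group.** -/
def galDualEquiv : ((maxAbelian K ≃ₐ[K] maxAbelian K) →ₜ* ℂˣ) ≃*
    CommGroup.torsion (Idele K ⧸ (principal (K := K)).range →ₜ* ℂˣ) :=
  (MonoidHom.ofInjective galPull_injective).trans (MulEquiv.subgroupCongr range_galPull)

end FA.IdeleClass

end
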