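import Fermat.Agent.IdeleClass.AbsValue

/-!
# Compactness of the classes of absolute value one

By the finiteness of the class number and Dirichlet's unit theorem the ideles of absolute value one
are the principal ideles times a compact set.  So their classes form a compact group, the idele
class group is its product with the positive reals, and the compact group already maps onto the
Galois group of the maximal abelian extension with the connected component as kernel.
-/

set_option autoImplicit false
set_option linter.unusedSectionVars false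
set_option linter.style.haveILetI false

noncomputable section

open NumberField NumberField.InfinitePlace NumberField.InfinitePlace.Completion IsDedekindDomain
open NumberField.Units NumberField.Units.dirichletUnitTheorem
open FA.ArtinRec FA.Ideles
open scoped Pointwise Classical

namespace FA.IdeleClass

universe u

variable {K : Type u} [Field K] [NumberField K]

variable (K) in
/-- The ideles of absolute value one. -/
def oneIdeles : Subgroup (Idele K) := (ideleAbs K).ker

theorem isClosed_oneIdeles : IsClosed (oneIdeles K : Set (Idele K)) :=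
  (isClosed_singleton (x := (1 : ℝ))).preimage continuous_ideleAbs

theorem sum_log_eq_zero {l : Idele K} (hl : ∀ v,
    Valued.v ((finComp v l : (v.adicCompletion K)ˣ) : v.adicCompletion K) = 1)
    (h1 : ideleAbs K l = 1) :
    ∑ w : InfinitePlace K, (mult w : ℝ) *
      Real.log ‖((infComp w l : w.Completionˣ) : w.Completion)‖ = 0 := by
  have h := congrArg Real.log ((ideleAbs_of_units hl).symm.trans h1)
  rw [Real.log_one, Real.log_prod fun w _ => pow_ne_zero _ (norm_ne_zero_iff.2 (Units.ne_zero _))]
    at h
  rw [← h]
  exact Finset.sum_congr rfl fun w _ => (Real.log_pow _ _).symm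

variable (K) in
/-- **Units bring the infinite part into a bounded region.** -/
theorem exists_unit_bound : ∃ R : ℝ, ∀ l : Idele K,
    (∀ v, Valued.v ((finComp v l : (v.adicCompletion K)ˣ) : v.adicCompletion K) = 1) →
    ideleAbs K l = 1 → ∃ ε : (𝓞 K)ˣ, ∀ w : InfinitePlace K,
      |Real.log ‖((infComp w l : w.Completionˣ) : w.Completion)‖ -
        2 * Real.log (w ((ε : 𝓞 K) : K))| ≤ R := by
  set e := (basisUnitLattice K).ofZLatticeBasis ℝ (unitLattice K)
  set M0 := ∑ i, ‖e i‖
  set N := (Fintype.card (InfinitePlace K) : ℝ) + 1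
  refine ⟨N * (2 * M0), fun l hl h1 => ?_⟩
  have hM0 : 0 ≤ M0 := Finset.sum_nonneg fun i _ => norm_nonneg _
  set y : InfinitePlace K → ℝ := fun w =>
    Real.log ‖((infComp w l : w.Completionˣ) : w.Completion)‖ with hy
  set v : logSpace K := fun w => (mult w.1 : ℝ) * y w.1 / 2 with hv
  set ε : (𝓞 K)ˣ := ∏ i, fundSystem K i ^ ⌊e.repr v i⌋
  refine ⟨ε, ?_⟩
  set d : InfinitePlace K → ℝ := fun w => y w - 2 * Real.log (w ((ε : 𝓞 K) : K)) with hd
  have hnorm : ‖v - logEmbedding K (Additive.ofMul ε)‖ ≤ M0 := by
    have h2 : v - logEmbedding K (Additive.ofMul ε) = ∑ i, Int.fract (e.repr v i) • e i := by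
      conv_lhs => arg 1; rw [← e.sum_repr v]
      rw [show logEmbedding K (Additive.ofMul ε) = ∑ i, (⌊e.repr v i⌋ : ℝ) • e i by
        simp only [ε, ofMul_prod, ofMul_zpow, map_sum, map_zsmul, logEmbedding_fundSystem,
          Int.cast_smul_eq_zsmul, e, Module.Basis.ofZLatticeBasis_apply],
        ← Finset.sum_sub_distrib]
      exact Finset.sum_congr rfl fun i _ => by rw [← sub_smul, Int.self_sub_floor]
    rw [h2]
    refine (norm_sum_le _ _).trans (Finset.sum_le_sum fun i _ => ?_)
    rw [norm_smul, Real.norm_of_nonneg (Int.fract_nonneg _)]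
    exact mul_le_of_le_one_left (norm_nonneg _) (Int.fract_lt_one _).le
  have hw : ∀ w : {w : InfinitePlace K // w ≠ w₀}, |(mult w.1 : ℝ) * d w.1| ≤ 2 * M0 := fun w => by
    have h2 := (norm_le_pi_norm (v - logEmbedding K (Additive.ofMul ε)) w).trans hnorm
    rw [Real.norm_eq_abs, Pi.sub_apply, logEmbedding_component] at h2
    rw [show (mult w.1 : ℝ) * d w.1 =
      2 * (v w - (mult w.1 : ℝ) * Real.log (w.1 ((ε : 𝓞 K) : K))) by
        simp only [hd, hv]; ring, abs_mul, abs_two]
    exact mul_le_mul_of_nonneg_left h2 zero_le_two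
  have hsum : (mult (w₀ : InfinitePlace K) : ℝ) * d w₀ =
      -∑ w : {w : InfinitePlace K // w ≠ w₀}, (mult w.1 : ℝ) * d w.1 := by
    rw [← add_eq_zero_iff_eq_neg, ← Fintype.sum_eq_add_sum_subtype_ne
      (fun w => (mult w : ℝ) * d w) w₀]
    simp only [hd, mul_sub, Finset.sum_sub_distrib]
    have h2 : ∑ w : InfinitePlace K, (mult w : ℝ) * (2 * Real.log (w ((ε : 𝓞 K) : K))) = 0 := by
      simp only [mul_left_comm _ (2 : ℝ), ← Finset.mul_sum]
      exact mul_eq_zero.2 (Or.inr (sum_mult_mul_log ε))
    rw [sum_log_eq_zero hl h1, h2, sub_zero]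
  have hbound : ∀ w : InfinitePlace K, |(mult w : ℝ) * d w| ≤ N * (2 * M0) := fun w => by
    by_cases h : w = w₀
    · rw [h, hsum, abs_neg]
      refine (Finset.abs_sum_le_sum_abs _ _).trans ((Finset.sum_le_sum fun w _ => hw w).trans ?_)
      rw [Finset.sum_const, nsmul_eq_mul]
      refine mul_le_mul_of_nonneg_right ?_ (by positivity)
      refine le_trans ?_ (le_add_of_nonneg_right zero_le_one)
      exact_mod_cast Fintype.card_subtype_le _
    · exact (hw ⟨w, h⟩).trans (le_mul_of_one_le_left (by positivity)
        (le_add_of_nonneg_left (by positivity)))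
  intro w
  refine le_trans ?_ (hbound w)
  rw [abs_mul, abs_of_nonneg (Nat.cast_nonneg (α := ℝ) _)]
  exact le_mul_of_one_le_left (abs_nonneg _) (by exact_mod_cast mult_pos (w := w))

/-- The bounded positive infinite ideles form a compact set. -/
theorem exists_compact_posInf (R : ℝ) : ∃ P : Set (Idele K), IsCompact P ∧ ∀ x ∈ posInf K,
    (∀ w : InfinitePlace K, |Real.log ‖((infComp w x : w.Completionˣ) : w.Completion)‖| ≤ R) →
      x ∈ P := by
  set A : ∀ w : InfinitePlace K, Set w.Completion := fun w =>
    {z | ‖z‖ ∈ Set.Icc (Real.exp (-R)) (Real.exp R) ∧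
      ∀ hr : IsReal w, 0 ≤ extensionEmbeddingOfIsReal hr z}
  have hA : IsCompact (Set.univ.pi A) := isCompact_univ_pi fun w => by
    have hcl : IsClosed (A w) := IsClosed.inter (isClosed_Icc.preimage continuous_norm)
      (by
        show IsClosed {z : w.Completion | ∀ hr : IsReal w, 0 ≤ extensionEmbeddingOfIsReal hr z}
        rw [show {z : w.Completion | ∀ hr : IsReal w, 0 ≤ extensionEmbeddingOfIsReal hr z} =
          ⋂ hr : IsReal w, (extensionEmbeddingOfIsReal hr) ⁻¹' Set.Ici 0 by ext; simp]
        exact isClosed_iInter fun hr =>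
          isClosed_Ici.preimage (isometry_extensionEmbeddingOfIsReal hr).continuous)
    refine ((isometry_extensionEmbedding w).isClosedEmbedding.isCompact_preimage
      (isCompact_closedBall (0 : ℂ) (Real.exp R))).of_isClosed_subset hcl fun z hz => ?_
    rw [Set.mem_preimage, mem_closedBall_zero_iff,
      (isometry_extensionEmbedding w).norm_map_of_map_zero (map_zero _)]
    exact hz.1.2
  have hne : ∀ (z : Set.univ.pi A) w, z.1 w ≠ 0 := fun z w => norm_pos_iff.1
    (lt_of_lt_of_le (Real.exp_pos _) (z.2 w trivial).1.1)
  haveI := isCompact_iff_compactSpace.1 hA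
  refine ⟨Set.range fun z : Set.univ.pi A =>
    ∏ w : InfinitePlace K, infSingle w (Units.mk0 (z.1 w) (hne z w)), isCompact_range ?_,
      fun x hx hR => ?_⟩
  · refine continuous_finsetProd _ fun w _ => Units.continuous_iff.2
      ⟨(continuous_infSingle_val w).comp ((continuous_apply w).comp continuous_subtype_val), ?_⟩
    have e : (fun z : Set.univ.pi A => ((infSingle w (Units.mk0 (z.1 w) (hne z w)))⁻¹ : Idele K).val) =
        fun z => (infSingle w (Units.mk0 (z.1 w) (hne z w))⁻¹).val :=
      funext fun z => by rw [← map_inv]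
    show Continuous fun z : Set.univ.pi A =>
      ((infSingle w (Units.mk0 (z.1 w) (hne z w)))⁻¹ : Idele K).val
    rw [e]
    refine (continuous_infSingle_val w).comp ?_
    simp only [Units.val_inv_eq_inv_val, Units.val_mk0]
    exact ((continuous_apply w).comp continuous_subtype_val).inv₀ fun z => hne z w
  · refine ⟨⟨fun w => ((infComp w x : w.Completionˣ) : w.Completion), fun w _ => ⟨?_,
      fun hr => (hx.2 w hr).le⟩⟩, ?_⟩
    · have h0 : 0 < ‖((infComp w x : w.Completionˣ) : w.Completion)‖ :=
        norm_pos_iff.2 (Units.ne_zero _)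
      obtain ⟨h1, h2⟩ := abs_le.1 (hR w)
      exact ⟨(Real.le_log_iff_exp_le h0).1 h1, (Real.log_le_iff_le_exp h0).1 h2⟩
    · simp only [Units.mk0_val]
      rw [← infPart_apply, infPart_eq_self hx]

variable (K) in
/-- **The ideles of absolute value one are principal times compact.** -/
theorem exists_compact_reps : ∃ B : Set (Idele K), IsCompact B ∧ B ⊆ oneIdeles K ∧
    ∀ x ∈ oneIdeles K, ∃ a : Kˣ, ∃ b ∈ B, x = principal a * b := by
  obtain ⟨R, hR⟩ := exists_unit_bound K
  obtain ⟨P, hP, hPmem⟩ := exists_compact_posInf (K := K) R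
  obtain ⟨C, hC⟩ := exists_reps (K := K)
  set c' : Idele K → Idele K := fun c => c / absPath K (Real.log (ideleAbs K c))
  set L : Set (Idele K) := ((unitFin K : Set (Idele K)) * P) ∩ oneIdeles K
  have hL : IsCompact L := (isCompact_unitFin.mul hP).inter_right isClosed_oneIdeles
  have hc' : ∀ c, c' c ∈ oneIdeles K := fun c => by
    rw [oneIdeles, MonoidHom.mem_ker, ← mul_right_inj' (ideleAbs_pos (absPath K
      (Real.log (ideleAbs K c)))).ne', ← map_mul, mul_div_cancel, mul_one, ideleAbs_absPath,
      Real.exp_log (ideleAbs_pos c)]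
  refine ⟨⋃ c ∈ C, c' c • L, C.finite_toSet.isCompact_biUnion fun c _ => hL.smul _,
    Set.iUnion₂_subset fun c _ => ?_, fun x hx => ?_⟩
  · rintro _ ⟨l, hl, rfl⟩
    exact mul_mem (hc' c) hl.2
  obtain ⟨c, hc, a, l, hl, rfl⟩ := hC x
  set l' := l * absPath K (Real.log (ideleAbs K c))
  have hx' : c * (principal a * l) = c' c * (principal a * l') := by
    simp only [c', l']
    rw [← mul_assoc (principal a), div_mul_eq_mul_div, eq_div_iff_mul_eq', mul_assoc]
  rw [hx'] at hx ⊢
  have hl' : l' ∈ levelSub (∅ : Set (HeightOneSpectrum (𝓞 K))) 0 := mul_mem hl (by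
    rw [levelSub_zero_eq]
    exact Subgroup.mem_sup_right (absPath_mem _))
  have habs : ideleAbs K l' = 1 := by
    have h := MonoidHom.mem_ker.1 hx
    rwa [map_mul, map_mul, MonoidHom.mem_ker.1 (hc' c), ideleAbs_principal, one_mul, one_mul] at h
  obtain ⟨ε, hε⟩ := hR l' (fun v => hl'.1 v (Set.notMem_empty v)) habs
  have hb : l' / principal (intUnits ε ^ 2) ∈ levelSub (∅ : Set (HeightOneSpectrum (𝓞 K))) 0 := by
    refine div_mem hl' ⟨fun v _ => ?_, fun v hv => absurd hv (Set.notMem_empty v), fun w hr => ?_⟩
    · rw [finComp_principal, localEmb_val, FA.QuadFormsNF.valued_algebraMap, valuation_eq_exp,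
        ← map_pow, ord_intUnits, neg_zero, WithZero.exp_zero]
    · rw [map_pow, map_pow, Units.val_pow_eq_pow_val, map_pow]
      exact sq_pos_of_ne_zero (extension_ne_zero hr _)
  obtain ⟨h1, h2, h3⟩ := div_infPart_mem hb
  have hbL : l' / principal (intUnits ε ^ 2) ∈ L := by
    refine ⟨⟨_, h2, _, hPmem _ h3 fun w => ?_, div_mul_cancel _ _⟩, ?_⟩
    · rw [infComp_infPart, map_div, Units.val_div_eq_div_val, norm_div,
        Real.log_div (norm_ne_zero_iff.2 (Units.ne_zero _)) (norm_ne_zero_iff.2 (Units.ne_zero _)),
        norm_infComp_principal, Units.val_pow_eq_pow_val, map_pow, Real.log_pow, Nat.cast_two]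
      exact hε w
    · exact MonoidHom.mem_ker.2 (by
        have h := map_mul (ideleAbs K) (l' / principal (intUnits ε ^ 2))
          (principal (intUnits ε ^ 2))
        rw [div_mul_cancel, habs, ideleAbs_principal, mul_one] at h
        exact h.symm)
  refine ⟨a * intUnits ε ^ 2, _, Set.mem_iUnion₂.2 ⟨c, hc, Set.smul_mem_smul_set hbL⟩, ?_⟩
  rw [map_mul, smul_eq_mul, mul_left_comm (c' c), mul_assoc, mul_left_comm (principal (intUnits ε ^ 2)),
    mul_div_cancel]

/-! ### The classes -/

variable (K) in
/-- The absolute value of an idele class. -/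
def classAbs : Idele K ⧸ (principal (K := K)).range →* ℝ :=
  QuotientGroup.lift _ (ideleAbs K) fun _ ⟨a, ha⟩ => ha ▸ ideleAbs_principal a

theorem classAbs_mk (x : Idele K) : classAbs K (QuotientGroup.mk x) = ideleAbs K x := rfl

theorem classAbs_pos (q : Idele K ⧸ (principal (K := K)).range) : 0 < classAbs K q := by
  obtain ⟨x, rfl⟩ := QuotientGroup.mk_surjective q
  exact ideleAbs_pos x

theorem continuous_classAbs : Continuous (classAbs K) :=
  (QuotientGroup.isOpenQuotientMap_mk.continuous_comp_iff (g := classAbs K)).1 continuous_ideleAbs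

variable (K) in
/-- The classes of absolute value one. -/
def oneClasses : Subgroup (Idele K ⧸ (principal (K := K)).range) := (classAbs K).ker

theorem coe_oneClasses : (oneClasses K : Set (Idele K ⧸ (principal (K := K)).range)) =
    QuotientGroup.mk '' (oneIdeles K : Set (Idele K)) := by
  ext q
  obtain ⟨x, rfl⟩ := QuotientGroup.mk_surjective q
  refine ⟨fun h => ⟨x, MonoidHom.mem_ker.2 (MonoidHom.mem_ker.1 h), rfl⟩, ?_⟩
  rintro ⟨y, hy, he⟩
  rw [← he]
  exact MonoidHom.mem_ker.2 (MonoidHom.mem_ker.1 hy)

variable (K) in
/-- **The compactness theorem.** -/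
theorem isCompact_oneClasses :
    IsCompact (oneClasses K : Set (Idele K ⧸ (principal (K := K)).range)) := by
  obtain ⟨B, hB, hB1, hBrep⟩ := exists_compact_reps K
  rw [coe_oneClasses, show (QuotientGroup.mk : Idele K → Idele K ⧸ (principal (K := K)).range) ''
    (oneIdeles K : Set (Idele K)) = QuotientGroup.mk '' B from ?_]
  · exact hB.image QuotientGroup.continuous_mk
  refine Set.Subset.antisymm ?_ (Set.image_mono hB1)
  rintro _ ⟨x, hx, rfl⟩
  obtain ⟨a, b, hb, rfl⟩ := hBrep x hx
  refine ⟨b, hb, QuotientGroup.eq.2 ?_⟩
  rw [mul_comm (principal a) b, inv_mul_cancel_left]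
  exact ⟨a, rfl⟩

instance compactSpace_oneClasses : CompactSpace (oneClasses K) :=
  isCompact_iff_compactSpace.1 (isCompact_oneClasses K)

variable (K) in
/-- The section on the classes. -/
def classPath (s : ℝ) : Idele K ⧸ (principal (K := K)).range := QuotientGroup.mk (absPath K s)

theorem continuous_classPath : Continuous (classPath K) :=
  QuotientGroup.continuous_mk.comp continuous_absPath

theorem classAbs_classPath (s : ℝ) : classAbs K (classPath K s) = Real.exp s :=
  ideleAbs_absPath s

/-- The projection to the classes of absolute value one. -/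
def toOne (q : Idele K ⧸ (principal (K := K)).range) : oneClasses K :=
  ⟨q / classPath K (Real.log (classAbs K q)), MonoidHom.mem_ker.2 (by
    rw [← mul_left_inj' (classAbs_pos (classPath K (Real.log (classAbs K q)))).ne', ← map_mul,
      div_mul_cancel, one_mul, classAbs_classPath, Real.exp_log (classAbs_pos q)])⟩

theorem continuous_toOne : Continuous (toOne (K := K)) :=
  (continuous_id.div' (continuous_classPath.comp
    (continuous_classAbs.log fun q => (classAbs_pos q).ne'))).subtype_mk _

theorem toOne_coe (c : oneClasses K) : toOne (c : Idele K ⧸ (principal (K := K)).range) = c :=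
  Subtype.ext (by
    show (c : Idele K ⧸ (principal (K := K)).range) / classPath K _ = _
    rw [MonoidHom.mem_ker.1 c.2, Real.log_one, classPath, absPath_zero, QuotientGroup.mk_one,
      div_one])

variable (K) in
/-- **The idele class group is the compact group times the line.** -/
def classSplit : (oneClasses K × Multiplicative ℝ) ≃ₜ* Idele K ⧸ (principal (K := K)).range where
  toFun p := p.1 * classPath K p.2.toAdd
  invFun q := (toOne q, Multiplicative.ofAdd (Real.log (classAbs K q)))
  left_inv p := by
    have h : Real.log (classAbs K ((p.1 : Idele K ⧸ (principal (K := K)).range) *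
        classPath K p.2.toAdd)) = p.2.toAdd := by
      rw [map_mul, MonoidHom.mem_ker.1 p.1.2, one_mul, classAbs_classPath, Real.log_exp]
    refine Prod.ext (Subtype.ext ?_) (congrArg Multiplicative.ofAdd h)
    show _ / classPath K _ = _
    rw [h, mul_div_cancel_right]
  right_inv q := div_mul_cancel q (classPath K (Real.log (classAbs K q)))
  map_mul' p p' := by
    show ((p.1 * p'.1 : oneClasses K) : Idele K ⧸ (principal (K := K)).range) *
      classPath K (p.2.toAdd + p'.2.toAdd) = _
    rw [Subgroup.coe_mul, classPath, classPath, classPath, absPath_add, QuotientGroup.mk_mul]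
    exact mul_mul_mul_comm (p.1 : Idele K ⧸ (principal (K := K)).range)
      (p'.1 : Idele K ⧸ (principal (K := K)).range) _ _
  continuous_toFun := (continuous_subtype_val.comp continuous_fst).mul
    (continuous_classPath.comp (continuous_toAdd.comp continuous_snd))
  continuous_invFun := continuous_toOne.prodMk
    (continuous_ofAdd.comp (continuous_classAbs.log fun q => (classAbs_pos q).ne'))

/-! ### The Artin map on the compact group -/

variable (K) in
/-- The Artin map of the idele class group. -/
def classArtin : Idele K ⧸ (principal (K := K)).range →* (maxAbelian K ≃ₐ[K] maxAbelian K) :=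
  QuotientGroup.lift _ (artinAbel (maxAbelian K)) fun _ ⟨a, ha⟩ => ha ▸ artinAbel_principal a

theorem continuous_classArtin : Continuous (classArtin K) :=
  (QuotientGroup.isOpenQuotientMap_mk.continuous_comp_iff (g := classArtin K)).1
    continuous_artinAbel

theorem classArtin_classPath (s : ℝ) : classArtin K (classPath K s) = 1 :=
  artinAbel_posInf (absPath_mem s)

variable (K) in
/-- The Artin map on the classes of absolute value one. -/
def oneArtin : oneClasses K →* (maxAbelian K ≃ₐ[K] maxAbelian K) :=
  (classArtin K).comp (oneClasses K).subtype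

theorem continuous_oneArtin : Continuous (oneArtin K) :=
  continuous_classArtin.comp continuous_subtype_val

/-- **The compact group maps onto the Galois group.** -/
theorem oneArtin_surjective : Function.Surjective (oneArtin K) := fun g => by
  obtain ⟨x, rfl⟩ := artinAbel_surjective (K := K) g
  refine ⟨toOne (QuotientGroup.mk x), ?_⟩
  show classArtin K (QuotientGroup.mk x / classPath K _) = _
  rw [map_div, classArtin_classPath, div_one]
  rfl

/-- **The kernel is the connected component.** -/
theorem ker_oneArtin : (oneArtin K).ker = Subgroup.connectedComponentOfOne (oneClasses K) := by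
  haveI := t2Space_galAbel (K := K)
  refine SetLike.coe_injective (Set.Subset.antisymm (fun c hc => ?_) fun c hc => ?_)
  · have h1 : (c : Idele K ⧸ (principal (K := K)).range) ∈
        connectedComponent (1 : Idele K ⧸ (principal (K := K)).range) := by
      rw [connectedComponent_one_ideleClass]
      obtain ⟨x, hx⟩ := QuotientGroup.mk_surjective (c : Idele K ⧸ (principal (K := K)).range)
      refine ⟨x, MonoidHom.mem_ker.2 ?_, hx⟩
      exact (congrArg (classArtin K) hx).trans (MonoidHom.mem_ker.1 hc)
    have h2 := continuous_toOne.image_connectedComponent_subset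
      (1 : Idele K ⧸ (principal (K := K)).range) ⟨_, h1, toOne_coe c⟩
    rwa [show toOne (1 : Idele K ⧸ (principal (K := K)).range) = 1 from toOne_coe 1] at h2
  · have h := (isPreconnected_connectedComponent.image (oneArtin K)
      continuous_oneArtin.continuousOn).subsingleton ⟨c, hc, rfl⟩
      ⟨1, mem_connectedComponent, rfl⟩
    rw [map_one] at h
    exact MonoidHom.mem_ker.2 h

instance normal_component_oneClasses :
    (Subgroup.connectedComponentOfOne (oneClasses K)).Normal :=
  ⟨fun n hn g => by
    have e : g * n * g⁻¹ = n := Subtype.ext (by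
      simp only [Subgroup.coe_mul, Subgroup.coe_inv]
      rw [mul_comm (g : Idele K ⧸ (principal (K := K)).range) n, mul_inv_cancel_right])
    rwa [e]⟩

variable (K) in
/-- **The Galois group is the compact group modulo its connected component.** -/
theorem exists_galAbel_equiv :
    ∃ e : (oneClasses K ⧸ Subgroup.connectedComponentOfOne (oneClasses K)) ≃ₜ*
      (maxAbelian K ≃ₐ[K] maxAbelian K), ∀ c : oneClasses K,
        e (QuotientGroup.mk c) = oneArtin K c := by
  haveI := t2Space_galAbel (K := K)
  set f := QuotientGroup.lift (Subgroup.connectedComponentOfOne (oneClasses K)) (oneArtin K)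
    (ker_oneArtin (K := K)).ge
  have hc : Continuous f :=
    (QuotientGroup.isOpenQuotientMap_mk.continuous_comp_iff (g := f)).1 continuous_oneArtin
  have hb : Function.Bijective f := by
    refine ⟨(injective_iff_map_eq_one f).2 fun q hq => ?_, fun g => ?_⟩
    · obtain ⟨c, rfl⟩ := QuotientGroup.mk_surjective q
      refine (QuotientGroup.eq_one_iff c).2 ?_
      rw [← ker_oneArtin]
      exact MonoidHom.mem_ker.2 hq
    · obtain ⟨c, hc⟩ := oneArtin_surjective g
      exact ⟨QuotientGroup.mk c, hc⟩
  set e := MulEquiv.ofBijective f hb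
  exact ⟨{ e with
    continuous_toFun := hc
    continuous_invFun := hc.continuous_symm_of_equiv_compact_to_t2 (f := e.toEquiv) }, fun c => rfl⟩

end FA.IdeleClass

end
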