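import Fermat.Agent.CompactAbelian.Equidistribution
import Fermat.Agent.IdeleClass.Discrete
import Fermat.Agent.IdeleClass.LSeries
import Fermat.Agent.PrimeEquidist.Circle

/-!
# The primes in the idele classes

The primes are equidistributed in the compact group of idele classes of absolute value one, by
Weyl's criterion.  The values at the primes of a character with no positive power equal to a power
of the absolute value are equidistributed on the circle; those of a character of order `m` take
each `m`th root of unity with mean `1 / m`.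
-/

set_option autoImplicit false
set_option linter.unusedSectionVars false
set_option linter.style.haveILetI false

noncomputable section

open NumberField IsDedekindDomain MeasureTheory MeasureTheory.Measure Filter Topology
open FA.Ideles
open FA.ArtinRec (unif)
open FA.Hecke (HasMean hasMean_one hasMean_congr)
open FA.PrimeEquidist
open scoped Classical Real

namespace FA.IdeleClass

universe u

variable {K : Type u} [Field K] [NumberField K]

/-- The class of a prime in the compact group. -/
def primeClass (v : HeightOneSpectrum (𝓞 K)) : oneClasses K :=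
  toOne (QuotientGroup.mk (single v (localEmb v (unif v))))

theorem equidistributed_primeClass [MeasurableSpace (oneClasses K)] [BorelSpace (oneClasses K)]
    (μ : Measure (oneClasses K)) [IsMulLeftInvariant μ] [IsProbabilityMeasure μ] :
    Equidistributed μ (primeClass (K := K)) := by
  refine equidistributed_of_dense CompactAbelian.dense_span_charSet ?_
  rintro f ⟨ψ, hc, -, he⟩
  simp only [he]
  by_cases hψ : ψ = 1
  · subst hψ
    simpa using (hasMean_one K).map Complex.ofRealCLM
  · rw [CompactAbelian.integral_char_eq_zero μ hψ]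
    exact hasMean_oneClasses ψ hc hψ

variable {χ : Idele K →* ℂˣ}

theorem IsIdeleChar.pow (h : IsIdeleChar χ) (j : ℕ) : IsIdeleChar (χ ^ j) :=
  ⟨h.cont.pow j, fun a => by rw [MonoidHom.pow_apply, h.principal_eq, one_pow], fun x => by
    rw [MonoidHom.pow_apply, Units.val_pow_eq_pow_val, norm_pow, h.norm_eq, one_pow]⟩

theorem hasMean_unifVal_pow (h : IsIdeleChar χ) (j : ℕ) (hne : ∀ S : ℝ, χ ^ j ≠ absChar K S) :
    HasMean (fun v => unifVal χ v ^ j) 0 := by
  refine hasMean_congr (ramSet χ) (finite_ramSet h) (B := 2) (fun v => ?_) (fun v hv _ => ?_)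
    (hasMean_unifVal (h.pow j) hne)
  · refine (norm_sub_le _ _).trans ?_
    rw [norm_pow]
    linarith [pow_le_one₀ (norm_nonneg _) (norm_unifVal_le h v) (n := j),
      norm_unifVal_le (h.pow j) v]
  · have hv' : v ∉ ramSet (χ ^ j) := fun ⟨z, hz, hne'⟩ => hne' (by
      rw [MonoidHom.pow_apply]
      by_contra h'
      exact hv ⟨z, hz, fun e => h' (by rw [e, one_pow])⟩)
    rw [unifVal, unifVal, if_neg hv, if_neg hv', MonoidHom.pow_apply, Units.val_pow_eq_pow_val]

theorem norm_unifVal_eq (h : IsIdeleChar χ) {v : HeightOneSpectrum (𝓞 K)} (hv : v ∉ ramSet χ) :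
    ‖unifVal χ v‖ = 1 := by
  rw [unifVal, if_neg hv]
  exact h.norm_eq _

/-- **The angles of a character.** -/
theorem equidistributed_unifVal (h : IsIdeleChar χ)
    (hne : ∀ (j : ℕ) (S : ℝ), j ≠ 0 → χ ^ j ≠ absChar K S) :
    Equidistributed AddCircle.haarAddCircle fun v => circlePoint (unifVal χ v) :=
  equidistributed_angles (finite_ramSet h) (norm_unifVal_le h) (fun _ hv => norm_unifVal_eq h hv)
    fun j hj => hasMean_unifVal_pow h j fun S => hne j S hj

/-- A power of the absolute value of finite order is trivial. -/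
theorem absChar_pow_eq_one {S : ℝ} {m : ℕ} (hm : m ≠ 0) (h : absChar K S ^ m = 1) :
    absChar K S = 1 := by
  have hS : S = 0 := by
    by_contra hS
    have hS' : (m : ℝ) * S ≠ 0 := mul_ne_zero (Nat.cast_ne_zero.2 hm) hS
    have h1 := congrArg (fun φ : Idele K →* ℂˣ => ((φ (absPath K (π / (m * S))) : ℂˣ) : ℂ)) h
    simp only [MonoidHom.pow_apply, Units.val_pow_eq_pow_val, MonoidHom.one_apply, Units.val_one,
      absChar_val, ideleAbs_absPath, Real.log_exp, ← Complex.exp_nat_mul] at h1
    rw [← mul_assoc, ← Complex.ofReal_natCast, ← Complex.ofReal_mul,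
      show (m : ℝ) * (S * (π / (m * S))) = π by field_simp, Complex.exp_pi_mul_I] at h1
    norm_num at h1
  subst hS
  refine MonoidHom.ext fun x => Units.ext ?_
  rw [absChar_val, zero_mul, Complex.ofReal_zero, zero_mul, Complex.exp_zero, MonoidHom.one_apply,
    Units.val_one]

/-- **A character of order `m` takes each root of unity with mean `1 / m`.** -/
theorem hasMean_root (h : IsIdeleChar χ) {m : ℕ} (hm : m ≠ 0) (hord : orderOf χ = m) {ζ : ℂ}
    (hζ : ζ ^ m = 1) :
    HasMean (fun v => if unifVal χ v = ζ then (1 : ℝ) else 0) (1 / m : ℝ) := by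
  have hpow : χ ^ m = 1 := hord ▸ pow_orderOf_eq_one χ
  have hne : ∀ j, j < m → j ≠ 0 → ∀ S, χ ^ j ≠ absChar K S := fun j hj hj0 S e => by
    have h1 : absChar K S ^ m = 1 := MonoidHom.ext fun x => by
      rw [← e, MonoidHom.pow_apply, MonoidHom.pow_apply, ← pow_mul, mul_comm, pow_mul,
        ← MonoidHom.pow_apply, hpow, MonoidHom.one_apply, one_pow]
    rw [absChar_pow_eq_one hm h1] at e
    exact absurd (Nat.le_of_dvd (Nat.pos_of_ne_zero hj0) (hord ▸ orderOf_dvd_of_pow_eq_one e))
      (not_le.2 hj)
  have hζ0 : ζ ≠ 0 := fun e => by rw [e, zero_pow hm] at hζ; exact zero_ne_one hζ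
  have hmean : HasMean (fun v => ∑ j ∈ Finset.range m, (m : ℂ)⁻¹ * ζ⁻¹ ^ j * unifVal χ v ^ j)
      (∑ j ∈ Finset.range m, if j = 0 then (m : ℂ)⁻¹ else 0) := by
    refine HasMean.finset_sum _ fun j hj => ?_
    rcases eq_or_ne j 0 with rfl | hj0
    · have h1 := (hasMean_one K).map (((m : ℂ)⁻¹) • (Complex.ofRealCLM : ℝ →L[ℝ] ℂ))
      simpa using h1
    · rw [if_neg hj0]
      have h1 := (hasMean_unifVal_pow h j (hne j (Finset.mem_range.1 hj) hj0)).map
        (((m : ℂ)⁻¹ * ζ⁻¹ ^ j) • ContinuousLinearMap.id ℝ ℂ)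
      simpa using h1
  rw [Finset.sum_ite_eq', if_pos (Finset.mem_range.2 (Nat.pos_of_ne_zero hm))] at hmean
  have h2 : HasMean (fun v => if unifVal χ v = ζ then (1 : ℂ) else 0) (m : ℂ)⁻¹ := by
    refine hasMean_congr (ramSet χ) (finite_ramSet h) (B := 1 + m) (fun v => ?_) (fun v hv _ => ?_)
      hmean
    · refine (norm_sub_le _ _).trans (add_le_add (by split_ifs <;> simp)
        ((norm_sum_le_of_le _ (n := fun _ => (1 : ℝ)) fun j _ => ?_).trans (by simp)))
      rw [norm_mul, norm_mul, norm_inv, norm_pow, norm_pow, norm_inv,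
        Complex.norm_eq_one_of_pow_eq_one hζ hm, inv_one, one_pow, mul_one, Complex.norm_natCast]
      exact mul_le_one₀ (inv_le_one_of_one_le₀ (by exact_mod_cast Nat.pos_of_ne_zero hm))
        (pow_nonneg (norm_nonneg _) _) (pow_le_one₀ (norm_nonneg _) (norm_unifVal_le h v))
    · have hz : unifVal χ v ^ m = 1 := by
        rw [unifVal, if_neg hv, ← Units.val_pow_eq_pow_val, ← MonoidHom.pow_apply, hpow,
          MonoidHom.one_apply, Units.val_one]
      simp only [mul_assoc, ← mul_pow, ← Finset.mul_sum]
      split_ifs with e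
      · rw [e, inv_mul_cancel₀ hζ0]
        simp [hm]
      · have h3 : ζ⁻¹ * unifVal χ v ≠ 1 := fun e' => e (by
          rw [← mul_inv_cancel_left₀ hζ0 (unifVal χ v), e', mul_one])
        rw [geom_sum_eq h3, mul_pow, inv_pow, hζ, hz]
        simp
  have h4 := h2.map Complex.reCLM
  rw [show (m : ℂ)⁻¹ = ((1 / m : ℝ) : ℂ) by push_cast; rw [one_div], Complex.reCLM_apply,
    Complex.ofReal_re] at h4
  refine (funext fun v => ?_ : (fun v => if unifVal χ v = ζ then (1 : ℝ) else 0) = _) ▸ h4
  split_ifs <;> simp

end FA.IdeleClass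

end
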