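import Fermat.Agent.IdeleClass.Norm

/-!
# Extension of the ideles

For an extension of number fields, Galois or not, the ideles below sit in the ideles above: the
component at a place above is the image of the component at the place below.
-/

set_option autoImplicit false
set_option linter.unusedSectionVars false
set_option linter.style.haveILetI false

noncomputable section

open NumberField NumberField.InfinitePlace NumberField.InfinitePlace.Completion IsDedekindDomain
open WithZero
open FA.ArtinRec FA.Ideles FA.LocalCFT
open scoped Pointwise Classical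

namespace FA.IdeleClass

universe u

variable {K : Type u} [Field K] [NumberField K] {M : Type*} [Field M] [NumberField M] [Algebra K M]

theorem valuation_algebraMap_below (P : HeightOneSpectrum (𝓞 M)) (a : K) :
    P.valuation M (algebraMap K M a) = (belowP K P).valuation K a ^ eIdx K P :=
  haveI : P.asIdeal.LiesOver (belowP K P).asIdeal := ⟨rfl⟩
  (HeightOneSpectrum.valuation_liesOver M (belowP K P) P a).symm

variable (K) in
/-- The completion below inside the completion above, for any extension. -/
def finExt (P : HeightOneSpectrum (𝓞 M)) :
    (belowP K P).adicCompletion K →+* P.adicCompletion M :=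
  extHom (belowP K P) P (algebraMap K M) (eIdx_pos (K := K) P) (valuation_algebraMap_below P)

theorem finExt_algebraMap (P : HeightOneSpectrum (𝓞 M)) (a : K) :
    finExt K P (algebraMap K ((belowP K P).adicCompletion K) a) =
      algebraMap M (P.adicCompletion M) (algebraMap K M a) :=
  extHom_algebraMap _ _ _ _ _ a

theorem valued_finExt (P : HeightOneSpectrum (𝓞 M)) (z : (belowP K P).adicCompletion K) :
    Valued.v (finExt K P z) = Valued.v z ^ eIdx K P :=
  valued_extHom _ _ _ _ _ z

variable (K) in
/-- The finite component of an extended idele. -/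
def finInc (P : HeightOneSpectrum (𝓞 M)) : Idele K →* (P.adicCompletion M)ˣ :=
  (Units.map (finExt K P : (belowP K P).adicCompletion K →* P.adicCompletion M)).comp
    (finComp (belowP K P))

theorem valued_finInc (P : HeightOneSpectrum (𝓞 M)) (x : Idele K) :
    Valued.v ((finInc K P x : (P.adicCompletion M)ˣ) : P.adicCompletion M) =
      Valued.v ((finComp (belowP K P) x : ((belowP K P).adicCompletion K)ˣ) :
        (belowP K P).adicCompletion K) ^ eIdx K P :=
  valued_finExt P _

theorem finite_finInc (x : Idele K) :
    {P : HeightOneSpectrum (𝓞 M) |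
      Valued.v ((finInc K P x : (P.adicCompletion M)ˣ) : P.adicCompletion M) ≠ 1}.Finite :=
  ((finite_valued_ne_one x).biUnion fun v _ => finite_belowP (L := M) v).subset fun P hP =>
    Set.mem_iUnion₂.2 ⟨belowP K P, fun h => hP (by rw [valued_finInc, h, one_pow]), rfl⟩

variable (K) in
/-- The infinite component of an extended idele. -/
def infInc (u : InfinitePlace M) : Idele K →* u.Completionˣ :=
  haveI : u.LiesOver (u.comap (algebraMap K M)) := ⟨rfl⟩
  (Units.map (NumberField.LiesOver.completionMap (v := u.comap (algebraMap K M)) (w := u) :
    (u.comap (algebraMap K M)).Completion →* u.Completion)).comp (infComp _)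

variable (K M) in
/-- **The ideles below inside the ideles above.** -/
def inclIdele : Idele K →* Idele M :=
  MonoidHom.mk' (fun x => ofFinite (fun P => finInc K P x) (finite_finInc x) *
    ∏ u : InfinitePlace M, infSingle u (infInc K u x)) fun x y => by
      simp only [map_mul, Finset.prod_mul_distrib]
      rw [mul_mul_mul_comm]
      refine congrArg (· * _) (idele_ext (fun P => ?_) fun u => ?_)
      · rw [map_mul, finComp_ofFinite, finComp_ofFinite, finComp_ofFinite]
      · rw [map_mul, infComp_ofFinite, infComp_ofFinite, infComp_ofFinite, one_mul]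

theorem finComp_inclIdele (P : HeightOneSpectrum (𝓞 M)) (x : Idele K) :
    finComp P (inclIdele K M x) = finInc K P x := by
  rw [inclIdele, MonoidHom.mk'_apply, map_mul, finComp_ofFinite, map_prod,
    Finset.prod_eq_one (fun u _ => finComp_infSingle P u _), mul_one]

theorem infComp_inclIdele (u : InfinitePlace M) (x : Idele K) :
    infComp u (inclIdele K M x) = infInc K u x := by
  rw [inclIdele, MonoidHom.mk'_apply, map_mul, infComp_ofFinite, one_mul, map_prod,
    Finset.prod_eq_single u (fun w _ hw => infComp_infSingle_of_ne hw.symm _)
      (fun h => absurd (Finset.mem_univ u) h), infComp_infSingle_self]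

/-- **On the principal ideles it is the inclusion.** -/
theorem inclIdele_principal (a : Kˣ) :
    inclIdele K M (principal a) = principal (baseU a) := by
  refine idele_ext (fun P => Units.ext ?_) fun u => Units.ext ?_
  · rw [finComp_inclIdele, finComp_principal]
    exact finExt_algebraMap P (a : K)
  · haveI : u.LiesOver (u.comap (algebraMap K M)) := ⟨rfl⟩
    rw [infComp_inclIdele, infComp_principal]
    show NumberField.LiesOver.completionMap
      (algebraMap K (u.comap (algebraMap K M)).Completion (a : K)) = _
    rw [show algebraMap K (u.comap (algebraMap K M)).Completion (a : K) =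
      ((WithAbs.toAbs (u.comap (algebraMap K M)).1 (a : K) : WithAbs (u.comap (algebraMap K M)).1) :
        (u.comap (algebraMap K M)).Completion) from rfl, NumberField.LiesOver.completionMap_coe]
    rfl

theorem finComp_inclIdele_single_of_ne {v : HeightOneSpectrum (𝓞 K)}
    {P : HeightOneSpectrum (𝓞 M)} (h : belowP K P ≠ v) (z : (v.adicCompletion K)ˣ) :
    finComp P (inclIdele K M (single v z)) = 1 := by
  rw [finComp_inclIdele, finInc, MonoidHom.comp_apply, finComp_single_of_ne h, map_one]

theorem infComp_inclIdele_single (u : InfinitePlace M) (v : HeightOneSpectrum (𝓞 K))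
    (z : (v.adicCompletion K)ˣ) : infComp u (inclIdele K M (single v z)) = 1 := by
  rw [infComp_inclIdele, infInc, MonoidHom.comp_apply, infComp_single, map_one]

/-- **The extension of a single component.** -/
theorem inclIdele_single (v : HeightOneSpectrum (𝓞 K)) (z : (v.adicCompletion K)ˣ) :
    inclIdele K M (single v z) =
      ∏ P ∈ (finite_belowP (L := M) v).toFinset, single P (finInc K P (single v z)) := by
  refine idele_ext (fun P => ?_) fun u => ?_
  · rw [map_prod]
    by_cases h : belowP K P = v
    · rw [Finset.prod_eq_single P (fun Q _ hQ => finComp_single_of_ne hQ.symm _)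
        (fun h' => absurd ((finite_belowP (L := M) v).mem_toFinset.2 h) h'), finComp_single_self, finComp_inclIdele]
    · rw [finComp_inclIdele_single_of_ne h, Finset.prod_eq_one fun Q hQ => ?_]
      exact finComp_single_of_ne (fun e => h (by rw [e]; exact (finite_belowP (L := M) v).mem_toFinset.1 hQ)) _
  · rw [infComp_inclIdele_single, map_prod]
    exact (Finset.prod_eq_one fun Q _ => infComp_single _ _ _).symm

/-- Positivity at the real places is kept. -/
theorem infInc_pos {u : InfinitePlace M} (hu : IsReal u) {x : Idele K}
    (hx : ∀ hw : IsReal (u.comap (algebraMap K M)),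
      0 < extensionEmbeddingOfIsReal hw (infComp _ x).val) :
    0 < extensionEmbeddingOfIsReal hu (infInc K u x).val := by
  haveI : u.LiesOver (u.comap (algebraMap K M)) := ⟨rfl⟩
  have hw := IsReal.comap (algebraMap K M) hu
  set z := (infComp (u.comap (algebraMap K M)) x : (u.comap (algebraMap K M)).Completionˣ).val
  set E := ringEquivRealOfIsReal hw
  have hpos : 0 < E z := hx hw
  set s := E.symm (Real.sqrt (E z))
  have hs : z = s ^ 2 := E.injective (by
    rw [map_pow, RingEquiv.apply_symm_apply, Real.sq_sqrt hpos.le])
  show 0 < extensionEmbeddingOfIsReal hu (NumberField.LiesOver.completionMap z)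
  rw [hs, map_pow, map_pow]
  exact sq_pos_of_ne_zero ((map_ne_zero _).2 ((map_ne_zero _).2 fun h0 => hpos.ne' (by
    rw [hs, h0, zero_pow two_ne_zero, map_zero])))

/-- **Level subgroups map into level subgroups.** -/
theorem inclIdele_mem_levelSub {T : Set (HeightOneSpectrum (𝓞 K))} {k : ℕ} {x : Idele K}
    (hx : x ∈ levelSub T k) :
    inclIdele K M x ∈ levelSub (belowP K ⁻¹' T : Set (HeightOneSpectrum (𝓞 M))) k := by
  refine ⟨fun P hP => ?_, fun P hP => ?_, fun u hu => ?_⟩
  · rw [finComp_inclIdele, valued_finInc, hx.1 _ hP, one_pow]
  · rw [finComp_inclIdele, mem_nearLocal, finInc, MonoidHom.comp_apply, Units.coe_map,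
      MonoidHom.coe_coe, ← map_one (finExt K P), ← map_sub, valued_finExt]
    have h := (mem_nearLocal _).1 (hx.2.1 (belowP K P) hP)
    refine le_trans ?_ h
    exact pow_le_of_le_one zero_le (h.trans (by rw [← exp_zero, exp_le_exp]; omega))
      (eIdx_pos (K := K) P).ne'
  · rw [infComp_inclIdele]
    exact infInc_pos hu fun hw => hx.2.2 _ hw

theorem finite_preimage_belowP {T : Set (HeightOneSpectrum (𝓞 K))} (hT : T.Finite) :
    (belowP K ⁻¹' T : Set (HeightOneSpectrum (𝓞 M))).Finite := by
  rw [← Set.biUnion_preimage_singleton]
  exact hT.biUnion fun v _ => finite_belowP (L := M) v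

end FA.IdeleClass

end
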