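import Fermat.Agent.IdeleClass.NormIndex

/-!
# Functoriality of the Artin map at infinite level

The maximal abelian extension below embeds into the one above, and restriction along such an
embedding turns the Artin map above into the Artin map below composed with the norm.
-/

set_option autoImplicit false
set_option linter.unusedSectionVars false
set_option linter.style.haveILetI false

noncomputable section

open NumberField IsDedekindDomain IsMulCommutative
open FA.ArtinRec FA.Ideles FA.NormResidue FA.LocalCFT
open scoped IntermediateField Classical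

namespace FA.IdeleClass

universe u v

variable {K : Type u} [Field K] [NumberField K] {M : Type v} [Field M] [NumberField M] [Algebra K M]

/-- **Base change of a finite abelian extension is abelian.** -/
theorem exists_abelian_over {Ω : Type*} [Field Ω] [Algebra M Ω] [Algebra K Ω]
    [IsScalarTower K M Ω] [Algebra.IsAlgebraic M Ω] [IsAlgClosed Ω] {E : Type*} [Field E]
    [Algebra K E] [FiniteDimensional K E] [IsAbelianGalois K E] (f : E →ₐ[K] Ω) :
    ∃ F : IntermediateField M Ω, FiniteDimensional M F ∧ IsAbelianGalois M F ∧ ∀ x, f x ∈ F := by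
  haveI : IsAlgClosure M Ω := ⟨inferInstance, inferInstance⟩
  let b := Module.finBasis K E
  set F : IntermediateField M Ω := IntermediateField.adjoin M (Set.range fun i => f (b i))
  haveI hfin : FiniteDimensional M F := by
    haveI : Finite (Set.range fun i => f (b i) : Set Ω) := (Set.finite_range _).to_subtype
    exact IntermediateField.finiteDimensional_adjoin fun x _ =>
      (Algebra.IsAlgebraic.isAlgebraic (R := M) x).isIntegral
  have hmem : ∀ x, f x ∈ F := fun x => by
    show f x ∈ F.restrictScalars K
    rw [← b.sum_repr x, map_sum]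
    exact (F.restrictScalars K).sum_mem fun i _ => by
      rw [Algebra.smul_def, map_mul, f.commutes]
      exact (F.restrictScalars K).mul_mem ((F.restrictScalars K).algebraMap_mem _)
        (IntermediateField.subset_adjoin M _ ⟨i, rfl⟩)
  letI : Algebra E Ω := f.toRingHom.toAlgebra
  haveI : IsScalarTower K E Ω := IsScalarTower.of_algebraMap_eq fun x => (f.commutes x).symm
  haveI : Normal M Ω := IsAlgClosure.normal M Ω
  haveI : Normal M F := by
    refine IntermediateField.normal_iff_forall_map_le.2 fun σ => ?_
    rw [IntermediateField.adjoin_map, IntermediateField.adjoin_le_iff]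
    rintro _ ⟨_, ⟨i, rfl⟩, rfl⟩
    have h1 := AlgHom.restrictNormal_commutes (σ.restrictScalars K) E (b i)
    show σ (f (b i)) ∈ F
    rw [show σ (f (b i)) = f ((σ.restrictScalars K).restrictNormal E (b i)) from h1.symm]
    exact hmem _
  haveI : IsGalois M F := ⟨⟩
  refine ⟨F, hfin, { (inferInstance : IsGalois M F) with is_comm := ⟨fun g g' => ?_⟩ }, hmem⟩
  let j : E →ₐ[K] F :=
    { toFun := fun x => ⟨f x, hmem x⟩
      map_one' := Subtype.ext (map_one f)
      map_mul' := fun x y => Subtype.ext (map_mul f x y)
      map_zero' := Subtype.ext (map_zero f)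
      map_add' := fun x y => Subtype.ext (map_add f x y)
      commutes' := fun r => Subtype.ext (f.commutes r) }
  letI : Algebra E F := j.toRingHom.toAlgebra
  haveI : IsScalarTower K E F := IsScalarTower.of_algebraMap_eq fun x => (j.commutes x).symm
  have hg : ∀ (g : F ≃ₐ[M] F) x,
      g (j x) = j (AlgEquiv.restrictNormalHom E (g.restrictScalars K) x) :=
    fun g x => ((g.restrictScalars K).restrictNormal_commutes E x).symm
  have hdet : ∀ x, (g * g') (j x) = (g' * g) (j x) := fun x => by
    rw [AlgEquiv.mul_apply, AlgEquiv.mul_apply, hg g', hg g, hg g, hg g', ← AlgEquiv.mul_apply,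
      ← AlgEquiv.mul_apply, mul_comm']
  refine AlgEquiv.ext fun ⟨y, hy⟩ => ?_
  induction hy using IntermediateField.adjoin_induction with
  | mem y hy =>
    obtain ⟨i, rfl⟩ := hy
    exact hdet (b i)
  | algebraMap r => exact ((g * g').commutes r).trans ((g' * g).commutes r).symm
  | add y z hy hz h1 h2 =>
    exact ((map_add (g * g') ⟨y, hy⟩ ⟨z, hz⟩).trans (congrArg₂ (· + ·) h1 h2)).trans
      (map_add (g' * g) ⟨y, hy⟩ ⟨z, hz⟩).symm
  | inv y hy h1 =>
    exact ((map_inv₀ (g * g') ⟨y, hy⟩).trans (congrArg _ h1)).trans
      (map_inv₀ (g' * g) ⟨y, hy⟩).symm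
  | mul y z hy hz h1 h2 =>
    exact ((map_mul (g * g') ⟨y, hy⟩ ⟨z, hz⟩).trans (congrArg₂ (· * ·) h1 h2)).trans
      (map_mul (g' * g) ⟨y, hy⟩ ⟨z, hz⟩).symm

variable (K M) in
/-- **The maximal abelian extension below embeds into the one above.** -/
theorem nonempty_maxAbelian_algHom : Nonempty (maxAbelian K →ₐ[K] maxAbelian M) := by
  let f : AlgebraicClosure K →ₐ[K] AlgebraicClosure M := IsAlgClosed.lift
  have hle : maxAbelian K ≤ ((maxAbelian M).restrictScalars K).comap f := by
    refine iSup_le fun E => fun x hx => ?_
    haveI := E.2.1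
    haveI := E.2.2
    obtain ⟨F, h1, h2, h3⟩ := exists_abelian_over (M := M) (f.comp E.1.val)
    exact le_maxAbelian h1 h2 (h3 ⟨x, hx⟩)
  exact ⟨{ toFun := fun x => ⟨f x, hle x.2⟩
           map_one' := Subtype.ext (map_one f)
           map_mul' := fun x y => Subtype.ext (map_mul f x.1 y.1)
           map_zero' := Subtype.ext (map_zero f)
           map_add' := fun x y => Subtype.ext (map_add f x.1 y.1)
           commutes' := fun r => Subtype.ext (f.commutes r) }⟩

variable [IsGalois K M]

/-- **Restriction turns the Artin map above into the Artin map of the norm.** -/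
theorem artinAbel_normIdele (ι : maxAbelian K →ₐ[K] maxAbelian M) (y : Idele M)
    (z : maxAbelian K) :
    ι (artinAbel (maxAbelian K) (normIdele K M y) z) = artinAbel (maxAbelian M) y (ι z) := by
  haveI := finite_adjoin (K := K) ({z} : Set (maxAbelian K)) (Set.finite_singleton z)
  haveI := finite_adjoin (K := M) ({ι z} : Set (maxAbelian M)) (Set.finite_singleton (ι z))
  set E := IntermediateField.adjoin K ({z} : Set (maxAbelian K))
  set F := IntermediateField.adjoin M ({ι z} : Set (maxAbelian M))
  haveI : NumberField E := NumberField.of_module_finite K E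
  haveI : NumberField F := NumberField.of_module_finite M F
  have hz : z ∈ E := IntermediateField.subset_adjoin K _ rfl
  have hιz : ι z ∈ F := IntermediateField.subset_adjoin M _ rfl
  have hmem : E ≤ (F.restrictScalars K).comap ι :=
    IntermediateField.adjoin_le_iff.2 (Set.singleton_subset_iff.2 hιz)
  let j : E →ₐ[K] F :=
    { toFun := fun x => ⟨ι x, hmem x.2⟩
      map_one' := Subtype.ext (map_one ι)
      map_mul' := fun x y => Subtype.ext (map_mul ι x.1 y.1)
      map_zero' := Subtype.ext (map_zero ι)
      map_add' := fun x y => Subtype.ext (map_add ι x.1 y.1)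
      commutes' := fun r => Subtype.ext (ι.commutes r) }
  letI : Algebra E F := j.toRingHom.toAlgebra
  letI : SMul E F := Algebra.toSMul
  haveI : IsScalarTower K E F := IsScalarTower.of_algebraMap_eq fun x => (j.commutes x).symm
  show ι (abelVal (normIdele K M y) z) = abelVal y (ι z)
  rw [abelVal_eq (normIdele K M y) hz, abelVal_eq y hιz]
  show ((algebraMap E F (artinIdele E (normIdele K M y) ⟨z, hz⟩) : F) : maxAbelian M) =
    ((artinIdele F y ⟨ι z, hιz⟩ : F) : maxAbelian M)
  rw [artinIdele_normIdele (L := E) (N := F), restrictBelow_apply]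
  rfl

end FA.IdeleClass

end
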