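import Fermat.Agent.IdeleClass.Compact
import Mathlib.NumberTheory.NumberField.Completion.LiesOverInstances

/-!
# The norm at the infinite places

At an infinite place of the field below the norm of an idele of a finite extension is the product
over the embeddings extending the given one.  It is continuous, it is the norm on the principal
ideles, and the positive elements are norms of positive elements.
-/

set_option autoImplicit false
set_option linter.unusedSectionVars false
set_option linter.style.haveILetI false

noncomputable section

open NumberField NumberField.InfinitePlace NumberField.InfinitePlace.Completion IsDedekindDomain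
open FA.Ideles
open scoped Classical ComplexConjugate

namespace FA.IdeleClass

universe u

variable {M : Type*} [Field M] [NumberField M]

/-! ### Embeddings on the completions -/

/-- The extension of an embedding to the completion at its place. -/
def embHom (φ : M →+* ℂ) (u : InfinitePlace M) : u.Completion →+* ℂ :=
  if u.embedding = φ then extensionEmbedding u
  else (starRingEnd ℂ).comp (extensionEmbedding u)

theorem continuous_embHom (φ : M →+* ℂ) (u : InfinitePlace M) : Continuous (embHom φ u) := by
  unfold embHom
  split_ifs
  · exact (isometry_extensionEmbedding u).continuous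
  · exact Complex.continuous_conj.comp (isometry_extensionEmbedding u).continuous

theorem embHom_coe {φ : M →+* ℂ} {u : InfinitePlace M} (h : InfinitePlace.mk φ = u)
    (x : WithAbs u.1) : embHom φ u (x : u.Completion) = φ (WithAbs.equiv u.1 x) := by
  unfold embHom
  split_ifs with he
  · rw [extensionEmbedding_coe, he]
  · subst h
    rcases embedding_mk_eq φ with h1 | h1
    · exact absurd h1 he
    · rw [RingHom.comp_apply, extensionEmbedding_coe, h1, ComplexEmbedding.conjugate_coe_eq,
        Complex.conj_conj]

/-- Continuous maps agreeing on the field are equal. -/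
theorem completion_hom_ext {u : InfinitePlace M} {f g : u.Completion → ℂ} (hf : Continuous f)
    (hg : Continuous g) (h : ∀ x : WithAbs u.1, f (x : u.Completion) = g (x : u.Completion))
    (z : u.Completion) : f z = g z :=
  induction_on u z (isClosed_eq hf hg) h

/-- The value of an embedding on an idele. -/
def embVal (φ : M →+* ℂ) : Idele M →* ℂˣ :=
  (Units.map (embHom φ (InfinitePlace.mk φ) : (InfinitePlace.mk φ).Completion →* ℂ)).comp
    (infComp (InfinitePlace.mk φ))

theorem embVal_apply {φ : M →+* ℂ} {u : InfinitePlace M} (h : InfinitePlace.mk φ = u)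
    (y : Idele M) : ((embVal φ y : ℂˣ) : ℂ) = embHom φ u (infComp u y : u.Completionˣ) := by
  subst h
  rfl

theorem embVal_conjugate (φ : M →+* ℂ) (y : Idele M) :
    ((embVal (ComplexEmbedding.conjugate φ) y : ℂˣ) : ℂ) = conj ((embVal φ y : ℂˣ) : ℂ) := by
  rw [embVal_apply (mk_conjugate_eq φ), embVal_apply rfl]
  refine completion_hom_ext (f := fun z => embHom (ComplexEmbedding.conjugate φ) _ z)
    (g := fun z => conj (embHom φ (InfinitePlace.mk φ) z)) (continuous_embHom _ _)
    (Complex.continuous_conj.comp (continuous_embHom _ _)) (fun x => ?_) _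
  rw [embHom_coe (mk_conjugate_eq φ), embHom_coe rfl, ComplexEmbedding.conjugate_coe_eq]

theorem embVal_principal (φ : M →+* ℂ) (c : Mˣ) :
    ((embVal φ (principal c) : ℂˣ) : ℂ) = φ c := by
  rw [embVal_apply rfl, infComp_principal]
  exact embHom_coe rfl ((WithAbs.equiv (InfinitePlace.mk φ).1).symm (c : M))

theorem continuous_embVal (φ : M →+* ℂ) :
    Continuous fun y : Idele M => ((embVal φ y : ℂˣ) : ℂ) :=
  (continuous_embHom φ _).comp (continuous_infComp_val _)

/-! ### The product over the extensions of an embedding -/

variable (M) {K : Type u} [Field K] [NumberField K] [Algebra K M]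

/-- The product over the embeddings extending that of a place. -/
def infProd (w : InfinitePlace K) : Idele M →* ℂˣ :=
  ∏ φ ∈ (Finset.univ : Finset (M →+* ℂ)).filter (fun φ => φ.comp (algebraMap K M) = w.embedding),
    embVal φ

variable {M}

theorem infProd_val (w : InfinitePlace K) (y : Idele M) :
    ((infProd M w y : ℂˣ) : ℂ) = ∏ φ ∈ (Finset.univ : Finset (M →+* ℂ)).filter
      (fun φ => φ.comp (algebraMap K M) = w.embedding), ((embVal φ y : ℂˣ) : ℂ) := by
  rw [infProd, MonoidHom.finsetProd_apply, Units.coe_prod]

theorem continuous_infProd (w : InfinitePlace K) :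
    Continuous fun y : Idele M => ((infProd M w y : ℂˣ) : ℂ) := by
  simp only [infProd_val]
  exact continuous_finsetProd _ fun φ _ => continuous_embVal φ

theorem conj_infProd {w : InfinitePlace K} (hr : IsReal w) (y : Idele M) :
    conj ((infProd M w y : ℂˣ) : ℂ) = ((infProd M w y : ℂˣ) : ℂ) := by
  have hw : ComplexEmbedding.conjugate w.embedding = w.embedding :=
    ComplexEmbedding.isReal_iff.1 (isReal_iff.1 hr)
  have hc : ∀ φ : M →+* ℂ, (ComplexEmbedding.conjugate φ).comp (algebraMap K M) =
      ComplexEmbedding.conjugate (φ.comp (algebraMap K M)) := fun φ => RingHom.ext fun _ => rfl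
  have hi : Function.Involutive (ComplexEmbedding.conjugate : (M →+* ℂ) → (M →+* ℂ)) := star_star
  rw [infProd_val, map_prod]
  refine Finset.prod_nbij' ComplexEmbedding.conjugate ComplexEmbedding.conjugate
    (fun φ hφ => ?_) (fun φ hφ => ?_) (fun φ _ => hi φ) (fun φ _ => hi φ)
    fun φ _ => (embVal_conjugate φ y).symm
  · rw [Finset.mem_filter] at hφ ⊢
    exact ⟨Finset.mem_univ _, by rw [hc, hφ.2, hw]⟩
  · rw [Finset.mem_filter] at hφ ⊢
    exact ⟨Finset.mem_univ _, by rw [hc, hφ.2, hw]⟩

theorem exists_extension_eq_infProd (w : InfinitePlace K) (y : Idele M) :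
    ∃ z : w.Completionˣ, extensionEmbedding w (z : w.Completion) = ((infProd M w y : ℂˣ) : ℂ) := by
  obtain ⟨t, ht⟩ : ∃ t, extensionEmbedding w t = ((infProd M w y : ℂˣ) : ℂ) := by
    rcases isReal_or_isComplex w with hr | hc
    · obtain ⟨r, hr'⟩ := Complex.conj_eq_iff_real.1 (conj_infProd hr y)
      refine ⟨(ringEquivRealOfIsReal hr).symm r, ?_⟩
      rw [hr', ← extensionEmbeddingOfIsReal_apply hr]
      exact congrArg _ ((ringEquivRealOfIsReal hr).apply_symm_apply r)
    · exact ⟨(ringEquivComplexOfIsComplex hc).symm _,
        (ringEquivComplexOfIsComplex hc).apply_symm_apply _⟩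
  exact ⟨Units.mk0 t fun h => (infProd M w y).ne_zero (by rw [← ht, h, map_zero]), ht⟩

variable (M) in
/-- **The norm at an infinite place.** -/
def normInf (w : InfinitePlace K) : Idele M →* w.Completionˣ :=
  MonoidHom.mk' (fun y => (exists_extension_eq_infProd w y).choose) fun y y' =>
    Units.ext ((extensionEmbedding w).injective (by
      exact (exists_extension_eq_infProd w (y * y')).choose_spec.trans
        ((congrArg Units.val (map_mul (infProd M w) y y')).trans
          ((congrArg₂ (· * ·) (exists_extension_eq_infProd w y).choose_spec.symm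
            (exists_extension_eq_infProd w y').choose_spec.symm).trans
              (map_mul (extensionEmbedding w) _ _).symm))))

/-- **The defining property.** -/
theorem extension_normInf (w : InfinitePlace K) (y : Idele M) :
    extensionEmbedding w ((normInf M w y : w.Completionˣ) : w.Completion) =
      ((infProd M w y : ℂˣ) : ℂ) :=
  (exists_extension_eq_infProd w y).choose_spec

theorem normInf_eq_iff (w : InfinitePlace K) (y : Idele M) (z : w.Completionˣ) :
    normInf M w y = z ↔ extensionEmbedding w (z : w.Completion) = ((infProd M w y : ℂˣ) : ℂ) :=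
  ⟨fun h => h ▸ extension_normInf w y, fun h => Units.ext ((extensionEmbedding w).injective
    ((extension_normInf w y).trans h.symm))⟩

theorem continuous_normInf (w : InfinitePlace K) :
    Continuous fun y : Idele M => ((normInf M w y : w.Completionˣ) : w.Completion) := by
  rw [(isometry_extensionEmbedding w).isEmbedding.continuous_iff]
  simp only [Function.comp_def, extension_normInf]
  exact continuous_infProd w

/-- Without infinite components the norm is one. -/
theorem normInf_eq_one {y : Idele M} (hy : ∀ u, infComp u y = 1) (w : InfinitePlace K) :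
    normInf M w y = 1 := by
  rw [normInf_eq_iff, Units.val_one, map_one, infProd_val]
  exact (Finset.prod_eq_one fun φ _ => by rw [embVal_apply rfl, hy, Units.val_one, map_one]).symm

/-- **On the principal ideles the norm.** -/
theorem normInf_principal (w : InfinitePlace K) (c : Mˣ) :
    normInf M w (principal c) = infComp w (principal (FA.ArtinRec.normU' (K := K) c)) := by
  rw [normInf_eq_iff, infComp_principal, infProd_val]
  letI : Algebra K ℂ := w.embedding.toAlgebra
  have h := Algebra.norm_eq_prod_embeddings K ℂ (c : M)
  refine Eq.trans ?_ (h.trans ?_)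
  · exact extensionEmbedding_coe w ((WithAbs.equiv w.1).symm (Algebra.norm K (c : M)))
  · refine Finset.prod_bij (fun σ _ => σ.toRingHom) (fun σ _ => ?_) (fun σ _ τ _ e => ?_)
      (fun φ hφ => ?_) fun σ _ => (embVal_principal σ.toRingHom c).symm
    · exact Finset.mem_filter.2 ⟨Finset.mem_univ _, RingHom.ext σ.commutes⟩
    · exact AlgHom.ext fun x => RingHom.congr_fun e x
    · exact ⟨⟨φ, RingHom.congr_fun (Finset.mem_filter.1 hφ).2⟩, Finset.mem_univ _, rfl⟩

/-! ### Positivity -/

theorem normInf_pos {y : Idele M} (hy : ∀ (u : InfinitePlace M) (hr : IsReal u),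
      0 < extensionEmbeddingOfIsReal hr (infComp u y).val)
    (w : InfinitePlace K) (hr : IsReal w) :
    0 < extensionEmbeddingOfIsReal hr (normInf M w y : w.Completionˣ).val := by
  obtain ⟨G, hG, hG0, hG1, -, -⟩ := exists_path_posInf (infPart_mem_posInf hy)
  set f : ℝ → ℝ := fun s => extensionEmbeddingOfIsReal hr (normInf M w (G s) : w.Completionˣ).val
  have hf : Continuous f := (isometry_extensionEmbeddingOfIsReal hr).continuous.comp
    ((continuous_normInf w).comp hG)
  have hne : ∀ s, f s ≠ 0 := fun s => extension_ne_zero hr _
  have h0 : f 0 = 1 := by simp [f, hG0]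
  have h1 : f 1 = extensionEmbeddingOfIsReal hr (normInf M w y : w.Completionˣ).val := by
    have e : normInf M w (infPart y) = normInf M w y := by
      have h := normInf_eq_one (w := w) (y := y / infPart y) fun u => by
        rw [map_div, infComp_infPart, div_self']
      rw [map_div, div_eq_one] at h
      exact h.symm
    simp only [f, hG1, e]
  rw [← h1]
  by_contra hle
  obtain ⟨s, -, hs⟩ := isPreconnected_univ.intermediate_value (Set.mem_univ (1 : ℝ))
    (Set.mem_univ (0 : ℝ)) hf.continuousOn
    (show (0 : ℝ) ∈ Set.Icc (f 1) (f 0) from ⟨not_lt.1 hle, by rw [h0]; exact zero_le_one⟩)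
  exact hne s hs

/-! ### Positive elements are norms -/

open scoped NumberField.LiesOver in
/-- The positive infinite idele above one below. -/
theorem exists_posInf_above {z : Idele K} (hz : z ∈ posInf K) :
    ∃ y ∈ posInf M, ∀ w : InfinitePlace K, normInf M w y = infComp w z := by
  obtain ⟨t, ht, htz⟩ := exists_root_posInf hz (Module.finrank_pos (R := K) (M := M)).ne'
  have key : ∀ u : InfinitePlace M, ∃ s : u.Completionˣ,
      (∀ φ : M →+* ℂ, InfinitePlace.mk φ = u →
        φ.comp (algebraMap K M) = (u.comap (algebraMap K M)).embedding →
          embHom φ u (s : u.Completion) = extensionEmbedding (u.comap (algebraMap K M))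
            (infComp (u.comap (algebraMap K M)) t : _).val) ∧
      ∀ hu : IsReal u, 0 < extensionEmbeddingOfIsReal hu (s : u.Completion) := fun u => by
    set w := u.comap (algebraMap K M) with hw
    haveI : u.LiesOver w := ⟨rfl⟩
    refine ⟨Units.map (NumberField.LiesOver.completionMap (v := w) (w := u) :
      w.Completion →* u.Completion) (infComp w t), fun φ hφ hφw => ?_, fun hu => ?_⟩
    · refine completion_hom_ext (M := K) (f := fun a => embHom φ u
        (NumberField.LiesOver.completionMap (v := w) (w := u) a))
        (g := extensionEmbedding w) ((continuous_embHom φ u).comp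
          NumberField.LiesOver.continuous_completionMap)
        (isometry_extensionEmbedding w).continuous (fun x => ?_) _
      rw [NumberField.LiesOver.completionMap_coe, embHom_coe hφ, extensionEmbedding_coe, ← hφw]
      rfl
    · have hwr : IsReal w := hu.comap _
      rw [show extensionEmbeddingOfIsReal hu (Units.map (NumberField.LiesOver.completionMap
        (v := w) (w := u) : w.Completion →* u.Completion) (infComp w t) : u.Completionˣ).val =
          extensionEmbeddingOfIsReal hwr (infComp w t).val from ?_]
      · exact ht.2 w hwr
      refine Complex.ofReal_injective ?_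
      rw [extensionEmbeddingOfIsReal_apply hwr, extensionEmbeddingOfIsReal_apply hu]
      refine completion_hom_ext (M := K) (f := fun a => extensionEmbedding u
        (NumberField.LiesOver.completionMap (v := w) (w := u) a))
        (g := extensionEmbedding w) ((isometry_extensionEmbedding u).continuous.comp
          NumberField.LiesOver.continuous_completionMap)
        (isometry_extensionEmbedding w).continuous (fun x => ?_) _
      rw [NumberField.LiesOver.completionMap_coe, extensionEmbedding_coe, extensionEmbedding_coe]
      exact (RingHom.congr_fun (comap_embedding_of_isReal (algebraMap K M) hwr)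
        (WithAbs.equiv w.1 x)).symm
  choose s hs hpos using key
  have hi : ∀ u, infComp u (∏ u : InfinitePlace M, infSingle u (s u)) = s u := fun u => by
    rw [map_prod, Finset.prod_eq_single u (fun u' _ hu => infComp_infSingle_of_ne hu.symm _)
      (fun h => absurd (Finset.mem_univ u) h), infComp_infSingle_self]
  refine ⟨∏ u : InfinitePlace M, infSingle u (s u), ⟨fun v => ?_, fun u hr => ?_⟩, fun w => ?_⟩
  · rw [map_prod]
    exact Finset.prod_eq_one fun u _ => finComp_infSingle v u _
  · rw [hi]
    exact hpos u hr
  rw [normInf_eq_iff, ← htz, map_pow, Units.val_pow_eq_pow_val, map_pow, infProd_val]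
  rw [Finset.prod_congr rfl (g := fun _ => extensionEmbedding w (infComp w t).val) fun φ hφ => ?_,
    Finset.prod_const]
  · congr 1
    letI : Algebra K ℂ := w.embedding.toAlgebra
    rw [← AlgHom.card K M ℂ]
    exact Finset.card_bij (fun σ _ => σ.toRingHom)
      (fun σ _ => Finset.mem_filter.2 ⟨Finset.mem_univ _, RingHom.ext σ.commutes⟩)
      (fun σ _ τ _ e => AlgHom.ext fun x => RingHom.congr_fun e x)
      fun φ hφ => ⟨⟨φ, RingHom.congr_fun (Finset.mem_filter.1 hφ).2⟩, Finset.mem_univ _, rfl⟩
  · have h := (Finset.mem_filter.1 hφ).2
    have hwu : (InfinitePlace.mk φ).comap (algebraMap K M) = w := by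
      rw [comap_mk, h, mk_embedding]
    subst hwu
    rw [embVal_apply rfl, hi]
    exact hs _ φ rfl h

end FA.IdeleClass

end
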