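import Fermat.Agent.IdeleClass.Kernel
import Fermat.Agent.IdeleClass.NormInf
import Fermat.Agent.LocalCFT.NormIndex

/-!
# The norm on the ideles

For a Galois extension of number fields the norm of an idele has at a prime the product of the
norms from the completions above.  It is continuous, it is the norm on the principal ideles, and
the Artin maps turn it into restriction.
-/

set_option autoImplicit false
set_option linter.unusedSectionVars false
set_option linter.style.haveILetI false

noncomputable section

open NumberField NumberField.InfinitePlace NumberField.InfinitePlace.Completion IsDedekindDomain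
open WithZero Topology IsMulCommutative
open FA.ArtinRec FA.Ideles FA.NormResidue FA.LocalCFT
open FA.QuadFormsNF (valued_algebraMap)
open scoped Pointwise Classical

namespace FA.IdeleClass

universe u

variable {K : Type u} [Field K] [NumberField K] {M : Type*} [Field M] [NumberField M] [Algebra K M]
  [IsGalois K M]

/-! ### Between the completions -/

/-- An automorphism between the completions at conjugate primes. -/
def transHom (g : M ≃ₐ[K] M) {P P' : HeightOneSpectrum (𝓞 M)} (hg : galPrime g⁻¹ P' = P) :
    P.adicCompletion M →+* P'.adicCompletion M :=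
  extHom P P' ((g : M ≃ₐ[K] M) : M →+* M) one_pos fun x => by
    subst hg
    rw [pow_one, RingHom.coe_coe]
    exact valuation_gal_apply P' g x

/-- An automorphism between the units of the completions. -/
def transU (g : M ≃ₐ[K] M) {P P' : HeightOneSpectrum (𝓞 M)} (hg : galPrime g⁻¹ P' = P) :
    (P.adicCompletion M)ˣ →* (P'.adicCompletion M)ˣ :=
  Units.map (transHom g hg : P.adicCompletion M →* P'.adicCompletion M)

theorem transHom_algebraMap (g : M ≃ₐ[K] M) {P P' : HeightOneSpectrum (𝓞 M)}
    (hg : galPrime g⁻¹ P' = P) (x : M) :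
    transHom g hg (algebraMap M (P.adicCompletion M) x) =
      algebraMap M (P'.adicCompletion M) (g x) :=
  extHom_algebraMap _ _ _ _ _ x

theorem continuous_transHom (g : M ≃ₐ[K] M) {P P' : HeightOneSpectrum (𝓞 M)}
    (hg : galPrime g⁻¹ P' = P) : Continuous (transHom g hg) :=
  continuous_extHom _ _ _ _ _

theorem transU_congr {g : M ≃ₐ[K] M} {Q Q0 : HeightOneSpectrum (𝓞 M)}
    (h : galPrime g⁻¹ Q0 = Q) (y : Idele M) :
    transU g h (finComp Q y) = transU g rfl (finComp (galPrime g⁻¹ Q0) y) := by
  subst h
  rfl

/-- The completion at a prime below, inside the completion above. -/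
def belowV {v : HeightOneSpectrum (𝓞 K)} (Q : HeightOneSpectrum (𝓞 M)) (hQ : belowP K Q = v) :
    v.adicCompletion K →+* Q.adicCompletion M :=
  extHom v Q (algebraMap K M) (eIdx_pos (K := K) Q) fun x => by
    subst hQ
    exact valuation_baseU Q x

theorem continuous_belowV {v : HeightOneSpectrum (𝓞 K)} (Q : HeightOneSpectrum (𝓞 M))
    (hQ : belowP K Q = v) : Continuous (belowV Q hQ) :=
  continuous_extHom _ _ _ _ _

theorem belowV_algebraMap {v : HeightOneSpectrum (𝓞 K)} (Q : HeightOneSpectrum (𝓞 M))
    (hQ : belowP K Q = v) (x : K) :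
    belowV Q hQ (algebraMap K (v.adicCompletion K) x) =
      algebraMap M (Q.adicCompletion M) (algebraMap K M x) :=
  extHom_algebraMap _ _ _ _ _ x

/-- The units of the completion below inside those above. -/
def belowVU {v : HeightOneSpectrum (𝓞 K)} (Q : HeightOneSpectrum (𝓞 M)) (hQ : belowP K Q = v) :
    (v.adicCompletion K)ˣ →* (Q.adicCompletion M)ˣ :=
  Units.map (belowV Q hQ : v.adicCompletion K →* Q.adicCompletion M)

theorem belowVU_injective {v : HeightOneSpectrum (𝓞 K)} (Q : HeightOneSpectrum (𝓞 M))
    (hQ : belowP K Q = v) : Function.Injective (belowVU Q hQ) :=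
  Units.map_injective (belowV Q hQ).injective

theorem belowVU_localEmb {v : HeightOneSpectrum (𝓞 K)} (Q : HeightOneSpectrum (𝓞 M))
    (hQ : belowP K Q = v) (a : Kˣ) : belowVU Q hQ (localEmb v a) = localEmb Q (baseU a) :=
  Units.ext (belowV_algebraMap Q hQ (a : K))

/-- The completions at equal primes. -/
def castU {u v : HeightOneSpectrum (𝓞 K)} (h : u = v) :
    (u.adicCompletion K)ˣ →* (v.adicCompletion K)ˣ := by
  subst h
  exact MonoidHom.id _

theorem castU_rfl {v : HeightOneSpectrum (𝓞 K)} (z : (v.adicCompletion K)ˣ) :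
    castU (rfl : v = v) z = z := rfl

/-- The norm from the completion above to a given prime. -/
def normV {v : HeightOneSpectrum (𝓞 K)} (Q : HeightOneSpectrum (𝓞 M)) (hQ : belowP K Q = v) :
    (Q.adicCompletion M)ˣ →* (v.adicCompletion K)ˣ :=
  (castU hQ).comp (normC (K := K) Q)

/-- **The norm from one completion, seen in another above.** -/
theorem belowVU_normV {v : HeightOneSpectrum (𝓞 K)} (Q Q0 : HeightOneSpectrum (𝓞 M))
    (hQ : belowP K Q = v) (h0 : belowP K Q0 = v) (z : (Q.adicCompletion M)ˣ) :
    belowVU Q0 h0 (normV Q hQ z) =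
      ∏ g : {g : M ≃ₐ[K] M // galPrime g⁻¹ Q0 = Q}, transU g.1 g.2 z := by
  subst hQ
  obtain ⟨g0, hg0⟩ := exists_galPrime_eq (Q := Q) (Q' := Q0) h0.symm
  have hg0' : galPrime g0⁻¹ Q0 = Q := by
    rw [← hg0, ← galPrime_mul, inv_mul_cancel, galPrime_one]
  have h1 : (transHom g0 hg0').comp (belowHom (K := K) Q) = belowV Q0 h0 :=
    ext_of_algebraMap (belowP K Q) Q0 (g := (transHom g0 hg0').comp (belowHom (K := K) Q))
      ((continuous_transHom g0 hg0').comp (continuous_belowHom (K := K) Q))
      (continuous_belowV Q0 h0) fun x => by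
        rw [RingHom.comp_apply, belowHom_algebraMap, transHom_algebraMap, AlgEquiv.commutes,
          belowV_algebraMap]
  have hstep : ∀ d : MulAction.stabilizer (M ≃ₐ[K] M) Q.asIdeal,
      galPrime (g0 * (d : M ≃ₐ[K] M))⁻¹ Q0 = Q := fun d => by
    rw [mul_inv_rev, galPrime_mul, hg0']
    exact galPrime_of_mem_stab Q d⁻¹
  show belowVU Q0 h0 (normC (K := K) Q z) = _
  rw [show belowVU Q0 h0 (normC (K := K) Q z) = transU g0 hg0' (belowU Q (normC (K := K) Q z)) from
    Units.ext (RingHom.congr_fun h1 _).symm, belowU_normC, map_prod]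
  refine Fintype.prod_equiv
    { toFun := fun d => ⟨g0 * (d : M ≃ₐ[K] M), hstep d⟩
      invFun := fun g => ⟨g0⁻¹ * g.1, by
        rw [MulAction.mem_stabilizer_iff]
        refine congrArg HeightOneSpectrum.asIdeal (?_ : galPrime (g0⁻¹ * g.1) Q = Q)
        conv_lhs => arg 2; rw [← g.2]
        rw [← galPrime_mul, mul_inv_cancel_right, hg0']⟩
      left_inv := fun d => Subtype.ext (inv_mul_cancel_left g0 d)
      right_inv := fun g => Subtype.ext (mul_inv_cancel_left g0 g.1) } _ _ fun d => ?_
  exact Units.ext (RingHom.congr_fun (ext_of_algebraMap Q Q0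
    (g := (transHom g0 hg0').comp (decHom Q d)) (h := transHom (g0 * (d : M ≃ₐ[K] M)) (hstep d))
    ((continuous_transHom g0 hg0').comp (continuous_decHom Q d)) (continuous_transHom _ _)
    fun x => by
      rw [RingHom.comp_apply, decHom_algebraMap, transHom_algebraMap, transHom_algebraMap]
      rfl) (z : Q.adicCompletion M))

/-- Units have unit norms. -/
theorem valued_normV {v : HeightOneSpectrum (𝓞 K)} (Q : HeightOneSpectrum (𝓞 M))
    (hQ : belowP K Q = v) {z : (Q.adicCompletion M)ˣ} (hz : Valued.v (z : Q.adicCompletion M) = 1) :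
    Valued.v ((normV Q hQ z : (v.adicCompletion K)ˣ) : v.adicCompletion K) = 1 := by
  subst hQ
  have h := congrArg (fun t : (Q.adicCompletion M)ˣ => Valued.v (t : Q.adicCompletion M))
    (belowU_normC (K := K) Q z)
  simp only [belowU, Units.coe_map, MonoidHom.coe_coe, valued_belowHom, Units.coe_prod, map_prod,
    decU, valued_decHom, hz, Finset.prod_const_one] at h
  exact (pow_left_inj₀ zero_le zero_le (eIdx_pos (K := K) Q).ne').1 (h.trans (one_pow _).symm)

/-- Elements near one have norms near one. -/
theorem normV_mem_nearLocal {v : HeightOneSpectrum (𝓞 K)} (Q : HeightOneSpectrum (𝓞 M))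
    (hQ : belowP K Q = v) {j k : ℕ} (hjk : eIdx K Q * (k + 1) ≤ j) {z : (Q.adicCompletion M)ˣ}
    (hz : z ∈ nearLocal Q j) : normV Q hQ z ∈ nearLocal v k := by
  subst hQ
  have key : belowU Q (normC (K := K) Q z) ∈ nearLocal Q j := by
    rw [belowU_normC]
    exact prod_mem fun g _ => decU_mem_nearLocal Q g hz
  refine (mem_nearLocal _).2 ((pow_le_pow_iff_left₀ zero_le zero_le (eIdx_pos (K := K) Q).ne').1 ?_)
  rw [mem_nearLocal, belowU, Units.coe_map, MonoidHom.coe_coe, ← map_one (belowHom (K := K) Q),
    ← map_sub, valued_belowHom] at key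
  refine key.trans ?_
  rw [← exp_nsmul, exp_le_exp, nsmul_eq_mul]
  push_cast
  nlinarith [eIdx_pos (K := K) Q]

/-! ### The components -/

variable (M) in
/-- The primes above. -/
def above (v : HeightOneSpectrum (𝓞 K)) : Finset (HeightOneSpectrum (𝓞 M)) :=
  (finite_belowP (L := M) v).toFinset

theorem mem_above {v : HeightOneSpectrum (𝓞 K)} {Q : HeightOneSpectrum (𝓞 M)} :
    Q ∈ above M v ↔ belowP K Q = v := Set.Finite.mem_toFinset _

variable (M) in
/-- **The norm at a prime.** -/
def normFin (v : HeightOneSpectrum (𝓞 K)) : Idele M →* (v.adicCompletion K)ˣ :=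
  ∏ Q ∈ (above M v).attach, (normV Q.1 (mem_above.1 Q.2)).comp (finComp Q.1)

theorem normFin_apply (v : HeightOneSpectrum (𝓞 K)) (y : Idele M) :
    normFin M v y = ∏ Q ∈ (above M v).attach, normV Q.1 (mem_above.1 Q.2) (finComp Q.1 y) := by
  simp only [normFin, MonoidHom.finsetProd_apply, MonoidHom.comp_apply]

/-- **The norm inside a completion above is the product over the Galois group.** -/
theorem belowVU_normFin {v : HeightOneSpectrum (𝓞 K)} (Q0 : HeightOneSpectrum (𝓞 M))
    (h0 : belowP K Q0 = v) (y : Idele M) :
    belowVU Q0 h0 (normFin M v y) =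
      ∏ g : M ≃ₐ[K] M, transU g rfl (finComp (galPrime g⁻¹ Q0) y) := by
  rw [normFin_apply, map_prod, ← Finset.prod_fiberwise_of_maps_to (s := Finset.univ)
    (t := above M v) (g := fun g => galPrime g⁻¹ Q0)
    (fun g _ => mem_above.2 ((belowP_galPrime _ _).trans h0))]
  refine Eq.trans (Finset.prod_congr rfl fun Q _ => ?_) (Finset.prod_attach (above M v) fun Q =>
    ∏ g ∈ Finset.univ.filter (fun g : M ≃ₐ[K] M => galPrime g⁻¹ Q0 = Q),
      transU g rfl (finComp (galPrime g⁻¹ Q0) y))
  rw [belowVU_normV, Finset.prod_subtype (p := fun g => galPrime g⁻¹ Q0 = Q.1)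
    (Finset.univ.filter fun g : M ≃ₐ[K] M => galPrime g⁻¹ Q0 = Q.1) (fun g => by simp)
    fun g => transU g rfl (finComp (galPrime g⁻¹ Q0) y)]
  exact Finset.prod_congr rfl fun g _ => transU_congr g.2 y

/-- **On the principal ideles the norm.** -/
theorem normFin_principal (v : HeightOneSpectrum (𝓞 K)) (c : Mˣ) :
    normFin M v (principal c) = localEmb v (normU' c) := by
  obtain ⟨Q0, h0⟩ := exists_belowP K M v
  refine belowVU_injective Q0 h0 ?_
  rw [belowVU_normFin, belowVU_localEmb, baseU_normU'_eq_prod, map_prod]
  exact Finset.prod_congr rfl fun g _ => by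
    rw [finComp_principal]
    exact Units.ext (transHom_algebraMap g rfl (c : M))

theorem finite_valued_normFin (y : Idele M) :
    {v | Valued.v ((normFin M v y : (v.adicCompletion K)ˣ) : v.adicCompletion K) ≠ 1}.Finite := by
  refine ((finite_valued_ne_one y).image (belowP K)).subset fun v hv => ?_
  by_contra h
  refine hv ?_
  rw [normFin_apply, Units.coe_prod, map_prod]
  refine Finset.prod_eq_one fun Q _ => valued_normV _ _ ?_
  by_contra hne
  exact h ⟨Q.1, hne, mem_above.1 Q.2⟩

/-! ### The norm -/

variable (K M) in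
/-- **The norm of the ideles.** -/
def normIdele : Idele M →* Idele K :=
  MonoidHom.mk' (fun y => ofFinite (fun v => normFin M v y) (finite_valued_normFin y) *
      ∏ w : InfinitePlace K, infSingle w (normInf M w y)) fun y y' => by
    refine idele_ext (fun v => ?_) fun w => ?_
    · simp only [map_mul, finComp_ofFinite, map_prod, finComp_infSingle, Finset.prod_const_one,
        mul_one]
    · simp only [map_mul, infComp_ofFinite, map_prod, one_mul]
      rw [Finset.prod_mul_distrib]

theorem finComp_normIdele (v : HeightOneSpectrum (𝓞 K)) (y : Idele M) :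
    finComp v (normIdele K M y) = normFin M v y := by
  show finComp v (ofFinite _ (finite_valued_normFin y) * _) = _
  simp only [map_mul, finComp_ofFinite, map_prod, finComp_infSingle, Finset.prod_const_one, mul_one]

theorem infComp_normIdele (w : InfinitePlace K) (y : Idele M) :
    infComp w (normIdele K M y) = normInf M w y := by
  show infComp w (ofFinite _ (finite_valued_normFin y) * _) = _
  rw [map_mul, infComp_ofFinite, one_mul, map_prod, Finset.prod_eq_single w
    (fun u _ hu => infComp_infSingle_of_ne hu.symm _) (fun h => absurd (Finset.mem_univ w) h),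
    infComp_infSingle_self]

/-- **On the principal ideles.** -/
theorem normIdele_principal (c : Mˣ) :
    normIdele K M (principal c) = principal (normU' c) :=
  idele_ext (fun v => by rw [finComp_normIdele, normFin_principal, finComp_principal])
    fun w => by rw [infComp_normIdele, normInf_principal]

/-- **The norm of a single component.** -/
theorem normIdele_single (P : HeightOneSpectrum (𝓞 M)) (z : (P.adicCompletion M)ˣ) :
    normIdele K M (single P z) = single (belowP K P) (normC (K := K) P z) := by
  refine idele_ext (fun v => ?_) fun w => ?_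
  · rw [finComp_normIdele, normFin_apply]
    by_cases hv : belowP K P = v
    · subst hv
      rw [Finset.prod_eq_single ⟨P, mem_above.2 rfl⟩ (fun Q _ hne => by
          rw [finComp_single_of_ne (fun h => hne (Subtype.ext h)), map_one])
        (fun h => absurd (Finset.mem_attach _ _) h), finComp_single_self, finComp_single_self]
      rfl
    · rw [finComp_single_of_ne (Ne.symm hv)]
      refine Finset.prod_eq_one fun Q _ => ?_
      rw [finComp_single_of_ne (fun h => hv (by rw [← h]; exact mem_above.1 Q.2)), map_one]
  · rw [infComp_normIdele, infComp_single,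
      normInf_eq_one fun u => infComp_single u P z]

/-- **Positive infinite ideles map onto the positive infinite ideles.** -/
theorem map_posInf : (posInf M).map (normIdele K M) = posInf K := by
  refine le_antisymm ?_ fun z hz => ?_
  · rintro _ ⟨y, hy, rfl⟩
    refine ⟨fun v => ?_, fun w hr => ?_⟩
    · rw [finComp_normIdele, normFin_apply]
      exact Finset.prod_eq_one fun Q _ => by rw [hy.1 Q.1, map_one]
    · rw [infComp_normIdele]
      exact normInf_pos hy.2 w hr
  · obtain ⟨y, hy, h⟩ := exists_posInf_above (M := M) hz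
    refine ⟨y, hy, idele_ext (fun v => ?_) fun w => by rw [infComp_normIdele, h]⟩
    rw [finComp_normIdele, normFin_apply, hz.1 v]
    exact Finset.prod_eq_one fun Q _ => by rw [hy.1 Q.1, map_one]

theorem map_unitFin_le : (unitFin M).map (normIdele K M) ≤ unitFin K := by
  rintro _ ⟨y, hy, rfl⟩
  refine ⟨fun v => ?_, fun w => by rw [infComp_normIdele, normInf_eq_one hy.2]⟩
  rw [finComp_normIdele, normFin_apply, Units.coe_prod, map_prod]
  exact Finset.prod_eq_one fun Q _ => valued_normV _ _ (hy.1 Q.1)

/-- **Level subgroups map into level subgroups.** -/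
theorem exists_levelSub_le_comap {T : Set (HeightOneSpectrum (𝓞 K))} (hT : T.Finite) (k : ℕ) :
    ∃ T' : Set (HeightOneSpectrum (𝓞 M)), T'.Finite ∧ ∃ j : ℕ,
      levelSub T' j ≤ (levelSub T k).comap (normIdele K M) := by
  set T' : Finset (HeightOneSpectrum (𝓞 M)) := hT.toFinset.biUnion (above M)
  refine ⟨T', T'.finite_toSet, T'.sup fun P => eIdx K P * (k + 1), fun y hy => ?_⟩
  have hmem : ∀ {v : HeightOneSpectrum (𝓞 K)} {P}, belowP K P = v → (P ∈ T' ↔ v ∈ T) :=
    fun {v P} hP => by
      simp only [T', Finset.mem_biUnion, Set.Finite.mem_toFinset, mem_above]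
      exact ⟨fun ⟨u, hu, e⟩ => hP ▸ e.symm ▸ hu, fun h => ⟨v, h, hP⟩⟩
  refine ⟨fun v hv => ?_, fun v hv => ?_, fun w hr => ?_⟩
  · rw [finComp_normIdele, normFin_apply, Units.coe_prod, map_prod]
    exact Finset.prod_eq_one fun Q _ => valued_normV _ _
      (hy.1 Q.1 fun h => hv ((hmem (mem_above.1 Q.2)).1 (Finset.mem_coe.1 h)))
  · rw [finComp_normIdele, normFin_apply]
    exact prod_mem fun Q _ => normV_mem_nearLocal _ _
      (Finset.le_sup (f := fun P => eIdx K P * (k + 1)) ((hmem (mem_above.1 Q.2)).2 hv))
      (hy.2.1 Q.1 (Finset.mem_coe.2 ((hmem (mem_above.1 Q.2)).2 hv)))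
  · rw [infComp_normIdele]
    exact normInf_pos hy.2.2 w hr

/-- **The norm is continuous.** -/
theorem continuous_normIdele : Continuous (normIdele K M) := by
  have hinf : Continuous fun y => infPart (normIdele K M y) := by
    simp only [infPart_apply, infComp_normIdele]
    refine continuous_finsetProd _ fun w _ => Units.continuous_iff.2
      ⟨(continuous_infSingle_val w).comp (continuous_normInf w), ?_⟩
    have e : (fun y => ((infSingle w (normInf M w y))⁻¹ : Idele K).val) =
        fun y => (infSingle w (normInf M w y⁻¹)).val := funext fun y => by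
      rw [← map_inv, ← map_inv]
    show Continuous fun y => ((infSingle w (normInf M w y))⁻¹ : Idele K).val
    rw [e]
    exact (continuous_infSingle_val w).comp ((continuous_normInf w).comp continuous_inv)
  have hfin : Continuous (normIdele K M / infPart.comp (normIdele K M)) := by
    refine continuous_of_continuousAt_one _ ?_
    rw [ContinuousAt, map_one, Filter.tendsto_def]
    intro s hs
    obtain ⟨N, hNs, hN, h1N⟩ := mem_nhds_iff.1 hs
    obtain ⟨T, hT, k, hk⟩ := exists_levelSub_subset hN h1N
    obtain ⟨T', hT', j, hle⟩ := exists_levelSub_le_comap (K := K) (M := M) hT k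
    refine Filter.mem_of_superset ((isOpen_levelSub hT' j).mem_nhds (one_mem _)) fun y hy => hNs ?_
    obtain ⟨h1, h2, -⟩ := div_infPart_mem (hle hy)
    exact hk _ h1 h2.2
  have h := hfin.mul hinf
  convert h using 1
  funext y
  exact (div_mul_cancel (normIdele K M y) (infPart (normIdele K M y))).symm

/-! ### Functoriality -/

/-- Level subgroups decrease. -/
theorem levelSub_anti {T T' : Set (HeightOneSpectrum (𝓞 K))} (hT : T' ⊆ T) {k k' : ℕ}
    (hk : k' ≤ k) : levelSub T k ≤ levelSub T' k' := fun _ hx =>
  ⟨fun v _ => if hv : v ∈ T then valued_eq_one_of_nearLocal v (hx.2.1 v hv) else hx.1 v hv,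
    fun v hv => nearLocal_anti v hk (hx.2.1 v (hT hv)), hx.2.2⟩

variable {L : Type*} [Field L] [NumberField L] [Algebra K L] [IsGalois K L]
  [IsMulCommutative (L ≃ₐ[K] L)] {N : Type*} [Field N] [NumberField N] [Algebra M N]
  [IsGalois M N] [IsMulCommutative (N ≃ₐ[M] N)] [Algebra K N] [IsScalarTower K M N] [Algebra L N]
  [IsScalarTower K L N]

/-- **The Artin maps turn the norm into restriction.** -/
theorem artinIdele_normIdele (y : Idele M) :
    artinIdele L (normIdele K M y) = restrictBelow K M L N (artinIdele N y) := by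
  obtain ⟨T', hT', j, hle⟩ :=
    exists_levelSub_le_comap (K := K) (M := M) (finite_isRam K L) (nrLevel K L)
  refine DFunLike.congr_fun (f := (artinIdele L).comp (normIdele K M))
    (g := (restrictBelow K M L N).comp (artinIdele N))
    (idele_hom_ext (hT'.union (finite_isRam M N)) (max j (nrLevel M N))
      (fun a => ?_) (fun x hx => ?_) fun P _ => ?_) y
  · rw [MonoidHom.comp_apply, MonoidHom.comp_apply, normIdele_principal, artinIdele_principal,
      artinIdele_principal, map_one]
  · rw [MonoidHom.comp_apply, MonoidHom.comp_apply,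
      MonoidHom.mem_ker.1 (levelSub_le_ker (fun _ hv => hv) le_rfl
        (hle (levelSub_anti Set.subset_union_left (le_max_left _ _) hx))),
      MonoidHom.mem_ker.1 (levelSub_le_ker (L := N) (fun _ hv => hv) le_rfl
        (levelSub_anti Set.subset_union_right (le_max_right _ _) hx)), map_one]
  · rw [MonoidHom.comp_apply, MonoidHom.comp_apply, normIdele_single, artinIdele_single,
      artinIdele_single, restrictBelow_localArtin]

end FA.IdeleClass

end
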