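import Fermat.Agent.IdeleClass.InfType
import Fermat.Agent.IdeleClass.Norm
import Fermat.Agent.HeckeTorus.Character
import Fermat.Agent.ArtinReciprocity.Frobenius
import Fermat.Agent.ExistenceTheorem.RayMaps

/-!
# Idele class characters and Hecke's characters of ideals

A unitary idele class character of balanced type gives a character of the ideals prime to its
ramified primes with that infinity type, every such character of ideals comes from an idele class
character, and an idele class character is determined by its values at almost all primes.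
-/

set_option autoImplicit false
set_option linter.unusedSectionVars false
set_option linter.style.haveILetI false

noncomputable section

open NumberField NumberField.InfinitePlace NumberField.InfinitePlace.Completion IsDedekindDomain
open WithZero
open FA.ArtinRec FA.Ideles
open FA.Ext (primeIdeal intEmb)
open FA.Hecke (IsRayElt)
open FA.HeckeTorus (infChar Balanced IsTorusChar infChar_smul infChar_zero exists_rayElt_ne_one)
open scoped nonZeroDivisors Classical

namespace FA.IdeleClass

universe u

variable {K : Type u} [Field K] [NumberField K]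

/-- Induction on the nonzero ideals by primes. -/
theorem ideal_induction {P : (Ideal (𝓞 K))⁰ → Prop} (h1 : P 1)
    (hmul : ∀ v I, P I → P (primeIdeal v * I)) (I : (Ideal (𝓞 K))⁰) : P I := by
  suffices key : ∀ (J : Ideal (𝓞 K)) (I : (Ideal (𝓞 K))⁰), I.1 = J → P I from key _ I rfl
  intro J
  induction J using UniqueFactorizationMonoid.induction_on_prime with
  | h₁ => exact fun I hI => absurd hI (nonZeroDivisors.coe_ne_zero I)
  | h₂ J hJ =>
    intro I hI
    rwa [show I = 1 from Subtype.ext (hI.trans (by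
      rw [Ideal.isUnit_iff.1 hJ, ← Ideal.one_eq_top]; rfl))]
  | h₃ J p hJ0 hp ih =>
    intro I hI
    let v : HeightOneSpectrum (𝓞 K) := ⟨p, Ideal.isPrime_of_prime hp, hp.ne_zero⟩
    rw [show I = primeIdeal v * ⟨J, mem_nonZeroDivisors_iff_ne_zero.mpr hJ0⟩ from Subtype.ext hI]
    exact hmul v _ (ih _ rfl)

theorem ordI_primeIdeal_mul (u v : HeightOneSpectrum (𝓞 K)) (I : (Ideal (𝓞 K))⁰) :
    ordI u (primeIdeal v * I).1 = (if u = v then 1 else 0) + ordI u I.1 := by
  rw [Submonoid.coe_mul, ordI_mul u (show (primeIdeal v).1 ≠ ⊥ from v.ne_bot)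
    (nonZeroDivisors.coe_ne_zero I)]
  exact congrArg (· + _) (ordI_prime u v)

/-! ### The ramified primes -/

/-- The primes where a character is not trivial on the units. -/
def ramSet (χ : Idele K →* ℂˣ) : Set (HeightOneSpectrum (𝓞 K)) :=
  {v | ∃ z : (v.adicCompletion K)ˣ, Valued.v (z : v.adicCompletion K) = 1 ∧ χ (single v z) ≠ 1}

theorem single_mem_levelSub {T : Set (HeightOneSpectrum (𝓞 K))} {k : ℕ}
    {v : HeightOneSpectrum (𝓞 K)} (hv : v ∉ T) {z : (v.adicCompletion K)ˣ}
    (hz : Valued.v (z : v.adicCompletion K) = 1) : single v z ∈ levelSub T k := by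
  refine ⟨fun u _ => ?_, fun u hu => ?_, fun w hr => ?_⟩
  · rcases eq_or_ne u v with rfl | huv
    · rw [finComp_single_self, hz]
    · rw [finComp_single_of_ne huv, Units.val_one, map_one]
  · rw [finComp_single_of_ne fun e : u = v => hv (e ▸ hu)]
    exact one_mem _
  · rw [infComp_single, Units.val_one, map_one]
    exact one_pos

theorem finite_ramSet {χ : Idele K →* ℂˣ} (h : IsIdeleChar χ) : (ramSet χ).Finite := by
  obtain ⟨T, hT, k, hk⟩ := exists_level_ker h.cont
  exact hT.subset fun v ⟨z, hz, hne⟩ => by_contra fun hv =>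
    hne (hk _ (single_mem_levelSub hv hz) fun w => infComp_single w v z)

/-- Uniformisers all have the same value outside the ramified primes. -/
theorem eq_of_valued_eq {χ : Idele K →* ℂˣ} {v : HeightOneSpectrum (𝓞 K)} (hv : v ∉ ramSet χ)
    {z z' : (v.adicCompletion K)ˣ}
    (h : Valued.v (z : v.adicCompletion K) = Valued.v (z' : v.adicCompletion K)) :
    χ (single v z) = χ (single v z') := by
  rw [← div_eq_one, ← map_div, ← map_div]
  by_contra hne
  refine hv ⟨z / z', ?_, hne⟩
  rw [Units.val_div_eq_div_val, map_div₀, h, div_self ((Valuation.ne_zero_iff _).2 z'.ne_zero)]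

/-- **The ramified primes carry a level.** -/
theorem exists_level_ramSet {χ : Idele K →* ℂˣ} (h : IsIdeleChar χ) :
    ∃ k : ℕ, ∀ x ∈ levelSub (ramSet χ) k, (∀ w, infComp w x = 1) → χ x = 1 := by
  obtain ⟨T, hT, k, hk⟩ := exists_level_ker h.cont
  refine ⟨k, fun x hx hinf => ?_⟩
  set F := hT.toFinset.filter (· ∉ ramSet χ)
  set p := ∏ v ∈ F, single v (finComp v x)
  have hp1 : χ p = 1 := by
    rw [map_prod]
    refine Finset.prod_eq_one fun v hv => by_contra fun hne => ?_
    exact (Finset.mem_filter.1 hv).2 ⟨_, hx.1 v (Finset.mem_filter.1 hv).2, hne⟩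
  have hp : ∀ u, finComp u p = if u ∈ F then finComp u x else 1 := fun u => by
    rw [map_prod]
    split_ifs with hu
    · rw [Finset.prod_eq_single u (fun v _ hv => finComp_single_of_ne hv.symm _)
        (fun h' => absurd hu h'), finComp_single_self]
    · exact Finset.prod_eq_one fun v hv =>
        finComp_single_of_ne (fun e : u = v => hu (e ▸ hv)) _
  have hpinf : ∀ w, infComp w p = 1 := fun w => by
    rw [map_prod]
    exact Finset.prod_eq_one fun v _ => infComp_single _ _ _
  rw [← div_mul_cancel x p, map_mul, hp1, mul_one]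
  refine hk _ ⟨fun u hu => ?_, fun u hu => ?_, fun w hr => ?_⟩ fun w => by
    rw [map_div, hinf, hpinf, div_one]
  · rw [map_div, hp, if_neg fun h' => hu (hT.mem_toFinset.1 (Finset.mem_filter.1 h').1), div_one]
    by_cases hu' : u ∈ ramSet χ
    · exact valued_eq_one_of_nearLocal u (hx.2.1 u hu')
    · exact hx.1 u hu'
  · rw [map_div, hp]
    split_ifs with h'
    · rw [div_self']
      exact one_mem _
    · rw [div_one]
      exact hx.2.1 u (by_contra fun hn => h' (Finset.mem_filter.2 ⟨hT.mem_toFinset.2 hu, hn⟩))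
  · rw [map_div, hinf, hpinf, div_one, Units.val_one, map_one]
    exact one_pos

/-! ### The idele of an ideal -/

/-- The uniformisers to the exponents of an ideal, outside a set of primes. -/
def primeIdele (R : Set (HeightOneSpectrum (𝓞 K))) : (Ideal (𝓞 K))⁰ →* Idele K :=
  factorHom fun v => if v ∈ R then 1 else single v (localEmb v (unif v))

theorem primeIdele_prime_mul (R : Set (HeightOneSpectrum (𝓞 K))) (v : HeightOneSpectrum (𝓞 K))
    (I : (Ideal (𝓞 K))⁰) :
    primeIdele R (primeIdeal v * I) =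
      (if v ∈ R then 1 else single v (localEmb v (unif v))) * primeIdele R I := by
  rw [map_mul, primeIdele, factorHom_prime]

theorem infComp_primeIdele (R : Set (HeightOneSpectrum (𝓞 K))) (I : (Ideal (𝓞 K))⁰)
    (w : InfinitePlace K) : infComp w (primeIdele R I) = 1 := by
  induction I using ideal_induction with
  | h1 => rw [map_one, map_one]
  | hmul v I ih =>
    rw [primeIdele_prime_mul, map_mul, ih, mul_one]
    split_ifs
    exacts [map_one _, infComp_single _ _ _]

theorem finComp_primeIdele_of_mem {R : Set (HeightOneSpectrum (𝓞 K))} (I : (Ideal (𝓞 K))⁰)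
    {u : HeightOneSpectrum (𝓞 K)} (hu : u ∈ R) : finComp u (primeIdele R I) = 1 := by
  induction I using ideal_induction with
  | h1 => rw [map_one, map_one]
  | hmul v I ih =>
    rw [primeIdele_prime_mul, map_mul, ih, mul_one]
    split_ifs with hv
    exacts [map_one _, finComp_single_of_ne (fun e : u = v => hv (e ▸ hu)) _]

theorem valued_primeIdele {R : Set (HeightOneSpectrum (𝓞 K))} (I : (Ideal (𝓞 K))⁰)
    {u : HeightOneSpectrum (𝓞 K)} (hu : u ∉ R) :
    Valued.v ((finComp u (primeIdele R I) : (u.adicCompletion K)ˣ) : u.adicCompletion K) =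
      exp (-(ordI u I.1 : ℤ)) := by
  induction I using ideal_induction with
  | h1 =>
    rw [map_one, map_one, Units.val_one, map_one, OneMemClass.coe_one, Ideal.one_eq_top, ordI_top,
      Nat.cast_zero, neg_zero, exp_zero]
  | hmul v I ih =>
    rw [primeIdele_prime_mul, map_mul, Units.val_mul, map_mul, ih, ordI_primeIdeal_mul,
      Nat.cast_add, neg_add, exp_add]
    congr 1
    rcases eq_or_ne u v with rfl | huv
    · rw [if_neg hu, finComp_single_self, valued_localEmb_unif, if_pos rfl, Nat.cast_one]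
    · rw [if_neg huv, Nat.cast_zero, neg_zero, exp_zero]
      split_ifs
      · rw [map_one, Units.val_one, map_one]
      · rw [finComp_single_of_ne huv, Units.val_one, map_one]

theorem map_primeIdele_eq_one {R : Set (HeightOneSpectrum (𝓞 K))} (χ : Idele K →* ℂˣ)
    (h : ∀ v ∉ R, χ (single v (localEmb v (unif v))) = 1) (I : (Ideal (𝓞 K))⁰) :
    χ (primeIdele R I) = 1 := by
  induction I using ideal_induction with
  | h1 => rw [map_one, map_one]
  | hmul v I ih =>
    rw [primeIdele_prime_mul, map_mul, ih, mul_one]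
    split_ifs with hv
    exacts [map_one _, h v hv]

/-! ### Moduli -/

/-- The modulus of level `k` at a finite set of primes. -/
def levelMod {R : Set (HeightOneSpectrum (𝓞 K))} (hR : R.Finite) (k : ℕ) : Ideal (𝓞 K) :=
  ∏ v ∈ hR.toFinset, v.asIdeal ^ (k + 1)

theorem levelMod_ne_bot {R : Set (HeightOneSpectrum (𝓞 K))} (hR : R.Finite) (k : ℕ) :
    levelMod hR k ≠ ⊥ := Finset.prod_ne_zero_iff.2 fun v _ => pow_ne_zero _ v.ne_bot

theorem dvd_levelMod_iff {R : Set (HeightOneSpectrum (𝓞 K))} (hR : R.Finite) (k : ℕ)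
    (v : HeightOneSpectrum (𝓞 K)) : v.asIdeal ∣ levelMod hR k ↔ v ∈ R := by
  constructor
  · intro h
    obtain ⟨u, hu, hd⟩ := (Prime.dvd_finsetProd_iff v.prime _).1 h
    rw [← hR.mem_toFinset, show v = u from HeightOneSpectrum.ext
      ((prime_dvd_prime_iff_eq v.prime u.prime).1 (v.prime.dvd_of_dvd_pow hd))]
    exact hu
  · exact fun h => dvd_trans (dvd_pow_self _ k.succ_ne_zero)
      (Finset.dvd_prod_of_mem _ (hR.mem_toFinset.2 h))

theorem sup_levelMod_eq_top_iff {R : Set (HeightOneSpectrum (𝓞 K))} (hR : R.Finite) (k : ℕ)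
    {I : Ideal (𝓞 K)} : I ⊔ levelMod hR k = ⊤ ↔ ∀ v ∈ R, ordI v I = 0 := by
  rw [coprime_iff_ordI]
  exact forall_congr' fun v => by rw [dvd_levelMod_iff]

theorem localEmb_near_of_ray {R : Set (HeightOneSpectrum (𝓞 K))} (hR : R.Finite) (k : ℕ)
    {x : 𝓞 K} (hx0 : x ≠ 0) (hx : x - 1 ∈ levelMod hR k) {v : HeightOneSpectrum (𝓞 K)}
    (hv : v ∈ R) : localEmb v (intU x hx0) ∈ nearLocal v k := by
  refine (localEmb_mem_nearLocal v).2 (FA.HasseCyclic.mem_nearOne.2 ?_)
  rw [intU_val, show (x : K) - 1 = ((x - 1 : 𝓞 K) : K) by push_cast; ring,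
    show v.valuation K ((x - 1 : 𝓞 K) : K) = v.intValuation (x - 1) from
      v.valuation_of_algebraMap _]
  exact (v.intValuation_le_pow_iff_mem _ _).2 (Ideal.le_of_dvd
    (Finset.dvd_prod_of_mem _ (hR.mem_toFinset.2 hv)) hx)

theorem infPart_principal_mem {x : 𝓞 K} (hx0 : x ≠ 0) (hpos : ∀ φ : K →+* ℝ, 0 < φ x) :
    infPart (principal (intU x hx0)) ∈ posInf K :=
  infPart_mem_posInf fun w hr => by
    rw [infComp_principal]
    exact lt_of_lt_of_eq (hpos (embedding_of_isReal hr))
      (extensionEmbeddingOfIsReal_coe hr ((WithAbs.equiv w.1).symm (x : K))).symm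

/-- **At a totally positive integer congruent to one the finite and the infinite part cancel.** -/
theorem map_primeIdele_ray {χ : Idele K →* ℂˣ} (h : IsIdeleChar χ)
    {R : Set (HeightOneSpectrum (𝓞 K))} (hR : R.Finite) {k : ℕ}
    (hk : ∀ x ∈ levelSub R k, (∀ w, infComp w x = 1) → χ x = 1) {x : 𝓞 K} (hx0 : x ≠ 0)
    (hx : x - 1 ∈ levelMod hR k) :
    χ (primeIdele R ⟨Ideal.span {x}, mem_nonZeroDivisors_iff_ne_zero.mpr
        fun e => hx0 (Ideal.span_singleton_eq_bot.mp e)⟩) *
      χ (infPart (principal (intU x hx0))) = 1 := by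
  set I : (Ideal (𝓞 K))⁰ := ⟨Ideal.span {x}, mem_nonZeroDivisors_iff_ne_zero.mpr
    fun e => hx0 (Ideal.span_singleton_eq_bot.mp e)⟩
  set a := intU x hx0
  have hy : χ (principal a / (primeIdele R I * infPart (principal a))) = 1 := by
    refine hk _ ⟨fun u hu => ?_, fun u hu => ?_, fun w hr => ?_⟩ fun w => by
      rw [map_div, map_mul, infComp_primeIdele, one_mul, infComp_infPart, div_self']
    · rw [map_div, map_mul, finComp_infPart, mul_one, Units.val_div_eq_div_val, map_div₀,
        valued_primeIdele I hu, finComp_principal, localEmb_val,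
        FA.QuadFormsNF.valued_algebraMap, valuation_eq_exp, ord_intU_eq_ordI u hx0]
      exact div_self exp_ne_zero
    · rw [map_div, map_mul, finComp_infPart, mul_one, finComp_primeIdele_of_mem I hu, div_one,
        finComp_principal]
      exact localEmb_near_of_ray hR k hx0 hx hu
    · rw [map_div, map_mul, infComp_primeIdele, one_mul, infComp_infPart, div_self',
        Units.val_one, map_one]
      exact one_pos
  rw [map_div, h.principal_eq, div_eq_one, map_mul] at hy
  exact hy.symm

/-- **An idele class character of balanced type gives a character of the ideals.** -/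
theorem exists_isTorusChar_of_hasType {χ : Idele K →* ℂˣ} (h : IsIdeleChar χ)
    {t : InfinitePlace K → ℝ} {k : {w : InfinitePlace K // IsComplex w} → ℤ} (ht : Balanced t)
    (hχ : HasType χ t k) :
    ∃ (𝔪 : Ideal (𝓞 K)) (f : Ideal (𝓞 K) →* ℂ), IsTorusChar 𝔪 t k f ∧
      (∀ v : HeightOneSpectrum (𝓞 K), v.asIdeal ∣ 𝔪 ↔ v ∈ ramSet χ) ∧
      ∀ v : HeightOneSpectrum (𝓞 K),
        f v.asIdeal = if v ∈ ramSet χ then 0
          else ((χ (single v (localEmb v (unif v))) : ℂˣ) : ℂ) := by
  set R := ramSet χ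
  have hR : R.Finite := finite_ramSet h
  obtain ⟨m, hm⟩ := exists_level_ramSet h
  set c : HeightOneSpectrum (𝓞 K) → ℂ := fun v =>
    if v ∈ R then 0 else ((χ (single v (localEmb v (unif v))) : ℂˣ) : ℂ)
  set φ : (Ideal (𝓞 K))⁰ →* ℂ := factorHom c
  have key : ∀ I : (Ideal (𝓞 K))⁰, (φ I ≠ 0 ↔ ∀ v ∈ R, ordI v I.1 = 0) ∧
      ((∀ v ∈ R, ordI v I.1 = 0) → φ I = ((χ (primeIdele R I) : ℂˣ) : ℂ)) := fun I => by
    induction I using ideal_induction with
    | h1 =>
      refine ⟨iff_of_true (by rw [map_one]; exact one_ne_zero) fun v _ => ?_, fun _ => by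
        rw [map_one, map_one, map_one, Units.val_one]⟩
      rw [OneMemClass.coe_one, Ideal.one_eq_top, ordI_top]
    | hmul v I ih =>
      have hv : φ (primeIdeal v * I) = c v * φ I := by
        rw [map_mul]
        exact congrArg (· * φ I) (factorHom_prime c v)
      have hord : (∀ u ∈ R, ordI u (primeIdeal v * I).1 = 0) ↔
          v ∉ R ∧ ∀ u ∈ R, ordI u I.1 = 0 := by
        simp only [ordI_primeIdeal_mul, add_eq_zero]
        refine ⟨fun H => ⟨fun hv => by simpa using (H v hv).1, fun u hu => (H u hu).2⟩,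
          fun H u hu => ⟨if_neg fun e : u = v => H.1 (e ▸ hu), H.2 u hu⟩⟩
      rw [hv, mul_ne_zero_iff, ih.1, hord]
      refine ⟨and_congr_left fun _ => ?_, fun H => ?_⟩
      · simp only [c]
        split_ifs with hvR
        · exact iff_of_false (fun e => e rfl) (not_not_intro hvR)
        · exact iff_of_true (Units.ne_zero _) hvR
      · rw [ih.2 H.2, primeIdele_prime_mul, if_neg H.1, map_mul, Units.val_mul]
        simp only [c, if_neg H.1]
  let f : Ideal (𝓞 K) →* ℂ :=
    { toFun := fun I => if hI : I = ⊥ then 0 else φ ⟨I, mem_nonZeroDivisors_iff_ne_zero.mpr hI⟩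
      map_one' := by
        rw [dif_neg (show (1 : Ideal (𝓞 K)) ≠ ⊥ from one_ne_zero)]
        exact map_one φ
      map_mul' := fun I J => by
        by_cases hI : I = ⊥
        · subst hI
          rw [dif_pos (Ideal.bot_mul J), dif_pos rfl, zero_mul]
        by_cases hJ : J = ⊥
        · subst hJ
          rw [dif_pos (Ideal.mul_bot I), dif_pos rfl, mul_zero]
        rw [dif_neg hI, dif_neg hJ, dif_neg (show I * J ≠ ⊥ from mul_ne_zero hI hJ), ← map_mul]
        rfl }
  have hf : ∀ {I : Ideal (𝓞 K)} (hI : I ≠ ⊥),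
      f I = φ ⟨I, mem_nonZeroDivisors_iff_ne_zero.mpr hI⟩ := fun {I} hI => dif_neg hI
  refine ⟨levelMod hR m, f, ⟨levelMod_ne_bot hR m, fun I hI => ?_, ht, fun x hx => ?_⟩,
    dvd_levelMod_iff hR m, fun v => (hf v.ne_bot).trans (factorHom_prime c v)⟩
  · rw [hf hI, sup_levelMod_eq_top_iff]
    exact (key _).1
  · obtain ⟨hx0, hx1, hpos⟩ := hx
    have hspan : Ideal.span {x} ≠ ⊥ := fun e => hx0 (Ideal.span_singleton_eq_bot.mp e)
    have hcop : ∀ v ∈ R, ordI v (Ideal.span {x}) = 0 := (sup_levelMod_eq_top_iff hR m).1 (by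
      rw [FA.Hecke.span_sup_congr hx1, Ideal.span_singleton_one, top_sup_eq])
    have h1 := map_primeIdele_ray h hR hm hx0 hx1
    have h2 := hχ _ (infPart_principal_mem hx0 hpos)
    rw [hf hspan, (key _).2 hcop, show intEmb K x = infVec (principal (intU x hx0)) by
      rw [infVec_principal]; rfl, ← typeChar_val, ← typeChar_infPart]
    refine congrArg Units.val ?_
    rw [eq_inv_of_mul_eq_one_left h1, eq_inv_of_mul_eq_one_right h2]

/-! ### Uniqueness -/

/-- **A character is determined by its values at almost all primes.** -/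
theorem eq_one_of_unif {χ : Idele K →* ℂˣ} (h : IsIdeleChar χ)
    {T : Set (HeightOneSpectrum (𝓞 K))} (hT : T.Finite)
    (hu : ∀ v ∉ T, χ (single v (localEmb v (unif v))) = 1) : χ = 1 := by
  obtain ⟨T₀, hT₀, k, hk⟩ := exists_level_ker h.cont
  set R := T₀ ∪ T
  have hR : R.Finite := hT₀.union hT
  have hkR : ∀ x ∈ levelSub R k, (∀ w, infComp w x = 1) → χ x = 1 := fun x hx =>
    hk x (levelSub_anti Set.subset_union_left le_rfl hx)
  have huR : ∀ v ∉ R, χ (single v (localEmb v (unif v))) = 1 := fun v hv =>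
    hu v fun h' => hv (Or.inr h')
  obtain ⟨S, t, m, ht, htype⟩ := exists_hasType h
  set 𝔪 := levelMod hR k
  have hray : ∀ x : 𝓞 K, IsRayElt 𝔪 x →
      Complex.exp ((S * (∑ w : InfinitePlace K, (w.mult : ℝ) * Real.log (w (x : K))) : ℝ) *
        Complex.I) = infChar t m (intEmb K x) := fun x ⟨hx0, hx1, hpos⟩ => by
    have h1 := map_primeIdele_ray h hR hkR hx0 hx1
    rw [map_primeIdele_eq_one χ huR, one_mul] at h1
    have hmem := infPart_principal_mem hx0 hpos
    have h2 := htype _ hmem
    rw [MonoidHom.mul_apply, MonoidHom.inv_apply, h1, one_mul, inv_mul_eq_one,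
      typeChar_infPart] at h2
    have h3 := congrArg Units.val h2
    rw [absChar_val, typeChar_val, infVec_principal, log_ideleAbs_posInf hmem] at h3
    refine Eq.trans ?_ (h3.trans rfl)
    simp only [infComp_infPart, norm_infComp_principal, intU_val]
  obtain ⟨M, hM⟩ : ∃ M, M = Ideal.absNorm 𝔪 := ⟨_, rfl⟩
  have hM0 : 0 < M := hM ▸ Nat.pos_of_ne_zero fun e =>
    levelMod_ne_bot hR k (Ideal.absNorm_eq_zero_iff.mp e)
  set d : ℝ := (Module.finrank ℚ K : ℝ)
  have hnat : ∀ j : ℕ, Complex.exp ((S * (d * Real.log ((1 + M * j : ℕ) : ℝ)) : ℝ) * Complex.I) =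
      1 := fun j => by
    set n := 1 + M * j with hn
    have hn0 : (0 : ℝ) < n := by exact_mod_cast (by omega : 0 < n)
    have hx : IsRayElt 𝔪 (n : 𝓞 K) := by
      refine ⟨Nat.cast_ne_zero.2 (by omega), ?_, fun φ => ?_⟩
      · rw [hn, Nat.cast_add, Nat.cast_one, add_sub_cancel_left, Nat.cast_mul, hM]
        exact 𝔪.mul_mem_right _ (Ideal.absNorm_mem 𝔪)
      · rw [show (((n : ℕ) : 𝓞 K) : K) = (n : K) from map_natCast (algebraMap (𝓞 K) K) n,
          map_natCast]
        exact hn0
    have h1 := hray _ hx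
    rw [show intEmb K (n : 𝓞 K) = (n : ℝ) • (1 : mixedEmbedding.mixedSpace K) by
      rw [intEmb, show (((n : ℕ) : 𝓞 K) : K) = (n : K) from map_natCast (algebraMap (𝓞 K) K) n,
        map_natCast, ← nsmul_one, Nat.cast_smul_eq_nsmul],
      infChar_smul ht (by rw [map_one]; exact one_ne_zero) hn0] at h1
    rw [show (S * (∑ w : InfinitePlace K, (w.mult : ℝ) * Real.log (w ((n : 𝓞 K) : K))) : ℝ) =
      S * (d * Real.log (n : ℝ)) by
        rw [show (((n : ℕ) : 𝓞 K) : K) = (n : K) from map_natCast (algebraMap (𝓞 K) K) n,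
          Finset.sum_congr rfl fun w _ =>
          show (w.mult : ℝ) * Real.log (w (n : K)) = (w.mult : ℝ) * Real.log (n : ℝ) by
            rw [← norm_embedding_eq, map_natCast, Complex.norm_natCast],
          ← Finset.sum_mul, ← Nat.cast_sum, sum_mult_eq]] at h1
    refine h1.trans ?_
    rw [← infVec_one, ← typeChar_val, map_one, Units.val_one]
  have hd : 0 < d := Nat.cast_pos.2 Module.finrank_pos
  have hS : S = 0 := by
    by_contra hS
    obtain ⟨j, hj⟩ := exists_nat_gt (|S| * d / (2 * Real.pi))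
    have hjpos : (0 : ℝ) < j :=
      lt_of_le_of_lt (div_nonneg (mul_nonneg (abs_nonneg S) hd.le) Real.two_pi_pos.le) hj
    set a : ℝ := ((1 + M * j : ℕ) : ℝ) with ha
    set b : ℝ := ((1 + M * (j + 1) : ℕ) : ℝ) with hb
    have hab : b = a + M := by rw [ha, hb]; push_cast; ring
    have ha0 : 0 < a := by rw [ha]; exact_mod_cast (by omega : 0 < 1 + M * j)
    have hM' : (0 : ℝ) < M := Nat.cast_pos.2 hM0
    have hlog : 0 < Real.log (b / a) := Real.log_pos ((one_lt_div ha0).2 (by linarith))
    have hle : Real.log (b / a) ≤ 1 / j := by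
      refine (Real.log_le_sub_one_of_pos (div_pos (by linarith) ha0)).trans ?_
      rw [hab, add_div, div_self ha0.ne', add_sub_cancel_left, div_le_div_iff₀ ha0 hjpos, ha]
      push_cast
      nlinarith
    have h1 : Complex.exp ((S * (d * Real.log (b / a)) : ℝ) * Complex.I) = 1 := by
      rw [Real.log_div (by linarith) ha0.ne', mul_sub, mul_sub, Complex.ofReal_sub, sub_mul,
        Complex.exp_sub, hnat, hnat, div_one]
    obtain ⟨n, hn⟩ := Complex.exp_eq_one_iff.1 h1
    have h2 : S * (d * Real.log (b / a)) = n * (2 * Real.pi) := by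
      simpa using congrArg Complex.im hn
    have h3 : |S| * (d * Real.log (b / a)) < 2 * Real.pi := by
      rw [div_lt_iff₀ Real.two_pi_pos] at hj
      calc |S| * (d * Real.log (b / a)) ≤ |S| * (d * (1 / j)) := by gcongr
        _ < 2 * Real.pi := by
          rw [← mul_assoc, mul_one_div, div_lt_iff₀ hjpos]
          linarith
    have h4 : |(n : ℝ)| < 1 := by
      have e := congrArg abs h2
      rw [abs_mul, abs_mul (n : ℝ), abs_of_pos (mul_pos hd hlog), abs_of_pos Real.two_pi_pos] at e
      rw [e] at h3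
      exact (mul_lt_iff_lt_one_left Real.two_pi_pos).1 h3
    have hn0 : n = 0 := by
      rw [← Int.abs_lt_one_iff (a := n)]
      exact_mod_cast h4
    rw [hn0, Int.cast_zero, zero_mul, mul_eq_zero] at h2
    exact h2.elim hS (mul_pos hd hlog).ne'
  have htk : t = 0 ∧ m = 0 := by
    by_contra hne
    obtain ⟨x, hx, hx1⟩ := exists_rayElt_ne_one ht (not_and_or.1 hne) (levelMod_ne_bot hR k)
    have h1 := hray x hx
    rw [hS, zero_mul, Complex.ofReal_zero, zero_mul, Complex.exp_zero] at h1
    exact hx1 h1.symm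
  have hinf : ∀ y ∈ posInf K, χ y = 1 := fun y hy => by
    have h1 := htype y hy
    rw [htk.1, htk.2, MonoidHom.mul_apply, MonoidHom.inv_apply, hS,
      show absChar K 0 y = 1 from Units.ext (by simp [absChar_val]), inv_one, mul_one,
      show typeChar (0 : InfinitePlace K → ℝ) 0 y = 1 from Units.ext (by
        rw [typeChar_val, infChar_zero, Units.val_one]), mul_one] at h1
    exact h1
  refine idele_hom_ext hR k (fun a => h.principal_eq a) (fun x hx => ?_) fun v hv => huR v hv
  obtain ⟨h1, h2, h3⟩ := div_infPart_mem hx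
  rw [← div_mul_cancel x (infPart x), map_mul, hinf _ h3, hkR _ h1 h2.2, mul_one]
  rfl

end FA.IdeleClass

end
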