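import Fermat.Agent.IdeleClass.Characters
import Fermat.Agent.HeckeTorus.InfType
import Mathlib.Analysis.Calculus.Deriv.Inv
import Mathlib.MeasureTheory.Integral.IntervalIntegral.FundThmCalculus

/-!
# The infinity type of a unitary idele class character

A continuous homomorphism from the line to the unit circle is an exponential.  So a continuous
unitary character of the ideles is, on the positive infinite ideles, the inverse of a balanced
infinity type times an imaginary power of the absolute value.
-/

set_option autoImplicit false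
set_option linter.unusedSectionVars false
set_option linter.style.haveILetI false

noncomputable section

open NumberField NumberField.InfinitePlace NumberField.InfinitePlace.Completion IsDedekindDomain
open NumberField.mixedEmbedding (mixedSpace normAtPlace normAtPlace_apply_of_isReal
  normAtPlace_apply_of_isComplex)
open Complex Topology
open FA.Ideles
open FA.HeckeTorus (infChar Balanced infChar_mul infChar_ne_zero norm_infChar contDiffAt_infChar)
open scoped Classical

namespace FA.IdeleClass

universe u

/-- **A continuous one-parameter group in the units of `ℂ` is an exponential.** -/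
theorem exists_cexp_of_hom {f : ℝ → ℂ} (hf : Continuous f) (h0 : f 0 = 1)
    (hadd : ∀ s t, f (s + t) = f s * f t) : ∃ c : ℂ, ∀ s, f s = Complex.exp (c * s) := by
  set F : ℝ → ℂ := fun x => ∫ t in (0 : ℝ)..x, f t with hF
  have hd : ∀ x, HasDerivAt F (f x) x := fun x =>
    intervalIntegral.integral_hasDerivAt_right (hf.intervalIntegrable 0 x)
      (hf.stronglyMeasurableAtFilter _ _) hf.continuousAt
  obtain ⟨δ, hδ⟩ : ∃ δ, F δ ≠ 0 :=
    ((hd 0).eventually_ne (c := (0 : ℂ)) (by rw [h0]; exact one_ne_zero)).exists
  have hshift : ∀ x, F (x + δ) - F x = f x * F δ := fun x => by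
    rw [hF]
    simp only
    rw [intervalIntegral.integral_interval_sub_left (hf.intervalIntegrable _ _)
      (hf.intervalIntegrable _ _), ← intervalIntegral.integral_const_mul]
    simp_rw [← hadd]
    rw [intervalIntegral.integral_comp_add_left f x, add_zero]
  set c := (f δ - 1) / F δ
  have hder : ∀ x, HasDerivAt f (c * f x) x := fun x => by
    have h1 := ((hd (x + δ)).comp_add_const x δ).sub (hd x) |>.div_const (F δ)
    refine (h1.congr_of_eventuallyEq (Filter.Eventually.of_forall fun y => ?_)).congr_deriv ?_
    · show f y = (F (y + δ) - F y) / F δ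
      rw [hshift, mul_div_cancel_right₀ _ hδ]
    · rw [hadd]
      simp only [c]
      ring
  have hconst : ∀ x, HasDerivAt (fun y : ℝ => f y * Complex.exp (-c * y)) 0 x := fun x => by
    have h1 : HasDerivAt (fun y : ℝ => Complex.exp (-c * y)) (Complex.exp (-c * x) * (-c * 1)) x :=
      ((hasDerivAt_id x).ofReal_comp.const_mul (-c)).cexp
    exact ((hder x).mul h1).congr_deriv (by ring)
  refine ⟨c, fun s => ?_⟩
  have h := is_const_of_deriv_eq_zero (fun x => (hconst x).differentiableAt)
    (fun x => (hconst x).deriv) s 0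
  rw [h0, Complex.ofReal_zero, mul_zero, Complex.exp_zero, mul_one, neg_mul, Complex.exp_neg,
    mul_inv_eq_one₀ (Complex.exp_ne_zero _)] at h
  exact h

/-- A unitary one-parameter group. -/
theorem exists_real_of_hom {f : ℝ → ℂ} (hf : Continuous f) (hu : ∀ s, ‖f s‖ = 1)
    (hadd : ∀ s t, f (s + t) = f s * f t) :
    ∃ τ : ℝ, ∀ s, f s = Complex.exp ((τ * s : ℝ) * Complex.I) := by
  have h0 : f 0 = 1 := by
    have h := hadd 0 0
    rw [add_zero] at h
    exact (mul_eq_left₀ fun e => by simpa [e] using hu 0).1 h.symm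
  obtain ⟨c, hc⟩ := exists_cexp_of_hom hf h0 hadd
  have hre : c.re = 0 := by
    have h := hu 1
    rw [hc, Complex.ofReal_one, mul_one, Complex.norm_exp] at h
    exact (Real.exp_eq_one_iff _).1 h
  refine ⟨c.im, fun s => (hc s).trans (congrArg Complex.exp ?_)⟩
  conv_lhs => rw [← Complex.re_add_im c, hre]
  push_cast
  ring

variable {K : Type u} [Field K] [NumberField K]

/-- A continuous unitary character of the ideles, trivial on the principal ones. -/
structure IsIdeleChar (χ : Idele K →* ℂˣ) : Prop where
  cont : Continuous χ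
  principal_eq : ∀ a : Kˣ, χ (principal a) = 1
  norm_eq : ∀ x, ‖((χ x : ℂˣ) : ℂ)‖ = 1

theorem IsIdeleChar.mul {χ χ' : Idele K →* ℂˣ} (h : IsIdeleChar χ) (h' : IsIdeleChar χ') :
    IsIdeleChar (χ * χ') :=
  ⟨h.cont.mul h'.cont, fun a => by rw [MonoidHom.mul_apply, h.principal_eq, h'.principal_eq, mul_one],
    fun x => by rw [MonoidHom.mul_apply, Units.val_mul, norm_mul, h.norm_eq, h'.norm_eq, mul_one]⟩

theorem IsIdeleChar.inv {χ : Idele K →* ℂˣ} (h : IsIdeleChar χ) : IsIdeleChar χ⁻¹ :=
  ⟨h.cont.inv, fun a => by rw [MonoidHom.inv_apply, h.principal_eq, inv_one],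
    fun x => by rw [MonoidHom.inv_apply, Units.val_inv_eq_inv_val, norm_inv, h.norm_eq, inv_one]⟩

theorem IsIdeleChar.one : IsIdeleChar (1 : Idele K →* ℂˣ) :=
  ⟨continuous_const, fun _ => rfl, fun _ => norm_one⟩

/-! ### Imaginary powers of the absolute value -/

variable (K) in
/-- `x ↦ |x| ^ (i S)`. -/
def absChar (S : ℝ) : Idele K →* ℂˣ where
  toFun x := Units.mk0 (Complex.exp ((S * Real.log (ideleAbs K x) : ℝ) * Complex.I))
    (Complex.exp_ne_zero _)
  map_one' := Units.ext (by simp)
  map_mul' x y := Units.ext (by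
    simp only [Units.val_mk0, Units.val_mul, map_mul,
      Real.log_mul (ideleAbs_pos x).ne' (ideleAbs_pos y).ne', mul_add, Complex.ofReal_add, add_mul,
      Complex.exp_add])

theorem absChar_val (S : ℝ) (x : Idele K) :
    ((absChar K S x : ℂˣ) : ℂ) = Complex.exp ((S * Real.log (ideleAbs K x) : ℝ) * Complex.I) := rfl

theorem continuous_units_of_val {X : Type*} [TopologicalSpace X] {f : X → ℂˣ}
    (hf : Continuous fun x => (f x : ℂ)) : Continuous f :=
  Units.continuous_iff.2 ⟨hf, by
    simp only [Units.val_inv_eq_inv_val]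
    exact hf.inv₀ fun x => (f x).ne_zero⟩

theorem isIdeleChar_absChar (S : ℝ) : IsIdeleChar (absChar K S) := by
  refine ⟨continuous_units_of_val ?_, fun a => Units.ext ?_, fun x => ?_⟩
  · simp only [absChar_val]
    exact Complex.continuous_exp.comp ((Complex.continuous_ofReal.comp
      (continuous_const.mul (continuous_ideleAbs.log fun x => (ideleAbs_pos x).ne'))).mul
        continuous_const)
  · rw [absChar_val, ideleAbs_principal, Real.log_one, mul_zero, Complex.ofReal_zero, zero_mul,
      Complex.exp_zero, Units.val_one]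
  · rw [absChar_val, Complex.norm_exp_ofReal_mul_I]

/-! ### The infinite components in `K ⊗ ℝ` -/

/-- The infinite components. -/
def infVec (y : Idele K) : mixedSpace K :=
  (fun w => extensionEmbeddingOfIsReal w.2 (infComp w.1 y).val,
    fun w => extensionEmbedding w.1 (infComp w.1 y).val)

theorem normAtPlace_infVec (w : InfinitePlace K) (y : Idele K) :
    normAtPlace w (infVec y) = ‖((infComp w y : w.Completionˣ) : w.Completion)‖ := by
  by_cases hw : IsReal w
  · rw [normAtPlace_apply_of_isReal hw]
    exact (isometry_extensionEmbeddingOfIsReal hw).norm_map_of_map_zero (map_zero _) _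
  · rw [normAtPlace_apply_of_isComplex (not_isReal_iff_isComplex.1 hw)]
    exact (isometry_extensionEmbedding w).norm_map_of_map_zero (map_zero _) _

theorem norm_infVec_ne_zero (y : Idele K) : mixedEmbedding.norm (infVec y) ≠ 0 :=
  mixedEmbedding.norm_ne_zero_iff.2 fun w => by
    rw [normAtPlace_infVec]
    exact norm_ne_zero_iff.2 (Units.ne_zero _)

theorem infVec_mul (x y : Idele K) : infVec (x * y) = infVec x * infVec y := by
  refine Prod.ext (funext fun w => ?_) (funext fun w => ?_) <;>
  · simp only [infVec, map_mul, Units.val_mul, Prod.fst_mul, Prod.snd_mul, Pi.mul_apply]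

theorem infVec_one : infVec (1 : Idele K) = 1 := by
  refine Prod.ext (funext fun w => ?_) (funext fun w => ?_) <;> simp [infVec]

theorem infVec_principal (a : Kˣ) : infVec (principal a) = mixedEmbedding K (a : K) := by
  refine Prod.ext (funext fun w => ?_) (funext fun w => ?_)
  · rw [mixedEmbedding.mixedEmbedding_apply_isReal]
    simp only [infVec, infComp_principal, Units.coe_map, MonoidHom.coe_coe]
    exact extensionEmbeddingOfIsReal_coe w.2 ((WithAbs.equiv w.1.1).symm (a : K))
  · rw [mixedEmbedding.mixedEmbedding_apply_isComplex]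
    simp only [infVec, infComp_principal, Units.coe_map, MonoidHom.coe_coe]
    exact extensionEmbedding_coe w.1 ((WithAbs.equiv w.1.1).symm (a : K))

theorem infVec_infPart (y : Idele K) : infVec (infPart y) = infVec y := by
  simp only [infVec, infComp_infPart]

theorem infVec_eq_one {y : Idele K} (hy : ∀ w, infComp w y = 1) : infVec y = 1 := by
  refine Prod.ext (funext fun w => ?_) (funext fun w => ?_) <;> simp [infVec, hy]

theorem continuous_infVec : Continuous (infVec : Idele K → mixedSpace K) :=
  (continuous_pi fun w => (isometry_extensionEmbeddingOfIsReal w.2).continuous.comp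
    (continuous_infComp_val w.1)).prodMk
    (continuous_pi fun w => (isometry_extensionEmbedding w.1).continuous.comp
      (continuous_infComp_val w.1))

/-- The infinity type, on the ideles. -/
def typeChar (t : InfinitePlace K → ℝ) (k : {w : InfinitePlace K // IsComplex w} → ℤ) :
    Idele K →* ℂˣ where
  toFun y := Units.mk0 (infChar t k (infVec y)) (infChar_ne_zero (norm_infVec_ne_zero y))
  map_one' := Units.ext (by simp [infVec_one, infChar, FA.HeckeTorus.phase])
  map_mul' x y := Units.ext (by
    simp only [Units.val_mk0, Units.val_mul, infVec_mul]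
    exact infChar_mul (norm_infVec_ne_zero x) (norm_infVec_ne_zero y))

theorem typeChar_val (t : InfinitePlace K → ℝ) (k : {w : InfinitePlace K // IsComplex w} → ℤ)
    (y : Idele K) : ((typeChar t k y : ℂˣ) : ℂ) = infChar t k (infVec y) := rfl

theorem continuous_typeChar (t : InfinitePlace K → ℝ)
    (k : {w : InfinitePlace K // IsComplex w} → ℤ) : Continuous (typeChar t k) :=
  continuous_units_of_val (continuous_iff_continuousAt.2 fun y =>
    (contDiffAt_infChar (norm_infVec_ne_zero y)).continuousAt.comp continuous_infVec.continuousAt)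

theorem typeChar_infPart (t : InfinitePlace K → ℝ)
    (k : {w : InfinitePlace K // IsComplex w} → ℤ) (y : Idele K) :
    typeChar t k (infPart y) = typeChar t k y :=
  Units.ext (by rw [typeChar_val, typeChar_val, infVec_infPart])

theorem typeChar_eq_one_of_infComp (t : InfinitePlace K → ℝ)
    (k : {w : InfinitePlace K // IsComplex w} → ℤ) {y : Idele K} (hy : ∀ w, infComp w y = 1) :
    typeChar t k y = 1 := by
  refine Units.ext ?_
  rw [typeChar_val, infVec_eq_one hy, ← infVec_one, ← typeChar_val, map_one]

/-- `χ` is on the positive infinite ideles the inverse of the type. -/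
def HasType (χ : Idele K →* ℂˣ) (t : InfinitePlace K → ℝ)
    (k : {w : InfinitePlace K // IsComplex w} → ℤ) : Prop :=
  ∀ y ∈ posInf K, χ y * typeChar t k y = 1

/-! ### The type at one place -/

theorem continuous_infSingle_path {X : Type*} [TopologicalSpace X] (w : InfinitePlace K)
    {g : X → w.Completion} (hg : Continuous g) (h0 : ∀ x, g x ≠ 0) :
    Continuous fun x => infSingle w (Units.mk0 (g x) (h0 x)) := by
  refine Units.continuous_iff.2 ⟨(continuous_infSingle_val w).comp hg, ?_⟩
  have e : (fun x => ((infSingle w (Units.mk0 (g x) (h0 x)))⁻¹ : Idele K).val) =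
      fun x => (infSingle w (Units.mk0 (g x) (h0 x))⁻¹).val :=
    funext fun x => by rw [← map_inv]
  rw [e]
  exact ((continuous_infSingle_val w).comp (hg.inv₀ h0)).congr fun x => rfl

/-- **The characters of a completion at an infinite place.** -/
theorem exists_local_type {χ : Idele K →* ℂˣ} (h : IsIdeleChar χ) (w : InfinitePlace K) :
    ∃ (τ : ℝ) (k : ℤ), (IsReal w → k = 0) ∧ ∀ z : w.Completionˣ,
      (∀ hr : IsReal w, 0 < extensionEmbeddingOfIsReal hr z.val) →
        ((χ (infSingle w z) : ℂˣ) : ℂ) = Complex.exp ((τ * Real.log ‖z.val‖ : ℝ) * Complex.I) *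
          (extensionEmbedding w z.val / (‖z.val‖ : ℂ)) ^ k := by
  by_cases hw : IsReal w
  · set E := ringEquivRealOfIsReal hw
    have hc : Continuous E.symm := (isometryEquivRealOfIsReal hw).symm.continuous
    set f : ℝ → ℂ := fun s => ((χ (infSingle w (Units.mk0 (E.symm (Real.exp s))
      ((map_ne_zero _).2 (Real.exp_ne_zero s)))) : ℂˣ) : ℂ) with hf
    obtain ⟨τ, hτ⟩ := exists_real_of_hom (f := f)
      (Units.continuous_val.comp (h.cont.comp (continuous_infSingle_path w
        (hc.comp Real.continuous_exp) fun s => (map_ne_zero _).2 (Real.exp_ne_zero s))))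
      (fun s => h.norm_eq _) fun s t => by
        simp only [hf]
        rw [← Units.val_mul, ← map_mul, ← map_mul]
        refine congrArg (fun z => ((χ (infSingle w z) : ℂˣ) : ℂ)) (Units.ext ?_)
        simp only [Units.val_mk0, Units.val_mul, Real.exp_add, map_mul]
    refine ⟨τ, 0, fun _ => rfl, fun z hz => ?_⟩
    rw [zpow_zero, mul_one, ← hτ]
    refine congrArg (fun z => ((χ (infSingle w z) : ℂˣ) : ℂ)) (Units.ext ?_)
    have hn : ‖z.val‖ = extensionEmbeddingOfIsReal hw z.val := by
      rw [← (isometry_extensionEmbeddingOfIsReal hw).norm_map_of_map_zero (map_zero _),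
        Real.norm_of_nonneg (hz hw).le]
    rw [Units.val_mk0, Real.exp_log (norm_pos_iff.2 z.ne_zero), hn,
      ← ringEquivRealOfIsReal_apply hw, RingEquiv.symm_apply_apply]
  · have hwc : IsComplex w := not_isReal_iff_isComplex.1 hw
    set E := ringEquivComplexOfIsComplex hwc
    have hc : Continuous E.symm := (isometryEquivComplexOfIsComplex hwc).symm.continuous
    set g : ℂ → ℂ := fun u => ((χ (infSingle w (Units.mk0 (E.symm (Complex.exp u))
      ((map_ne_zero _).2 (Complex.exp_ne_zero u)))) : ℂˣ) : ℂ) with hg
    have hgc : Continuous g := Units.continuous_val.comp (h.cont.comp (continuous_infSingle_path w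
        (hc.comp Complex.continuous_exp) fun u => (map_ne_zero _).2 (Complex.exp_ne_zero u)))
    have hgm : ∀ a b, g (a + b) = g a * g b := fun a b => by
      simp only [hg]
      rw [← Units.val_mul, ← map_mul, ← map_mul]
      refine congrArg (fun z => ((χ (infSingle w z) : ℂˣ) : ℂ)) (Units.ext ?_)
      simp only [Units.val_mk0, Units.val_mul, Complex.exp_add, map_mul]
    obtain ⟨τ, hτ⟩ := exists_real_of_hom (f := fun s : ℝ => g s)
      (hgc.comp Complex.continuous_ofReal) (fun s => h.norm_eq _)
      fun s t => by rw [Complex.ofReal_add]; exact hgm _ _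
    obtain ⟨κ, hκ⟩ := exists_real_of_hom (f := fun s : ℝ => g (s * Complex.I))
      (hgc.comp (Complex.continuous_ofReal.mul continuous_const)) (fun s => h.norm_eq _)
      fun s t => by rw [Complex.ofReal_add, add_mul]; exact hgm _ _
    obtain ⟨k, hk⟩ : ∃ k : ℤ, (k : ℝ) = κ := by
      have hg1 : g ((2 * Real.pi : ℝ) * Complex.I) = g 0 := by
        simp only [hg]
        refine congrArg (fun z => ((χ (infSingle w z) : ℂˣ) : ℂ)) (Units.ext ?_)
        rw [Units.val_mk0, Units.val_mk0, Complex.exp_zero,
          show ((2 * Real.pi : ℝ) : ℂ) * Complex.I = 2 * Real.pi * Complex.I by push_cast; ring,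
          Complex.exp_two_pi_mul_I]
      have h2 := hκ (2 * Real.pi)
      rw [hg1, show g 0 = 1 by simpa using hτ 0, eq_comm, Complex.exp_eq_one_iff] at h2
      obtain ⟨n, hn⟩ := h2
      refine ⟨n, ?_⟩
      have h3 := congrArg Complex.im hn
      simp at h3
      have := Real.pi_pos
      nlinarith
    refine ⟨τ, k, fun hr => absurd hr hw, fun z _ => ?_⟩
    set e := extensionEmbedding w z.val
    have he : e ≠ 0 := (map_ne_zero _).2 z.ne_zero
    have hn : ‖e‖ = ‖z.val‖ := (isometry_extensionEmbedding w).norm_map_of_map_zero (map_zero _) _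
    have h1 : ((χ (infSingle w z) : ℂˣ) : ℂ) = g (Complex.log e) := by
      simp only [hg]
      refine congrArg (fun z => ((χ (infSingle w z) : ℂˣ) : ℂ)) (Units.ext ?_)
      rw [Units.val_mk0, Complex.exp_log he]
      exact (RingEquiv.symm_apply_apply E z.val).symm
    rw [h1, ← Complex.re_add_im (Complex.log e), hgm, hτ, hκ, Complex.log_re, Complex.log_im, hn,
      show (e / (‖z.val‖ : ℂ)) = Complex.exp ((e.arg : ℂ) * Complex.I) by
        rw [← hn, eq_comm, eq_div_iff (Complex.ofReal_ne_zero.2 (norm_ne_zero_iff.2 he)), mul_comm]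
        exact Complex.norm_mul_exp_arg_mul_I e,
      ← Complex.exp_int_mul, ← hk]
    push_cast
    ring_nf

theorem log_ideleAbs_posInf {y : Idele K} (hy : y ∈ posInf K) :
    Real.log (ideleAbs K y) = ∑ w : InfinitePlace K,
      (w.mult : ℝ) * Real.log ‖((infComp w y : w.Completionˣ) : w.Completion)‖ := by
  rw [ideleAbs_of_units fun v => by rw [hy.1 v, Units.val_one, map_one],
    Real.log_prod fun w _ => pow_ne_zero _ (norm_ne_zero_iff.2 (Units.ne_zero _))]
  exact Finset.sum_congr rfl fun w _ => Real.log_pow _ _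

/-- **Every unitary character has a type.** -/
theorem exists_hasType {χ : Idele K →* ℂˣ} (h : IsIdeleChar χ) :
    ∃ (S : ℝ) (t : InfinitePlace K → ℝ) (k : {w : InfinitePlace K // IsComplex w} → ℤ),
      Balanced t ∧ HasType (χ * (absChar K S)⁻¹) t k := by
  choose τ m hm hτ using exists_local_type h
  set S : ℝ := (∑ w, τ w) / (Module.finrank ℚ K : ℝ) with hS
  have hn : (Module.finrank ℚ K : ℝ) ≠ 0 := Nat.cast_ne_zero.2 Module.finrank_pos.ne'
  refine ⟨S, fun w => S - τ w / w.mult, fun w => -m w.1, ?_, fun y hy => Units.ext ?_⟩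
  · show ∑ w : InfinitePlace K, (w.mult : ℝ) * (S - τ w / w.mult) = 0
    rw [Finset.sum_congr rfl fun w _ => show (w.mult : ℝ) * (S - τ w / w.mult) = S * w.mult - τ w by
      field_simp, Finset.sum_sub_distrib, ← Finset.mul_sum, ← Nat.cast_sum, sum_mult_eq, hS,
      div_mul_cancel₀ _ hn, sub_self]
  set L : InfinitePlace K → ℝ := fun w =>
    Real.log ‖((infComp w y : w.Completionˣ) : w.Completion)‖
  set d : InfinitePlace K → ℂ := fun w =>
    extensionEmbedding w (infComp w y).val / (‖(infComp w y).val‖ : ℂ)
  have hd : ∀ w, d w ≠ 0 := fun w => div_ne_zero ((map_ne_zero _).2 (Units.ne_zero _))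
    (Complex.ofReal_ne_zero.2 (norm_ne_zero_iff.2 (Units.ne_zero _)))
  have hχ : ((χ y : ℂˣ) : ℂ) = Complex.exp (((∑ w, τ w * L w : ℝ) : ℂ) * Complex.I) *
      ∏ w : {w : InfinitePlace K // IsComplex w}, d w.1 ^ m w.1 := by
    conv_lhs => rw [← infPart_eq_self hy, infPart_apply, map_prod, Units.coe_prod]
    rw [Finset.prod_congr rfl fun w _ => hτ w _ (hy.2 w), Finset.prod_mul_distrib,
      ← Complex.exp_sum, ← Finset.sum_mul, ← Complex.ofReal_sum,
      ← Fintype.prod_subtype_mul_prod_subtype (fun w : InfinitePlace K => IsComplex w)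
        fun w => d w ^ m w]
    refine congrArg₂ (· * ·) rfl ((mul_eq_left₀ (Finset.prod_ne_zero_iff.2 fun w _ =>
      zpow_ne_zero _ (hd w.1))).2 (Finset.prod_eq_one fun w _ => ?_))
    rw [hm _ (not_isComplex_iff_isReal.1 w.2), zpow_zero]
  have hdir : ∏ w : {w : InfinitePlace K // IsComplex w},
      ((infVec y).2 w / (‖(infVec y).2 w‖ : ℂ)) ^ (-m w.1) =
        (∏ w : {w : InfinitePlace K // IsComplex w}, d w.1 ^ m w.1)⁻¹ := by
    rw [← Finset.prod_inv_distrib]
    refine Finset.prod_congr rfl fun w _ => ?_
    rw [zpow_neg, show ‖(infVec y).2 w‖ = ‖(infComp w.1 y).val‖ from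
      (isometry_extensionEmbedding w.1).norm_map_of_map_zero (map_zero _) _]
    rfl
  have hph : FA.HeckeTorus.phase (fun w => S - τ w / w.mult) (infVec y) =
      S * (∑ w, (w.mult : ℝ) * L w) - ∑ w, τ w * L w := by
    rw [Finset.mul_sum, ← Finset.sum_sub_distrib]
    refine Finset.sum_congr rfl fun w _ => ?_
    rw [normAtPlace_infVec]
    field_simp
    ring
  rw [MonoidHom.mul_apply, MonoidHom.inv_apply, Units.val_mul, Units.val_mul,
    Units.val_inv_eq_inv_val, absChar_val, typeChar_val, infChar, hχ, log_ideleAbs_posInf hy, hdir,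
    hph, Units.val_one, Complex.ofReal_sub, sub_mul, Complex.exp_sub]
  have hP : ∏ w : {w : InfinitePlace K // IsComplex w}, d w.1 ^ m w.1 ≠ 0 :=
    Finset.prod_ne_zero_iff.2 fun w _ => zpow_ne_zero _ (hd w.1)
  field_simp [Complex.exp_ne_zero]
  rfl

end FA.IdeleClass

end
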