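import Fermat.Agent.IdeleClass.LSeries
import Fermat.Agent.ArtinReciprocity.HeckeComparison
import Fermat.Agent.Ideles.Existence

/-!
# Idele class characters of finite order

They are the linear characters of abelian extensions composed with the Artin map, and their
L-series are the Artin L-series.
-/

set_option autoImplicit false
set_option linter.unusedSectionVars false
set_option linter.style.haveILetI false

noncomputable section

open NumberField IsDedekindDomain Filter Topology WithZero
open FA.Ideles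
open FA.ArtinRec (unif ord IsRam artinAt coef_of_isRam coef_of_not_isRam)
open FA.ArtinL (artinL term hasProd_artinL artinL_inflation)
open FA.NormResidue (normSymbol image_units_normSymbol)
open FA.QuadFormsNF (valued_algebraMap)
open scoped Pointwise Classical

namespace FA.IdeleClass

universe u

section field

variable {K : Type u} [Field K] [NumberField K] {L : Type*} [Field L] [NumberField L]
  [Algebra K L] [IsGalois K L] [IsMulCommutative (L ≃ₐ[K] L)]

/-- A character of the Galois group gives an idele class character. -/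
theorem isIdeleChar_artin (ψ : (L ≃ₐ[K] L) →* ℂˣ) : IsIdeleChar (ψ.comp (artinIdele L)) := by
  refine ⟨continuous_of_continuousAt_one _ ?_, fun a => ?_, fun x => ?_⟩
  · refine (continuousAt_const (y := (1 : ℂˣ))).congr (mem_of_superset
      ((isOpen_ker_artinIdele (K := K) (L := L)).mem_nhds (one_mem _)) fun x hx => ?_)
    show (1 : ℂˣ) = ψ (artinIdele L x)
    rw [MonoidHom.mem_ker.1 hx, map_one]
  · rw [MonoidHom.comp_apply, artinIdele_principal, map_one]
  · refine Complex.norm_eq_one_of_pow_eq_one (n := Nat.card (L ≃ₐ[K] L)) ?_ Nat.card_pos.ne'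
    rw [MonoidHom.comp_apply, ← Units.val_pow_eq_pow_val, ← map_pow, pow_card_eq_one', map_one,
      Units.val_one]

/-- **A faithful character ramifies where the field does.** -/
theorem ramSet_artin (ψ : (L ≃ₐ[K] L) →* ℂˣ) (hψ : Function.Injective ψ) :
    ramSet (ψ.comp (artinIdele L)) = {v | IsRam L v} := by
  ext v
  refine ⟨fun ⟨z, hz, hne⟩ => by_contra fun hv => hne ?_, fun hv => ?_⟩
  · rw [MonoidHom.comp_apply, artinIdele_single, localArtin_unit hv hz, map_one]
  obtain ⟨Q, hQ, hI⟩ := hv
  obtain ⟨⟨g, hg⟩, hg1⟩ := Subgroup.ne_bot_iff_exists_ne_one.1 hI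
  obtain ⟨c, hc, hcg⟩ := (image_units_normSymbol hQ g).1 hg
  refine ⟨localEmb v c, ?_, fun h1 => hg1 (Subtype.ext (hψ ?_))⟩
  · rw [localEmb_val, valued_algebraMap, FA.ArtinRec.valuation_eq_exp, hc, neg_zero, exp_zero]
  · rw [MonoidHom.comp_apply, artinIdele_single, localArtin_localEmb, hcg] at h1
    show ψ g = ψ 1
    rw [h1, map_one]

/-- **For a faithful character the two L-series agree.** -/
theorem lSeries_artin_faithful (ψ : (L ≃ₐ[K] L) →* ℂˣ) (hψ : Function.Injective ψ) {s : ℂ}
    (hs : 1 < s.re) :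
    lSeries (ψ.comp (artinIdele L)) s = artinL (fun σ => (ψ σ : ℂ)) s := by
  have hχ := isIdeleChar_artin ψ
  refine ((hasProd_lSeries hχ hs).1).unique ?_
  convert hasProd_artinL hs (fun σ => (ψ σ : ℂ)) using 1
  funext v
  rw [lFactor, unifVal, ramSet_artin ψ hψ]
  by_cases hv : IsRam L v
  · rw [if_pos (show v ∈ {v | IsRam L v} from hv), zero_mul, sub_zero, inv_one]
    simp [term, coef_of_isRam ψ hψ hv]
  rw [if_neg (show v ∉ {v | IsRam L v} from hv), MonoidHom.comp_apply, artinIdele_single_unif hv]
  set z := ((Ideal.absNorm v.asIdeal : ℕ) : ℂ) ^ (-s) with hz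
  have hlt : ‖(ψ (artinAt L v) : ℂ) * z‖ < 1 := by
    have h1 : ‖(ψ (artinAt L v) : ℂ)‖ = 1 := by
      have := hχ.norm_eq (single v (localEmb v (unif v)))
      rwa [MonoidHom.comp_apply, artinIdele_single_unif hv] at this
    obtain ⟨h2, h3⟩ := FA.ArtinL.norm_norm_cpow hs v
    rw [norm_mul, h1, one_mul, hz, h2]
    linarith
  have h : HasSum (fun j => term (fun σ => (ψ σ : ℂ)) s (v, j))
      (-Complex.log (1 - (ψ (artinAt L v) : ℂ) * z)) := by
    simpa only [term, coef_of_not_isRam ψ hv, ← mul_pow] using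
      Complex.hasSum_taylorSeries_neg_log' hlt
  rw [h.tsum_eq, Complex.exp_neg, Complex.exp_log]
  intro h0
  rw [← sub_eq_zero.1 h0, norm_one] at hlt
  exact lt_irrefl _ hlt

/-- **The Artin L-series of a linear character is that of its idele class character.** -/
theorem lSeries_artin (ψ : (L ≃ₐ[K] L) →* ℂˣ) {s : ℂ} (hs : 1 < s.re) :
    lSeries (ψ.comp (artinIdele L)) s = artinL (fun σ => (ψ σ : ℂ)) s := by
  haveI : ψ.ker.Normal := MonoidHom.normal_ker ψ
  let M := IntermediateField.fixedField ψ.ker
  haveI : IsGalois K M := IsGalois.of_fixedField_normal_subgroup ψ.ker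
  set res : (L ≃ₐ[K] L) →* (M ≃ₐ[K] M) := AlgEquiv.restrictNormalHom M
  have hsurj : Function.Surjective res := AlgEquiv.restrictNormalHom_surjective L
  have hker : res.ker = ψ.ker :=
    (IntermediateField.restrictNormalHom_ker M).trans
      (IntermediateField.fixingSubgroup_fixedField ψ.ker)
  set ψM : (M ≃ₐ[K] M) →* ℂˣ := res.liftOfSurjective hsurj ⟨ψ, hker.le⟩
  have hψM : ∀ σ, ψM (res σ) = ψ σ := fun σ =>
    DFunLike.congr_fun (MonoidHom.liftOfRightInverse_comp res _
      (Function.rightInverse_surjInv hsurj) ⟨ψ, hker.le⟩) σ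
  have hinj : Function.Injective ψM := (injective_iff_map_eq_one ψM).2 fun x hx => by
    obtain ⟨σ, rfl⟩ := hsurj x
    rw [hψM] at hx
    rwa [← MonoidHom.mem_ker, ← hker, MonoidHom.mem_ker] at hx
  haveI : IsMulCommutative (M ≃ₐ[K] M) :=
    ⟨⟨fun a b => hinj (by rw [map_mul, map_mul, mul_comm])⟩⟩
  have hcomp : ψ.comp (artinIdele L) = ψM.comp (artinIdele M) := MonoidHom.ext fun x => by
    rw [MonoidHom.comp_apply, MonoidHom.comp_apply, ← restrict_artinIdele (L := L) (E := M) x]
    exact (hψM _).symm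
  rw [hcomp, lSeries_artin_faithful ψM hinj hs, ← artinL_inflation (K := K) (M := M) (L := L)
    (f := fun σ => (ψM σ : ℂ)) (fun g x => by simp) s]
  exact congrArg (fun g => artinL g s) (funext fun σ => congrArg Units.val (hψM σ))

end field

variable {K : Type u} [Field K] [NumberField K] {χ : Idele K →* ℂˣ}

/-- **A character of finite order comes from an abelian extension.** -/
theorem exists_artin_of_pow_eq_one (h : IsIdeleChar χ) {n : ℕ} (hn : n ≠ 0)
    (hpow : ∀ x, χ x ^ n = 1) :
    ∃ (L : Type u) (_ : Field L) (_ : NumberField L) (_ : Algebra K L) (_ : IsGalois K L)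
      (_ : IsMulCommutative (L ≃ₐ[K] L)) (ψ : (L ≃ₐ[K] L) →* ℂˣ),
      χ = ψ.comp (artinIdele L) := by
  obtain ⟨T, hT, k, hk⟩ := exists_level_ker h.cont
  have hle : levelSub T k ≤ χ.ker := fun x hx => by
    obtain ⟨h1, -, h3⟩ := div_infPart_mem hx
    obtain ⟨y, -, hy⟩ := exists_root_posInf h3 hn
    rw [MonoidHom.mem_ker, ← div_mul_cancel x (infPart x), map_mul,
      hk _ h1 fun w => by rw [map_div, infComp_infPart, div_self'], one_mul, ← hy, map_pow, hpow]
  have hopen : IsOpen (χ.ker : Set (Idele K)) := Subgroup.isOpen_mono hle (isOpen_levelSub hT k)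
  obtain ⟨L, _, _, _, _, _, hL⟩ := exists_ker_artinIdele_eq hopen
    (fun _ ⟨a, ha⟩ => ha ▸ MonoidHom.mem_ker.2 (h.principal_eq a))
  exact ⟨L, _, inferInstance, _, inferInstance, inferInstance,
    (artinIdele L).liftOfSurjective artinIdele_surjective ⟨χ, hL.le⟩, MonoidHom.ext fun x =>
      (MonoidHom.liftOfRightInverse_comp_apply (artinIdele (K := K) L) _
        (Function.rightInverse_surjInv artinIdele_surjective) ⟨χ, hL.le⟩ x).symm⟩

end FA.IdeleClass

end
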