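import Fermat.Agent.IdeleClass.Norm
import Mathlib.FieldTheory.Normal.Closure
import Mathlib.GroupTheory.Abelianization.Defs

/-!
# The index of the norms of the ideles

For a Galois extension the principal ideles times the norms form a closed subgroup, hence an
intersection of open ones, and these are the kernels of abelian extensions inside the extension.  So
the group is the kernel of the largest abelian subextension, and its index is the degree of that
subextension.
-/

set_option autoImplicit false
set_option linter.unusedSectionVars false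
set_option linter.style.haveILetI false

noncomputable section

open NumberField NumberField.InfinitePlace NumberField.InfinitePlace.Completion IsDedekindDomain
open WithZero Topology IsMulCommutative
open FA.ArtinRec FA.Ideles FA.NormResidue FA.LocalCFT
open scoped Pointwise Classical commutatorElement

namespace FA.IdeleClass

universe u

variable {K : Type u} [Field K] [NumberField K] {M : Type*} [Field M] [NumberField M] [Algebra K M]
  [IsGalois K M]

theorem normU'_baseU (a : Kˣ) : normU' (baseU (L := M) a) = a ^ Module.finrank K M :=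
  Units.ext (by
    rw [Units.val_pow_eq_pow_val]
    exact Algebra.norm_algebraMap (S := M) (a : K))

/-- **The principal ideles times the norms are closed.** -/
theorem isClosed_principal_sup_norm :
    IsClosed (((principal (K := K)).range ⊔ (normIdele K M).range : Subgroup (Idele K)) :
      Set (Idele K)) := by
  set n := Module.finrank K M
  have hn : n ≠ 0 := (Module.finrank_pos (R := K) (M := M)).ne'
  set S := (unitFin M).map (normIdele K M) ⊔ posInf K with hSdef
  have hnorm : ∀ y ∈ levelSub (∅ : Set (HeightOneSpectrum (𝓞 M))) 0, normIdele K M y ∈ S :=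
    fun y hy => by
      rw [levelSub_zero_eq] at hy
      obtain ⟨u, hu, z, hz, rfl⟩ := Subgroup.mem_sup.1 hy
      rw [map_mul]
      exact Subgroup.mul_mem_sup ⟨u, hu, rfl⟩ ((map_posInf (K := K) (M := M)).le ⟨z, hz, rfl⟩)
  have hS : IsClosed (S : Set (Idele K)) := by
    rw [hSdef, Subgroup.normal_mul]
    exact isClosed_posInf.mul_left_of_isCompact (isCompact_unitFin.image continuous_normIdele)
  have hS0 : S ≤ levelSub (∅ : Set (HeightOneSpectrum (𝓞 K))) 0 := by
    rw [levelSub_zero_eq]
    exact sup_le_sup_right map_unitFin_le _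
  have hSN : S ≤ (normIdele K M).range :=
    sup_le (fun _ ⟨u, _, h⟩ => ⟨u, h⟩) fun z hz => by
      obtain ⟨y, -, hy⟩ := (map_posInf (K := K) (M := M)).ge hz
      exact ⟨y, hy⟩
  haveI := finite_units_quot_pow (K := K) (mul_ne_zero two_ne_zero hn)
  have hH : IsClosed (((principal (K := K)).range ⊔ S : Subgroup (Idele K)) : Set (Idele K)) := by
    refine isClosed_principal_sup hS hS0 (Set.finite_range fun q : (𝓞 K)ˣ ⧸
      (powMonoidHom (2 * n) : (𝓞 K)ˣ →* (𝓞 K)ˣ).range => intUnits q.out) fun ε _ => ?_
    refine ⟨_, ⟨QuotientGroup.mk ε, rfl⟩, ?_⟩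
    obtain ⟨η, hη⟩ := QuotientGroup.eq.1 (Quotient.out_eq (QuotientGroup.mk ε :
      (𝓞 K)ˣ ⧸ (powMonoidHom (2 * n) : (𝓞 K)ˣ →* (𝓞 K)ˣ).range))
    rw [← map_div, div_eq_inv_mul, ← hη, powMonoidHom_apply, pow_mul, map_pow,
      ← normU'_baseU (M := M), ← normIdele_principal]
    refine hnorm _ ⟨fun v _ => ?_, fun v hv => absurd hv (Set.notMem_empty v), fun w hr => ?_⟩
    · rw [finComp_principal, localEmb_val, FA.QuadFormsNF.valued_algebraMap, valuation_eq_exp,
        ord_baseU, ord_intUnits, mul_zero, neg_zero, exp_zero]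
    · rw [infComp_principal, Units.coe_map, MonoidHom.coe_coe, baseU_val,
        show ((intUnits (η ^ 2) : Kˣ) : K) = ((intUnits η : Kˣ) : K) ^ 2 from
          (congrArg Units.val (map_pow intUnits η 2)).trans (Units.val_pow_eq_pow_val _ _),
        map_pow, map_pow, map_pow]
      exact sq_pos_of_ne_zero ((map_ne_zero _).2 ((map_ne_zero _).2 ((map_ne_zero _).2
        (intUnits η).ne_zero)))
  obtain ⟨C, hC⟩ := exists_reps (K := M)
  rw [show (((principal (K := K)).range ⊔ (normIdele K M).range : Subgroup (Idele K)) :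
      Set (Idele K)) = ⋃ c ∈ C, (fun z => normIdele K M c * z) ''
        (((principal (K := K)).range ⊔ S : Subgroup (Idele K)) : Set (Idele K)) from ?_]
  · exact C.finite_toSet.isClosed_biUnion fun c _ => isClosedMap_mul_left _ _ hH
  refine Set.Subset.antisymm ?_ (Set.iUnion₂_subset fun c _ => ?_)
  · intro x hx
    obtain ⟨_, ⟨a, rfl⟩, _, ⟨y, rfl⟩, rfl⟩ := Subgroup.mem_sup.1 hx
    obtain ⟨c, hc, b, l, hl, rfl⟩ := hC y
    refine Set.mem_iUnion₂.2 ⟨c, hc, principal (a * normU' b) * normIdele K M l,
      Subgroup.mul_mem_sup ⟨_, rfl⟩ (hnorm l hl), ?_⟩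
    simp only [map_mul, normIdele_principal]
    ac_rfl
  · rintro _ ⟨z, hz, rfl⟩
    exact mul_mem (Subgroup.mem_sup_right ⟨c, rfl⟩)
      ((sup_le_sup_left hSN _ : (principal (K := K)).range ⊔ S ≤ _) hz)

/-- A closed subgroup containing the positive infinite ideles is cut out by the levels. -/
theorem mem_of_forall_levelSub {H : Subgroup (Idele K)} (hH : IsClosed (H : Set (Idele K)))
    (hP : posInf K ≤ H) {x : Idele K}
    (hx : ∀ T : Set (HeightOneSpectrum (𝓞 K)), T.Finite → ∀ k, x ∈ H ⊔ levelSub T k) : x ∈ H := by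
  refine hH.closure_subset (mem_closure_iff.2 fun U hU hxU => ?_)
  obtain ⟨T, hT, k, hk⟩ := exists_levelSub_subset
    (hU.preimage ((continuous_const (y := x)).div' continuous_id))
    (show x / 1 ∈ U by rwa [div_one])
  obtain ⟨p, hp, l, hl, rfl⟩ := Subgroup.mem_sup.1 (hx T hT k)
  obtain ⟨h1, h2, h3⟩ := div_infPart_mem hl
  refine ⟨p * l / (l / infPart l), hk _ h1 h2.2, ?_⟩
  rw [mul_div_assoc, div_div_cancel]
  exact mul_mem hp (hP h3)

/-- **Abelian extensions killing the norms lie in the extension.** -/
theorem nonempty_algHom_of_norm_le_ker {L : Type*} [Field L] [NumberField L] [Algebra K L]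
    [IsGalois K L] [IsMulCommutative (L ≃ₐ[K] L)]
    (h : (normIdele K M).range ≤ (artinIdele (K := K) L).ker) : Nonempty (L →ₐ[K] M) := by
  let f : L →ₐ[K] AlgebraicClosure M := IsAlgClosed.lift
  let b := Module.finBasis K L
  let N : IntermediateField M (AlgebraicClosure M) :=
    IntermediateField.adjoin M (Set.range fun i => f (b i))
  haveI : FiniteDimensional M N := by
    haveI : Finite (Set.range fun i => f (b i) : Set (AlgebraicClosure M)) :=
      Set.finite_range _ |>.to_subtype
    exact IntermediateField.finiteDimensional_adjoin fun x _ =>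
      (AlgebraicClosure.isAlgebraic M).isAlgebraic x |>.isIntegral
  have hmemN : ∀ x, f x ∈ N.restrictScalars K := fun x => by
    rw [← b.sum_repr x, map_sum]
    exact (N.restrictScalars K).sum_mem fun i _ => by
      rw [Algebra.smul_def, map_mul, f.commutes]
      exact (N.restrictScalars K).mul_mem ((N.restrictScalars K).algebraMap_mem _)
        (IntermediateField.subset_adjoin M _ ⟨i, rfl⟩)
  haveI : Normal M N := by
    refine IntermediateField.normal_iff_forall_map_le.2 fun σ => ?_
    rw [IntermediateField.adjoin_map, IntermediateField.adjoin_le_iff]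
    rintro _ ⟨_, ⟨i, rfl⟩, rfl⟩
    letI : Algebra L (AlgebraicClosure M) := f.toRingHom.toAlgebra
    haveI : IsScalarTower K L (AlgebraicClosure M) :=
      IsScalarTower.of_algebraMap_eq fun x => (f.commutes x).symm
    have h1 := AlgHom.restrictNormal_commutes (σ.restrictScalars K) L (b i)
    show σ (f (b i)) ∈ N
    rw [show σ (f (b i)) = f ((σ.restrictScalars K).restrictNormal L (b i)) from h1.symm]
    exact hmemN _
  haveI : NumberField N := NumberField.of_module_finite M N
  haveI : IsGalois M N := ⟨⟩
  let j : L →ₐ[K] N :=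
    { toFun := fun x => ⟨f x, hmemN x⟩
      map_one' := Subtype.ext (map_one f)
      map_mul' := fun x y => Subtype.ext (map_mul f x y)
      map_zero' := Subtype.ext (map_zero f)
      map_add' := fun x y => Subtype.ext (map_add f x y)
      commutes' := fun r => Subtype.ext (f.commutes r) }
  letI : Algebra L N := j.toRingHom.toAlgebra
  haveI : IsScalarTower K L N := IsScalarTower.of_algebraMap_eq fun x => (j.commutes x).symm
  have hdet : ∀ g g' : N ≃ₐ[M] N, (∀ x, g (j x) = g' (j x)) → g = g' := fun g g' hg => by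
    refine AlgEquiv.ext fun ⟨y, hy⟩ => ?_
    induction hy using IntermediateField.adjoin_induction with
    | mem y hy =>
      obtain ⟨i, rfl⟩ := hy
      exact hg (b i)
    | algebraMap r => exact (g.commutes r).trans (g'.commutes r).symm
    | add y z hy hz h1 h2 =>
      exact ((map_add g ⟨y, hy⟩ ⟨z, hz⟩).trans (congrArg₂ (· + ·) h1 h2)).trans
        (map_add g' ⟨y, hy⟩ ⟨z, hz⟩).symm
    | inv y hy h1 => exact ((map_inv₀ g ⟨y, hy⟩).trans (congrArg _ h1)).trans (map_inv₀ g' ⟨y, hy⟩).symm
    | mul y z hy hz h1 h2 =>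
      exact ((map_mul g ⟨y, hy⟩ ⟨z, hz⟩).trans (congrArg₂ (· * ·) h1 h2)).trans
        (map_mul g' ⟨y, hy⟩ ⟨z, hz⟩).symm
  haveI : IsMulCommutative (N ≃ₐ[M] N) := ⟨⟨fun g g' => hdet _ _ fun x => by
    have hg : ∀ (g : N ≃ₐ[M] N) x, g (j x) = j (AlgEquiv.restrictNormalHom L (g.restrictScalars K) x) :=
      fun g x => ((g.restrictScalars K).restrictNormal_commutes L x).symm
    rw [AlgEquiv.mul_apply, AlgEquiv.mul_apply, hg g', hg g, hg g, hg g', ← AlgEquiv.mul_apply,
      ← AlgEquiv.mul_apply, mul_comm']⟩⟩
  have htriv : ∀ g : N ≃ₐ[M] N, g = 1 := fun g => by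
    obtain ⟨y, rfl⟩ := artinIdele_surjective (K := M) (L := N) g
    refine hdet _ _ fun x => ?_
    have h1 : restrictBelow K M L N (artinIdele N y) = 1 := by
      rw [← artinIdele_normIdele]
      exact MonoidHom.mem_ker.1 (h ⟨y, rfl⟩)
    have h2 := restrictBelow_apply (K := K) (L := L) (artinIdele N y) x
    rw [h1] at h2
    exact h2.symm
  let i : M →ₐ[K] N := IsScalarTower.toAlgHom K M N
  have hmem : ∀ x, j x ∈ i.range := fun x => by
    obtain ⟨y, hy⟩ := IntermediateField.mem_bot.1
      ((IsGalois.mem_bot_iff_fixed (j x)).2 fun g => by rw [htriv g]; rfl)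
    exact ⟨y, hy⟩
  exact ⟨(AlgEquiv.ofInjective i i.toRingHom.injective).symm.toAlgHom.comp
    (j.codRestrict i.range hmem)⟩

/-- **Norms act trivially on the abelian subextensions.** -/
theorem norm_le_ker_of_algHom {A : Type*} [Field A] [NumberField A] [Algebra K A] [IsGalois K A]
    [IsMulCommutative (A ≃ₐ[K] A)] (i : A →ₐ[K] M) :
    (normIdele K M).range ≤ (artinIdele (K := K) A).ker := by
  letI : Algebra A M := i.toRingHom.toAlgebra
  haveI : IsScalarTower K A M := IsScalarTower.of_algebraMap_eq fun x => (i.commutes x).symm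
  haveI : Subsingleton (M ≃ₐ[M] M) := ⟨fun g g' => AlgEquiv.ext fun x =>
    (g.commutes x).trans (g'.commutes x).symm⟩
  haveI : IsMulCommutative (M ≃ₐ[M] M) := ⟨⟨fun g g' => Subsingleton.elim _ _⟩⟩
  rintro _ ⟨y, rfl⟩
  rw [MonoidHom.mem_ker, artinIdele_normIdele (L := A) (N := M),
    Subsingleton.elim (artinIdele M y) 1, map_one]

/-- **The norms are the kernel of the largest abelian subextension.** -/
theorem principal_sup_norm_eq_ker {A : Type*} [Field A] [NumberField A] [Algebra K A] [IsGalois K A]
    [IsMulCommutative (A ≃ₐ[K] A)] (i : A →ₐ[K] M)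
    (hmax : ∀ (B : Type u) [Field B] [NumberField B] [Algebra K B] [IsGalois K B]
      [IsMulCommutative (B ≃ₐ[K] B)], (B →ₐ[K] M) → Nonempty (B →ₐ[K] A)) :
    (principal (K := K)).range ⊔ (normIdele K M).range = (artinIdele (K := K) A).ker := by
  refine le_antisymm (sup_le (fun x ⟨a, ha⟩ => ha ▸ artinIdele_principal a)
    (norm_le_ker_of_algHom i)) fun x hx => ?_
  refine mem_of_forall_levelSub isClosed_principal_sup_norm (fun z hz => ?_) fun T hT k => ?_
  · obtain ⟨y, -, hy⟩ := (map_posInf (K := K) (M := M)).ge hz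
    exact Subgroup.mem_sup_right ⟨y, hy⟩
  obtain ⟨L, i1, i2, i3, i4, i5, hL⟩ := exists_ker_artinIdele_eq
    (H := (principal (K := K)).range ⊔ (normIdele K M).range ⊔ levelSub T k)
    (Subgroup.isOpen_mono le_sup_right (isOpen_levelSub hT k)) (le_sup_left.trans le_sup_left)
  obtain ⟨f⟩ := nonempty_algHom_of_norm_le_ker (M := M) (L := L)
    (hL ▸ (le_sup_right.trans le_sup_left))
  obtain ⟨g⟩ := hmax L f
  rw [← hL]
  exact ker_artinIdele_le_iff.2 ⟨g⟩ hx

/-- **The index is the degree of the largest abelian subextension.** -/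
theorem index_principal_sup_norm {A : Type*} [Field A] [NumberField A] [Algebra K A] [IsGalois K A]
    [IsMulCommutative (A ≃ₐ[K] A)] (i : A →ₐ[K] M)
    (hmax : ∀ (B : Type u) [Field B] [NumberField B] [Algebra K B] [IsGalois K B]
      [IsMulCommutative (B ≃ₐ[K] B)], (B →ₐ[K] M) → Nonempty (B →ₐ[K] A)) :
    ((principal (K := K)).range ⊔ (normIdele K M).range).index = Module.finrank K A := by
  rw [principal_sup_norm_eq_ker i hmax, Subgroup.index_ker,
    MonoidHom.range_eq_top.2 artinIdele_surjective, Nat.card_congr Subgroup.topEquiv.toEquiv,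
    IsGalois.card_aut_eq_finrank]

variable (K M) in
/-- **The largest abelian subextension.** -/
theorem exists_largest_abelian :
    ∃ A : IntermediateField K M, IsAbelianGalois K A ∧
      ∀ (B : Type u) [Field B] [Algebra K B] [IsGalois K B]
        [IsMulCommutative (B ≃ₐ[K] B)], (B →ₐ[K] M) → Nonempty (B →ₐ[K] A) := by
  set A := IntermediateField.fixedField (commutator (M ≃ₐ[K] M)) with hA
  haveI : IsGalois K A := IsGalois.of_fixedField_normal_subgroup _
  refine ⟨A, { (inferInstance : IsGalois K A) with is_comm := ⟨fun s t => ?_⟩ },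
    fun B _ _ _ _ f => ?_⟩
  · obtain ⟨s, rfl⟩ := AlgEquiv.restrictNormalHom_surjective M s
    obtain ⟨t, rfl⟩ := AlgEquiv.restrictNormalHom_surjective M t
    rw [← map_mul, ← map_mul]
    refine AlgEquiv.ext fun x => Subtype.ext ?_
    refine (AlgEquiv.restrictNormal_commutes (s * t) A x).trans
      (Eq.trans ?_ (AlgEquiv.restrictNormal_commutes (t * s) A x).symm)
    have hc : ((t * s)⁻¹ * (s * t)) (x : M) = x := x.2 ⟨_, by
      rw [show (t * s)⁻¹ * (s * t) = ⁅s⁻¹, t⁻¹⁆ by
        rw [commutatorElement_def, mul_inv_rev, inv_inv, inv_inv]; group]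
      exact Subgroup.commutator_mem_commutator (Subgroup.mem_top _) (Subgroup.mem_top _)⟩
    have h4 := congrArg (t * s) hc
    rwa [← AlgEquiv.mul_apply, mul_inv_cancel_left] at h4
  · letI : Algebra B M := f.toRingHom.toAlgebra
    haveI : IsScalarTower K B M := IsScalarTower.of_algebraMap_eq fun x => (f.commutes x).symm
    have hmem : ∀ x, f x ∈ A := fun x => fun ⟨g, hg⟩ => by
      have h1 := MonoidHom.mem_ker.1
        (Abelianization.commutator_subset_ker (AlgEquiv.restrictNormalHom (F := K) (K₁ := M) B) hg)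
      have h2 := g.restrictNormal_commutes B x
      rw [show g.restrictNormal B = AlgEquiv.restrictNormalHom B g from rfl, h1] at h2
      exact h2.symm
    exact ⟨{ toFun := fun x => ⟨f x, hmem x⟩
             map_one' := Subtype.ext (map_one f)
             map_mul' := fun x y => Subtype.ext (map_mul f x y)
             map_zero' := Subtype.ext (map_zero f)
             map_add' := fun x y => Subtype.ext (map_add f x y)
             commutes' := fun r => Subtype.ext (f.commutes r) }⟩

end FA.IdeleClass

end
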