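import Fermat.Agent.IdeleClass.Extend
import Fermat.Agent.ArtinL.Induction
import Fermat.Agent.PrincipalIdeal.Residue
import Mathlib.GroupTheory.Transfer
import Mathlib.GroupTheory.Abelianization.Defs

/-!
# The transfer theorem

For `K ⊆ M ⊆ N` with `N/K` Galois, the Artin map of `M` on the ideles of `K` is the transfer from
`Gal(N/K)` to the abelian quotients of `Gal(N/M)` of the Artin map of `K`.
-/

set_option autoImplicit false
set_option linter.unusedSectionVars false
set_option linter.style.haveILetI false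

noncomputable section

open NumberField IsDedekindDomain IsMulCommutative MulAction WithZero
open FA.ArtinRec FA.Ideles FA.NormResidue FA.LocalCFT
open FA.ArtinL (galIncl IsFrobPow resCard)
open FA.QuadFormsNF (valued_algebraMap)
open scoped Pointwise Classical

namespace FA.IdeleClass

universe u

variable {K : Type u} [Field K] [NumberField K] {M N : Type*} [Field M] [NumberField M] [Field N]
  [NumberField N] [Algebra K M] [Algebra K N] [Algebra M N] [IsScalarTower K M N] [IsGalois K N]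

theorem galIncl_injective :
    Function.Injective (galIncl K M N : (N ≃ₐ[M] N) →* (N ≃ₐ[K] N)) :=
  fun _ _ h => AlgEquiv.ext fun x => DFunLike.congr_fun h x

theorem belowP_trans (Q : HeightOneSpectrum (𝓞 N)) : belowP K (belowP M Q) = belowP K Q :=
  HeightOneSpectrum.ext (Ideal.under_under Q.asIdeal)

/-- An unramified prime has index one in every intermediate field. -/
theorem eIdx_mid_eq_one {Q : HeightOneSpectrum (𝓞 N)} (h : ¬ IsRam N (belowP K Q)) :
    eIdx K (belowP M Q) = 1 := by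
  set v := belowP K Q
  have e1 := valuation_algebraMap_below (M := N) Q (unif v : K)
  have e2 := valuation_algebraMap_below (K := M) Q (algebraMap K M (unif v : K))
  rw [← IsScalarTower.algebraMap_apply, e1, valuation_algebraMap_below, belowP_trans, ← pow_mul,
    eIdx_eq_one h, pow_one, valuation_eq_exp, ord_unif, ← exp_nsmul, exp_inj, nsmul_eq_mul,
    mul_neg, mul_one, neg_inj] at e2
  exact Nat.eq_one_of_mul_eq_one_right (Nat.cast_inj.1 (e2.symm.trans Nat.cast_one.symm))

/-- **At an unramified prime the decomposition group is generated by Frobenius.** -/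
theorem exists_zpow_of_fix {Q : HeightOneSpectrum (𝓞 N)} {τ : N ≃ₐ[K] N}
    (hτ : IsArithFrobAt (𝓞 K) τ Q.asIdeal) (hI : Q.asIdeal.inertia (N ≃ₐ[K] N) = ⊥)
    {g : N ≃ₐ[K] N} (hg : galPrime g Q = Q) : ∃ k : ℤ, τ ^ k = g := by
  haveI := Q.isMaximal
  haveI : Finite (𝓞 N ⧸ Q.asIdeal) := Ideal.finiteQuotientOfFreeOfNeBot _ Q.ne_bot
  obtain ⟨F, hF0, hF⟩ := FA.ArtinL.exists_card_eq_pow K Q.asIdeal
  have hstab := FA.ArtinL.card_stabilizer_eq K Q.asIdeal hF
  rw [hI, Subgroup.card_bot, one_mul] at hstab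
  have hres : resCard N Q.asIdeal = resCard K Q.asIdeal ^ F := by
    rw [resCard]
    exact (Nat.card_congr (Ideal.quotEquivOfEq (Ideal.ext fun y => Iff.rfl)).toEquiv).trans hF
  have hdvd : F ∣ orderOf τ :=
    FA.ArtinL.dvd_of_isFrobPow K Q.asIdeal hF0 hres (σ := (1 : N ≃ₐ[N] N)) fun x => by
      have h := FA.PrincipalIdeal.frob_pow_sub_mem hτ (orderOf τ) x
      rw [pow_orderOf_eq_one, one_smul] at h
      exact h
  have hle : Subgroup.zpowers τ ≤ MulAction.stabilizer (N ≃ₐ[K] N) Q.asIdeal :=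
    Subgroup.zpowers_le.2 hτ.mem_stabilizer
  have heq := Subgroup.eq_of_le_of_card_ge hle (by
    rw [hstab, Nat.card_zpowers]
    exact Nat.le_of_dvd (orderOf_pos τ) hdvd)
  exact Subgroup.mem_zpowers_iff.1 (heq.ge (congrArg HeightOneSpectrum.asIdeal hg :))

variable [IsGalois M N] {L : Type*} [Field L] [NumberField L] [Algebra M L] [Algebra L N]
  [IsScalarTower M L N] [IsGalois M L] [IsMulCommutative (L ≃ₐ[M] L)]

variable (K M N L) in
/-- Restriction to an abelian extension of `M`, on the subgroup of `Gal(N/K)` fixing `M`. -/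
def restrictOver : (galIncl K M N).range →* (L ≃ₐ[M] L) :=
  (AlgEquiv.restrictNormalHom L).comp (MonoidHom.ofInjective galIncl_injective).symm.toMonoidHom

theorem restrictOver_apply (h : N ≃ₐ[M] N) (hm : galIncl K M N h ∈ (galIncl K M N).range) :
    restrictOver K M N L ⟨galIncl K M N h, hm⟩ = AlgEquiv.restrictNormalHom L h :=
  congrArg (AlgEquiv.restrictNormalHom L)
    ((MonoidHom.ofInjective (galIncl_injective (K := K) (M := M) (N := N))).symm_apply_apply h)

/-- The cosets of the subgroup fixing `M` have their primes. -/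
theorem belowP_galPrime_coset (Q : HeightOneSpectrum (𝓞 N)) {a b : N ≃ₐ[K] N}
    (h : a⁻¹ * b ∈ (galIncl K M N).range) :
    belowP M (galPrime a⁻¹ Q) = belowP M (galPrime b⁻¹ Q) := by
  obtain ⟨s, hs⟩ := h
  rw [show galPrime a⁻¹ Q = galPrime (a⁻¹ * b) (galPrime b⁻¹ Q) by
      rw [← galPrime_mul, mul_inv_cancel_right], ← hs,
    show galPrime (galIncl K M N s) (galPrime b⁻¹ Q) = galPrime s (galPrime b⁻¹ Q) from
      HeightOneSpectrum.ext rfl, belowP_galPrime]

/-- **The symbols of the primes above are the transfer of Frobenius.** -/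
theorem prod_artinAt_eq_transfer {v : HeightOneSpectrum (𝓞 K)} (hN : ¬ IsRam N v)
    (hL : ∀ P : HeightOneSpectrum (𝓞 M), belowP K P = v → ¬ IsRam L P)
    {Q0 : HeightOneSpectrum (𝓞 N)} (hQ0 : belowP K Q0 = v) {τ : N ≃ₐ[K] N}
    (hτ : IsArithFrobAt (𝓞 K) τ Q0.asIdeal) :
    MonoidHom.transfer (restrictOver K M N L) τ =
      ∏ P ∈ (finite_belowP (L := M) v).toFinset, artinAt L P := by
  set H := (galIncl K M N).range
  haveI := Fintype.ofFinite (Quotient (orbitRel (Subgroup.zpowers τ) ((N ≃ₐ[K] N) ⧸ H)))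
  rw [MonoidHom.transfer_eq_prod_quotient_orbitRel_zpowers_quot]
  have hτQ : galPrime τ Q0 = Q0 := HeightOneSpectrum.ext (by
    haveI := Q0.isMaximal
    haveI : Finite (𝓞 N ⧸ Q0.asIdeal) := Ideal.finiteQuotientOfFreeOfNeBot _ Q0.ne_bot
    exact hτ.mem_stabilizer)
  refine Finset.prod_bij (fun q _ => belowP M (galPrime q.out.out⁻¹ Q0))
    (fun q _ => (finite_belowP (L := M) v).mem_toFinset.2 ?_) (fun q _ q' _ h => ?_)
    (fun P hP => ?_) fun q _ => ?_
  · show belowP K _ = v
    rw [belowP_trans, belowP_galPrime, hQ0]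
  · -- one orbit for each prime
    obtain ⟨s, hs⟩ := Algebra.IsInvariant.exists_smul_of_under_eq (𝓞 M) (𝓞 N) (N ≃ₐ[M] N)
      (galPrime q.out.out⁻¹ Q0).asIdeal (galPrime q'.out.out⁻¹ Q0).asIdeal
      (congrArg HeightOneSpectrum.asIdeal h)
    have hs' : galPrime q'.out.out⁻¹ Q0 = galPrime (galIncl K M N s) (galPrime q.out.out⁻¹ Q0) :=
      HeightOneSpectrum.ext hs
    obtain ⟨k, hk⟩ := exists_zpow_of_fix hτ (inertia_eq_bot hN hQ0)
      (g := q'.out.out * galIncl K M N s * q.out.out⁻¹) (by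
        rw [galPrime_mul, galPrime_mul, ← hs', ← galPrime_mul, mul_inv_cancel, galPrime_one])
    rw [← Quotient.out_eq q, ← Quotient.out_eq q']
    refine (Quotient.sound' (MulAction.orbitRel_apply.2 ⟨⟨τ ^ k, k, rfl⟩, ?_⟩)).symm
    refine Eq.trans ?_ (QuotientGroup.out_eq' q'.out)
    rw [← QuotientGroup.out_eq' q.out]
    show (QuotientGroup.mk (τ ^ k * q.out.out) : (N ≃ₐ[K] N) ⧸ H) = _
    refine QuotientGroup.eq.2 ⟨s⁻¹, ?_⟩
    rw [hk, inv_mul_cancel_right, map_inv, mul_inv_rev, inv_mul_cancel_right]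
  · -- every prime has an orbit
    have hPv : belowP K P = v := (finite_belowP (L := M) v).mem_toFinset.1 hP
    obtain ⟨Q, hQ⟩ := exists_belowP M N P
    obtain ⟨g, hg⟩ := Algebra.IsInvariant.exists_smul_of_under_eq (𝓞 K) (𝓞 N) (N ≃ₐ[K] N)
      Q0.asIdeal Q.asIdeal (congrArg HeightOneSpectrum.asIdeal
        ((hQ0.trans hPv.symm).trans ((congrArg (belowP K) hQ.symm).trans (belowP_trans Q))))
    set q : Quotient (orbitRel (Subgroup.zpowers τ) ((N ≃ₐ[K] N) ⧸ H)) :=
      Quotient.mk'' (QuotientGroup.mk g⁻¹ : (N ≃ₐ[K] N) ⧸ H)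
    refine ⟨q, Finset.mem_univ _, ?_⟩
    obtain ⟨⟨t, k, rfl⟩, ht⟩ : q.out ∈ MulAction.orbit (Subgroup.zpowers τ)
        (QuotientGroup.mk g⁻¹ : (N ≃ₐ[K] N) ⧸ H) :=
      MulAction.orbitRel_apply.1 (Quotient.exact (Quotient.out_eq q))
    have ht' : (QuotientGroup.mk (τ ^ k * g⁻¹) : (N ≃ₐ[K] N) ⧸ H) = QuotientGroup.mk q.out.out :=
      ht.trans (QuotientGroup.out_eq' q.out).symm
    show belowP M (galPrime q.out.out⁻¹ Q0) = P
    rw [belowP_galPrime_coset Q0 (QuotientGroup.eq.1 ht'.symm)]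
    have hk : galPrime (τ ^ k)⁻¹ Q0 = Q0 := HeightOneSpectrum.ext (by
      have h2 : τ ^ k ∈ MulAction.stabilizer (N ≃ₐ[K] N) Q0.asIdeal :=
        zpow_mem (congrArg HeightOneSpectrum.asIdeal hτQ :) k
      exact inv_mem h2)
    rw [mul_inv_rev, inv_inv, galPrime_mul, hk, ← hQ]
    exact congrArg (belowP M) (HeightOneSpectrum.ext hg.symm)
  · -- each factor is a symbol
    set c := q.out.out
    set Q := galPrime c⁻¹ Q0 with hQdef
    set f := Function.minimalPeriod (τ • ·) q.out
    haveI := Q.isMaximal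
    haveI := (belowP M Q).isMaximal
    obtain ⟨s, hs⟩ : c⁻¹ * τ ^ f * c ∈ H := QuotientGroup.out_conj_pow_minimalPeriod_mem H τ q.out
    obtain ⟨m, hm0, hm⟩ := FA.ArtinL.exists_card_eq_pow K (belowP M Q).asIdeal
    have hQK : belowP K Q = v := by rw [hQdef, belowP_galPrime, hQ0]
    have hres : resCard M Q.asIdeal = resCard K Q.asIdeal ^ m := by
      show Nat.card (𝓞 M ⧸ (belowP M Q).asIdeal) = Nat.card (𝓞 K ⧸ Q.asIdeal.under (𝓞 K)) ^ m
      rw [← Ideal.under_under (B := 𝓞 M) Q.asIdeal]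
      exact hm
    have hfrob : ∀ i : ℕ, IsFrobPow K Q.asIdeal i (c⁻¹ * τ ^ i * c) := fun i => by
      have h := (FA.ArtinL.isFrobPow_conj K c⁻¹ (τ ^ i) (Q := Q0.asIdeal) (j := i)).2
        (FA.PrincipalIdeal.frob_pow_sub_mem hτ i)
      rwa [inv_inv] at h
    have hsK : IsFrobPow K Q.asIdeal f (galIncl K M N s) := hs ▸ hfrob f
    have hmf : m ∣ f := FA.ArtinL.dvd_of_isFrobPow K Q.asIdeal hm0 hres (σ := s) hsK
    have hfm : f ∣ m := by
      obtain ⟨σ, hσ⟩ := exists_frob (K := M) Q
      have hσK : IsFrobPow K Q.asIdeal m (galIncl K M N σ) := by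
        have h1 : IsFrobPow M Q.asIdeal 1 σ := fun x => by rw [pow_one]; exact hσ x
        rw [FA.ArtinL.isFrobPow_restrictScalars K Q.asIdeal hres, mul_one] at h1
        exact h1
      have he := (FA.ArtinL.mul_inv_mem_inertia_iff K (hfrob m)).2 hσK
      rw [inertia_eq_bot hN hQK, Subgroup.mem_bot, mul_inv_eq_one] at he
      refine Function.IsPeriodicPt.minimalPeriod_dvd ?_
      show (τ • ·)^[m] q.out = q.out
      rw [smul_iterate_apply, ← QuotientGroup.out_eq' q.out, MulAction.Quotient.smul_mk,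
        QuotientGroup.eq, smul_eq_mul]
      rw [show (τ ^ m * c)⁻¹ * c = (c⁻¹ * τ ^ m * c)⁻¹ by group, ← he]
      exact inv_mem ⟨σ, rfl⟩
    have hfeq : f = m := Nat.dvd_antisymm hfm hmf
    have hmem : galIncl K M N s ∈ H := ⟨s, rfl⟩
    refine (congrArg (restrictOver K M N L) (Subtype.ext hs.symm :
      _ = (⟨galIncl K M N s, hmem⟩ : H))).trans ((restrictOver_apply s hmem).trans ?_)
    refine restrict_frob (hL _ ((belowP_trans Q).trans hQK)) rfl fun x => ?_
    have h := hsK x
    rw [hfeq, ← hres] at h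
    exact h

variable {A : Type*} [Field A] [NumberField A] [Algebra K A] [Algebra A N] [IsScalarTower K A N]
  [IsGalois K A] [IsMulCommutative (A ≃ₐ[K] A)]

/-- **The transfer theorem.** -/
theorem artinIdele_inclIdele
    (hker : (AlgEquiv.restrictNormalHom A : (N ≃ₐ[K] N) →* (A ≃ₐ[K] A)).ker ≤
      commutator (N ≃ₐ[K] N))
    {x : Idele K} {g : N ≃ₐ[K] N} (hg : AlgEquiv.restrictNormalHom A g = artinIdele A x) :
    artinIdele L (inclIdele K M x) = MonoidHom.transfer (restrictOver K M N L) g := by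
  set tr := MonoidHom.transfer (restrictOver K M N L)
  set R := (AlgEquiv.restrictNormalHom A : (N ≃ₐ[K] N) →* (A ≃ₐ[K] A))
  have hR : Function.Surjective R := AlgEquiv.restrictNormalHom_surjective N
  have hle : R.ker ≤ tr.ker := hker.trans (Abelianization.commutator_subset_ker tr)
  set T := MonoidHom.liftOfSurjective R hR ⟨tr, hle⟩
  have hT : ∀ h, T (R h) = tr h := fun h =>
    MonoidHom.liftOfRightInverse_comp_apply R (Function.surjInv hR) (Function.rightInverse_surjInv hR)
      ⟨tr, hle⟩ h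
  suffices key : (artinIdele L).comp (inclIdele K M) = T.comp (artinIdele A) by
    rw [show artinIdele L (inclIdele K M x) = T (artinIdele A x) from DFunLike.congr_fun key x,
      ← hg, hT]
  set S : Set (HeightOneSpectrum (𝓞 K)) :=
    {v | IsRam N v} ∪ {v | IsRam A v} ∪ belowP K '' {P : HeightOneSpectrum (𝓞 M) | IsRam L P}
  have hS : S.Finite :=
    ((finite_isRam K N).union (finite_isRam K A)).union ((finite_isRam M L).image _)
  refine idele_hom_ext hS (max (nrLevel K A) (nrLevel M L)) (fun a => ?_) (fun y hy => ?_)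
    fun v hv => ?_
  · rw [MonoidHom.comp_apply, MonoidHom.comp_apply, inclIdele_principal, artinIdele_principal,
      artinIdele_principal, map_one]
  · have h1 : y ∈ (artinIdele (K := K) A).ker :=
      levelSub_le_ker (fun w hw => Or.inl (Or.inr hw)) (le_max_left _ _) hy
    have h2 : inclIdele K M y ∈ (artinIdele (K := M) L).ker :=
      levelSub_le_ker (K := M) (T := belowP K ⁻¹' S) (fun P hP => Or.inr ⟨P, hP, rfl⟩)
        (le_max_right _ _) (inclIdele_mem_levelSub hy)
    rw [MonoidHom.comp_apply, MonoidHom.comp_apply, MonoidHom.mem_ker.1 h1,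
      MonoidHom.mem_ker.1 h2, map_one]
  · have hN : ¬ IsRam N v := fun h => hv (Or.inl (Or.inl h))
    have hA : ¬ IsRam A v := fun h => hv (Or.inl (Or.inr h))
    have hL : ∀ P : HeightOneSpectrum (𝓞 M), belowP K P = v → ¬ IsRam L P :=
      fun P hP h => hv (Or.inr ⟨P, h, hP⟩)
    obtain ⟨Q0, hQ0⟩ := exists_belowP K N v
    obtain ⟨τ, hτ⟩ := exists_frob (K := K) Q0
    rw [MonoidHom.comp_apply, MonoidHom.comp_apply, inclIdele_single, map_prod,
      artinIdele_single_unif hA, ← restrict_frob hA hQ0 hτ, hT,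
      prod_artinAt_eq_transfer hN hL hQ0 hτ]
    refine Finset.prod_congr rfl fun P hP => ?_
    have hPv : belowP K P = v := (finite_belowP (L := M) v).mem_toFinset.1 hP
    refine artinIdele_uniformiser (hL P hPv) ?_
    obtain ⟨Q, rfl⟩ := exists_belowP M N P
    subst hPv
    rw [valued_finInc, finComp_single_self, valued_localEmb_unif,
      eIdx_mid_eq_one (by rwa [← belowP_trans (M := M)]), pow_one]

end FA.IdeleClass

end
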